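import Fermat.Agent.H27.Branch

set_option autoImplicit false
set_option linter.all false

/-! Branch data for the other coordinates. -/

open Polynomial

namespace Fermat.Agent.H29

open Fermat.Agent.H27

noncomputable section

variable {K : Type} [Field K] {A : ValuationSubring K} {𝕂 : Type*} [Field 𝕂] [Algebra K 𝕂]

theorem squarefree_lin {k : Type*} [Field k] (a b : k) (hb : b ≠ 0) :
    Squarefree (C a * X + C b : k[X]) := by
  by_cases ha : a = 0
  · rw [ha, C_0, zero_mul, zero_add]
    exact (isUnit_C.mpr (isUnit_iff_ne_zero.mpr hb)).squarefree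
  · exact (irreducible_of_degree_eq_one (degree_linear ha)).squarefree

theorem isCoprime_lin {k : Type*} [Field k] (a b c d : k) (h : a * d - b * c ≠ 0) :
    IsCoprime (C a * X + C b : k[X]) (C c * X + C d) := by
  refine ⟨C ((a * d - b * c)⁻¹ * (-c)), C ((a * d - b * c)⁻¹ * a), ?_⟩
  have h1 : C ((a * d - b * c)⁻¹) * (C a * C d - C b * C c) = (1 : k[X]) := by
    rw [← C_mul, ← C_mul, ← C_sub, ← C_mul, inv_mul_cancel₀ h, C_1]
  rw [C_mul, C_mul, C_neg]
  linear_combination h1

theorem squarefree_X_mul_mul {k : Type*} [Field k] (a b c d : k) (hb : b ≠ 0) (hd : d ≠ 0)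
    (h : a * d - b * c ≠ 0) :
    Squarefree (X * ((C a * X + C b) * (C c * X + C d)) : k[X]) := by
  have h0 : ∀ a b : k, b ≠ 0 → IsCoprime (X : k[X]) (C a * X + C b) := by
    intro a b hb
    have := isCoprime_lin (1 : k) 0 a b (by simpa using hb)
    simpa using this
  have hcop1 := h0 a b hb
  have hcop2 := h0 c d hd
  rw [squarefree_mul_iff]
  refine ⟨(hcop1.mul_right hcop2).isRelPrime, irreducible_X.squarefree, ?_⟩
  rw [squarefree_mul_iff]
  exact ⟨(isCoprime_lin a b c d h).isRelPrime, squarefree_lin a b hb, squarefree_lin c d hd⟩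

variable [CharZero K] (A)

def quadD (a b c d : ℤ) : A[X] :=
  X * ((C (a : A) * X + C (b : A)) * (C (c : A) * X + C (d : A)))

theorem quadD_sq (a b c d : ℤ) (hb : (b : kk A) ≠ 0) (hd : (d : kk A) ≠ 0)
    (h : (a : kk A) * d - b * c ≠ 0) : Squarefree (redP A (quadD A a b c d)) := by
  have : redP A (quadD A a b c d) =
      X * ((C (a : kk A) * X + C (b : kk A)) * (C (c : kk A) * X + C (d : kk A))) := by
    simp [quadD, redP]
  rw [this]
  exact squarefree_X_mul_mul _ _ _ _ hb hd h

theorem quadD_eval (a b c d : ℤ) (t : K) :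
    (incP A (quadD A a b c d)).eval t = t * ((a * t + b) * (c * t + d)) := by
  simp [quadD, incP]

variable {A}

/-- branch data for `u = 1/(f + 256)` -/
def brTwoU [IsAlgClosed K] (h2 : (2 : kk A) ≠ 0) (x J : 𝕂)
    (hj : J * (x * (1 - 256 * x) ^ 2) = 1) : BrData A x J :=
  BrData.of x J 1 (X * (1 - 256 * X) ^ 2) isCoprime_one_left
    (by
      have h256 : (aeval x (256 : K[X]) : 𝕂) = 256 := map_ofNat _ _
      simp only [map_mul, map_pow, map_sub, map_one, aeval_X, h256]
      exact hj) (quadD A (-256) 1 (-192) 1)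
    (quadD_sq A (-256) 1 (-192) 1 (by simp) (by simp) (by
      have : ((-256 : ℤ) : kk A) * ((1 : ℤ) : kk A) - ((1 : ℤ) : kk A) * ((-192 : ℤ) : kk A) =
          - 2 ^ 6 := by push_cast; ring
      rw [this]
      exact neg_ne_zero.mpr (pow_ne_zero _ h2)))
    1 1 (1 - 768 * X) (1 - 192 * X) (by ring)
    (by
      have : (C 1728 : K[X]) = 1728 := rfl
      rw [this]; ring)
    one_ne_zero
    (by
      intro h0
      have := congrArg (eval (0 : K)) h0
      norm_num at this)
    (by
      intro a ha
      rw [quadD_eval] at ha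
      push_cast at ha
      have h1 := left_ne_zero_of_mul ha
      have h3 := left_ne_zero_of_mul (right_ne_zero_of_mul ha)
      have h4 := right_ne_zero_of_mul (right_ne_zero_of_mul ha)
      have h5 : 1 - 256 * a ≠ 0 := by intro h; apply h3; linear_combination h
      have h6 : 1 - 192 * a ≠ 0 := by intro h; apply h4; linear_combination h
      refine ⟨?_, by simp, by simpa using h6⟩
      have e : (X * (1 - 256 * X) ^ 2 : K[X]).eval a = a * (1 - 256 * a) ^ 2 := by simp
      rw [e]
      exact mul_ne_zero h1 (pow_ne_zero _ h5))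

/-- branch data for `u = 1/(f + 27)` -/
def brThreeU [IsAlgClosed K] (x J : 𝕂)
    (hj : J * (x * (1 - 27 * x) ^ 3) = (1 + 216 * x) ^ 3) : BrData A x J :=
  BrData.of x J ((1 + 216 * X) ^ 3) (X * (1 - 27 * X) ^ 3)
    (cop_of_eval (by
      intro a ha h
      have e : (X * (1 - 27 * X) ^ 3 : K[X]).eval a = a * (1 - 27 * a) ^ 3 := by simp
      have e' : ((1 + 216 * X) ^ 3 : K[X]).eval a = (1 + 216 * a) ^ 3 := by simp
      rw [e] at ha
      rw [e'] at h
      have h1 : 1 + 216 * a = 0 := pow_eq_zero_iff (three_ne_zero) |>.mp h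
      rcases mul_eq_zero.mp ha with h2 | h2
      · rw [h2] at h1; norm_num at h1
      · have h3 : 1 - 27 * a = 0 := pow_eq_zero_iff (three_ne_zero) |>.mp h2
        have h4 : (9 : K) = 0 := by linear_combination h1 + 8 * h3
        norm_num at h4))
    (by
      have h27 : (aeval x (27 : K[X]) : 𝕂) = 27 := map_ofNat _ _
      have h216 : (aeval x (216 : K[X]) : 𝕂) = 216 := map_ofNat _ _
      simp only [map_mul, map_pow, map_sub, map_add, map_one, aeval_X, h27, h216]
      exact hj) (linD A (-27) 1)
    (linD_sq A (-27) 1 (by simp))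
    (1 + 216 * X) 1 (1 - 540 * X - 5832 * X ^ 2) 1 (by ring)
    (by
      have : (C 1728 : K[X]) = 1728 := rfl
      rw [this]; ring)
    (by
      intro h0
      have := congrArg (eval (0 : K)) h0
      norm_num at this)
    (by
      intro h0
      have := congrArg (eval (0 : K)) h0
      norm_num at this)
    (by
      intro a ha
      rw [linD_eval] at ha
      push_cast at ha
      have h1 := left_ne_zero_of_mul ha
      have h3 := right_ne_zero_of_mul ha
      have h5 : 1 - 27 * a ≠ 0 := by intro h; apply h3; linear_combination h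
      refine ⟨?_, by simp, by simp⟩
      have e : (X * (1 - 27 * X) ^ 3 : K[X]).eval a = a * (1 - 27 * a) ^ 3 := by simp
      rw [e]
      exact mul_ne_zero h1 (pow_ne_zero _ h5))

end

end Fermat.Agent.H29
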