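import Mathlib

set_option autoImplicit false

/-! Instance shortcuts (to be used as local instances of high priority). -/

namespace Fermat.Agent.H29

/-- shortcut -/
@[reducible] noncomputable def instLS (k : Type*) [Field k] : Algebra k (LaurentSeries k) :=
  inferInstance

/-- shortcut -/
@[reducible] noncomputable def instIF (k Ω : Type*) [Field k] [Field Ω] [Algebra k Ω]
    (E : IntermediateField k Ω) : Algebra k E := inferInstance

/-- shortcut -/
@[reducible] noncomputable def instIF2 (k Ω : Type*) [Field k] [Field Ω] [Algebra k Ω]
    (E : IntermediateField k Ω) : Algebra E Ω := inferInstance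

end Fermat.Agent.H29
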