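import Mathlib

/-!
# Gauss extensions

`A` a valuation ring with fraction field `L`, residue map `π : A → k`; `S` an `A`-algebra contained
in a field `F ⊇ L` with a ring hom `ρ : S → κ` to a field extension of `k`; `t : S`.
-/

set_option autoImplicit false

open Polynomial

namespace Fermat.Agent.H29

section Scaling

variable {A L : Type*} [CommRing A] [IsDomain A] [ValuationRing A] [Field L] [Algebra A L]
  [IsFractionRing A L]

variable (A) in
theorem exists_scale {ι : Type*} (s : Finset ι) (x : ι → L) (h : ∃ i ∈ s, x i ≠ 0) :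
    ∃ i₀ ∈ s, x i₀ ≠ 0 ∧ ∀ i ∈ s, ∃ y : A, x i = x i₀ * algebraMap A L y := by
  classical
  induction s using Finset.induction_on with
  | empty => simp at h
  | insert a s ha ih =>
    by_cases hs : ∃ i ∈ s, x i ≠ 0
    · obtain ⟨i₀, hi₀, hx₀, hall⟩ := ih hs
      rcases ValuationRing.isInteger_or_isInteger A (x a / x i₀) with ⟨y, hy⟩ | ⟨y, hy⟩
      · refine ⟨i₀, Finset.mem_insert_of_mem hi₀, hx₀, fun i hi => ?_⟩
        rcases Finset.mem_insert.mp hi with rfl | hi
        · exact ⟨y, by rw [hy]; field_simp⟩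
        · exact hall i hi
      · by_cases hxa : x a = 0
        · refine ⟨i₀, Finset.mem_insert_of_mem hi₀, hx₀, fun i hi => ?_⟩
          rcases Finset.mem_insert.mp hi with rfl | hi
          · exact ⟨0, by rw [hxa]; simp⟩
          · exact hall i hi
        · refine ⟨a, Finset.mem_insert_self _ _, hxa, fun i hi => ?_⟩
          rcases Finset.mem_insert.mp hi with rfl | hi
          · exact ⟨1, by simp⟩
          · obtain ⟨z, hz⟩ := hall i hi
            refine ⟨y * z, ?_⟩
            rw [map_mul, hy, hz]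
            field_simp
    · have hxa : x a ≠ 0 := by
        obtain ⟨i, hi, hxi⟩ := h
        rcases Finset.mem_insert.mp hi with rfl | hi
        · exact hxi
        · exact absurd ⟨i, hi, hxi⟩ hs
      refine ⟨a, Finset.mem_insert_self _ _, hxa, fun i hi => ?_⟩
      rcases Finset.mem_insert.mp hi with rfl | hi
      · exact ⟨1, by simp⟩
      · refine ⟨0, ?_⟩
        have : x i = 0 := by
          by_contra hne
          exact hs ⟨i, hi, hne⟩
        rw [this]; simp

/-- scaling of a finite family of polynomials -/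
theorem exists_scale_poly {k : Type*} [Field k] (π : A →+* k) {ι : Type*} [Fintype ι]
    (p : ι → L[X]) (h : ∃ i, p i ≠ 0) :
    ∃ c : L, c ≠ 0 ∧ ∃ P : ι → A[X], (∀ i, p i = C c * (P i).map (algebraMap A L)) ∧
      ∃ i, (P i).map π ≠ 0 := by
  classical
  set s : Finset (Σ _ : ι, ℕ) := Finset.univ.sigma (fun i => (p i).support) with hs
  obtain ⟨⟨i₀, n₀⟩, hi₀, hx₀, hall⟩ := exists_scale A s (fun x => (p x.1).coeff x.2) (by
    obtain ⟨i, hi⟩ := h
    obtain ⟨n, hn⟩ := Polynomial.support_nonempty.mpr hi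
    refine ⟨⟨i, n⟩, ?_, Polynomial.mem_support_iff.mp hn⟩
    rw [hs, Finset.mem_sigma]
    exact ⟨Finset.mem_univ _, hn⟩)
  simp only at hx₀ hall
  have hall' : ∀ i n, ∃ y : A, (p i).coeff n = (p i₀).coeff n₀ * algebraMap A L y := by
    intro i n
    by_cases hn : n ∈ (p i).support
    · exact hall ⟨i, n⟩ (by rw [hs, Finset.mem_sigma]; exact ⟨Finset.mem_univ _, hn⟩)
    · exact ⟨0, by rw [Polynomial.notMem_support_iff.mp hn]; simp⟩
  choose y hy using hall'
  refine ⟨(p i₀).coeff n₀, hx₀, fun i => ∑ n ∈ (p i).support, monomial n (y i n), ?_, i₀, ?_⟩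
  · intro i
    ext n
    rw [coeff_C_mul, coeff_map, finsetSum_coeff]
    simp only [coeff_monomial]
    rw [Finset.sum_ite_eq' (p i).support n (fun m => y i m)]
    split_ifs with hn
    · exact hy i n
    · rw [Polynomial.notMem_support_iff.mp hn]; simp
  · intro h0
    have h1 : (Polynomial.map π (∑ n ∈ (p i₀).support, monomial n (y i₀ n))).coeff n₀ = 0 := by
      rw [h0, coeff_zero]
    rw [coeff_map, finsetSum_coeff] at h1
    simp only [coeff_monomial] at h1
    rw [Finset.sum_ite_eq' (p i₀).support n₀ (fun m => y i₀ m),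
      if_pos (Polynomial.mem_support_iff.mpr hx₀)] at h1
    have h2 : y i₀ n₀ = 1 := by
      apply IsFractionRing.injective A L
      rw [map_one]
      have := hy i₀ n₀
      field_simp at this
      exact this.symm
    rw [h2, map_one] at h1
    exact one_ne_zero h1

end Scaling

section Val

variable {F S κ : Type*} [Field F] [CommRing S] [Algebra S F] [FaithfulSMul S F] [Field κ]
  (ρ : S →+* κ)

/-- the local ring of `S` at `ker ρ`, as a subring of `F`. -/
def valRing : Subring F where
  carrier := {f | ∃ a b : S, ρ b ≠ 0 ∧ algebraMap S F b * f = algebraMap S F a}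
  mul_mem' := by
    rintro f g ⟨a, b, hb, hf⟩ ⟨c, d, hd, hg⟩
    exact ⟨a * c, b * d, by rw [map_mul]; exact mul_ne_zero hb hd, by
      rw [map_mul, map_mul, ← hf, ← hg]; ring⟩
  one_mem' := ⟨1, 1, by simp, by simp⟩
  add_mem' := by
    rintro f g ⟨a, b, hb, hf⟩ ⟨c, d, hd, hg⟩
    exact ⟨a * d + c * b, b * d, by rw [map_mul]; exact mul_ne_zero hb hd, by
      rw [map_add, map_mul, map_mul, map_mul, ← hf, ← hg]; ring⟩
  zero_mem' := ⟨0, 1, by simp, by simp⟩
  neg_mem' := by
    rintro f ⟨a, b, hb, hf⟩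
    exact ⟨-a, b, hb, by rw [map_neg, ← hf]; ring⟩

omit [FaithfulSMul S F] in
theorem mem_valRing {f : F} :
    f ∈ valRing ρ ↔ ∃ a b : S, ρ b ≠ 0 ∧ algebraMap S F b * f = algebraMap S F a := Iff.rfl

omit [FaithfulSMul S F] in
theorem algebraMap_mem_valRing (s : S) : algebraMap S F s ∈ valRing (F := F) ρ :=
  ⟨s, 1, by simp, by simp⟩

theorem rep_eq {f : F} {a b a' b' : S} (hb : ρ b ≠ 0) (hb' : ρ b' ≠ 0)
    (h : algebraMap S F b * f = algebraMap S F a)
    (h' : algebraMap S F b' * f = algebraMap S F a') : ρ a / ρ b = ρ a' / ρ b' := by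
  rw [div_eq_div_iff hb hb', ← map_mul, ← map_mul]
  congr 1
  apply FaithfulSMul.algebraMap_injective S F
  rw [map_mul, map_mul, ← h, ← h']; ring

/-- numerator -/
noncomputable def vnum (f : valRing (F := F) ρ) : S := f.2.choose

/-- denominator -/
noncomputable def vden (f : valRing (F := F) ρ) : S := f.2.choose_spec.choose

theorem vden_ne (f : valRing (F := F) ρ) : ρ (vden ρ f) ≠ 0 := f.2.choose_spec.choose_spec.1

theorem vden_mul (f : valRing (F := F) ρ) :
    algebraMap S F (vden ρ f) * f = algebraMap S F (vnum ρ f) := f.2.choose_spec.choose_spec.2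

theorem vfrac_eq (f : valRing (F := F) ρ) {a b : S} (hb : ρ b ≠ 0)
    (h : algebraMap S F b * f = algebraMap S F a) :
    ρ (vnum ρ f) / ρ (vden ρ f) = ρ a / ρ b :=
  rep_eq ρ (vden_ne ρ f) hb (vden_mul ρ f) h

/-- residue map of `valRing ρ` -/
noncomputable def valMap : valRing (F := F) ρ →+* κ where
  toFun f := ρ (vnum ρ f) / ρ (vden ρ f)
  map_one' := by
    rw [vfrac_eq ρ 1 (a := 1) (b := 1) (by simp) (by simp)]
    simp
  map_zero' := by
    rw [vfrac_eq ρ 0 (a := 0) (b := 1) (by simp) (by simp)]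
    simp
  map_mul' f g := by
    rw [vfrac_eq ρ (f * g) (a := vnum ρ f * vnum ρ g) (b := vden ρ f * vden ρ g)
      (by rw [map_mul]; exact mul_ne_zero (vden_ne ρ f) (vden_ne ρ g))
      (by rw [map_mul, map_mul, ← vden_mul, ← vden_mul, Subring.coe_mul]; ring)]
    rw [map_mul, map_mul, mul_div_mul_comm]
  map_add' f g := by
    rw [vfrac_eq ρ (f + g) (a := vnum ρ f * vden ρ g + vnum ρ g * vden ρ f)
      (b := vden ρ f * vden ρ g)
      (by rw [map_mul]; exact mul_ne_zero (vden_ne ρ f) (vden_ne ρ g))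
      (by rw [map_add, map_mul, map_mul, map_mul, ← vden_mul, ← vden_mul, Subring.coe_add]; ring)]
    rw [map_mul, map_add, map_mul, map_mul]
    have h1 := vden_ne ρ f
    have h2 := vden_ne ρ g
    field_simp

theorem valMap_eq (f : valRing (F := F) ρ) {a b : S} (hb : ρ b ≠ 0)
    (h : algebraMap S F b * f = algebraMap S F a) : valMap ρ f = ρ a / ρ b :=
  vfrac_eq ρ f hb h

@[simp] theorem valMap_algebraMap (s : S) :
    valMap ρ ⟨algebraMap S F s, algebraMap_mem_valRing ρ s⟩ = ρ s := by
  rw [valMap_eq ρ _ (a := s) (b := 1) (by simp) (by simp)]; simp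

theorem inv_mem_valRing (f : valRing (F := F) ρ) (hf : valMap ρ f ≠ 0) :
    (f : F)⁻¹ ∈ valRing (F := F) ρ := by
  obtain ⟨a, b, hb, hab⟩ := f.2
  have h1 := valMap_eq ρ f hb hab
  have ha : ρ a ≠ 0 := by
    intro h; rw [h1, h, zero_div] at hf; exact hf rfl
  refine ⟨b, a, ha, ?_⟩
  have hf0 : (f : F) ≠ 0 := by
    intro h0
    apply hf
    have : f = 0 := Subtype.ext h0
    rw [this, map_zero]
  rw [← hab]; field_simp

end Val

end Fermat.Agent.H29
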