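import Mathlib
import Fermat.Agent.H29.GaussExt

set_option autoImplicit false
set_option linter.all false

open Polynomial

namespace Fermat.Agent.H29

section Main

variable {A L F S k κ : Type*} [CommRing A] [IsDomain A] [ValuationRing A] [Field L] [Algebra A L]
  [IsFractionRing A L] [Field F] [Algebra L F] [CommRing S] [Algebra A S] [Algebra S F]
  [FaithfulSMul S F] [Field k] [Field κ] [Algebra k κ]
  (π : A →+* k) (ρ : S →+* κ) (t : S)

/-- `r` is a Gauss basis of `F / L(t)`: it spans `F` over `L(t)` and its reduction is linearly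
independent over `k(t)`. -/
structure IsGauss {ι : Type*} [Fintype ι] (r : ι → S) : Prop where
  ne : Nonempty ι
  hπ : ∀ a, ¬ IsUnit a → π a = 0
  surj : Function.Surjective π
  tower : ∀ a : A, algebraMap S F (algebraMap A S a) = algebraMap L F (algebraMap A L a)
  hρ : ∀ a : A, ρ (algebraMap A S a) = algebraMap k κ (π a)
  indep : ∀ Q : ι → k[X], ∑ i, aeval (ρ t) (Q i) * ρ (r i) = 0 → ∀ i, Q i = 0
  span : ∀ f : F, ∃ d : L[X], d ≠ 0 ∧ ∃ p : ι → L[X], aeval (algebraMap S F t) d * f =
    ∑ i, aeval (algebraMap S F t) (p i) * algebraMap S F (r i)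

namespace IsGauss

variable {π ρ t} {ι : Type*} [Fintype ι] {r : ι → S}

omit [ValuationRing A] [IsDomain A] in
theorem rho_aeval (h : IsGauss (L := L) (F := F) π ρ t r) (P : A[X]) :
    ρ (aeval t P) = aeval (ρ t) (P.map π) := by
  induction P using Polynomial.induction_on' with
  | add p q hp hq => rw [map_add, map_add, hp, hq, Polynomial.map_add, map_add]
  | monomial n a =>
    rw [aeval_monomial, map_monomial, aeval_monomial, map_mul, map_pow, h.hρ]

omit [ValuationRing A] [IsDomain A] in
theorem algebraMap_aeval (h : IsGauss (L := L) (F := F) π ρ t r) (P : A[X]) :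
    algebraMap S F (aeval t P) = aeval (algebraMap S F t) (P.map (algebraMap A L)) := by
  induction P using Polynomial.induction_on' with
  | add p q hp hq => rw [map_add, map_add, hp, hq, Polynomial.map_add, map_add]
  | monomial n a =>
    rw [aeval_monomial, map_monomial, aeval_monomial, map_mul, map_pow, h.tower]

omit [ValuationRing A] [IsDomain A] in
theorem rho_aeval_ne (h : IsGauss (L := L) (F := F) π ρ t r) (P : A[X]) (hP : P.map π ≠ 0) :
    ρ (aeval t P) ≠ 0 := by
  classical
  intro h0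
  obtain ⟨i₀⟩ := h.ne
  rw [h.rho_aeval] at h0
  have := h.indep (fun i => if i = i₀ then P.map π else 0) (by
    rw [Finset.sum_eq_single i₀]
    · rw [if_pos rfl, h0, zero_mul]
    · intro i _ hi
      rw [if_neg hi, map_zero, zero_mul]
    · intro hh; exact absurd (Finset.mem_univ _) hh) i₀
  rw [if_pos rfl] at this
  exact hP this

omit [IsDomain A] [ValuationRing A] in
theorem pi_one_ne (h : IsGauss (L := L) (F := F) π ρ t r) (a : A) (ha : IsUnit a) : π a ≠ 0 := by
  exact (ha.map π).ne_zero

/-- content of a polynomial -/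
theorem poly_scale (h : IsGauss (L := L) (F := F) π ρ t r) (d : L[X]) (hd : d ≠ 0) :
    ∃ c : L, c ≠ 0 ∧ ∃ P : A[X], d = C c * P.map (algebraMap A L) ∧ ρ (aeval t P) ≠ 0 := by
  obtain ⟨c, hc, P, hP, i, hi⟩ := exists_scale_poly π (fun _ : Unit => d) ⟨(), hd⟩
  exact ⟨c, hc, P (), hP (), h.rho_aeval_ne _ (by convert hi)⟩

theorem aeval_ne_zero (h : IsGauss (L := L) (F := F) π ρ t r) (d : L[X]) (hd : d ≠ 0) :
    aeval (algebraMap S F t) d ≠ 0 := by
  obtain ⟨c, hc, P, rfl, hP⟩ := h.poly_scale d hd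
  rw [map_mul, aeval_C, ← h.algebraMap_aeval]
  refine mul_ne_zero (by rwa [Ne, map_eq_zero_iff _ (algebraMap L F).injective]) ?_
  intro h0
  apply hP
  have : aeval t P = 0 := by
    apply FaithfulSMul.algebraMap_injective S F
    rw [h0, map_zero]
  rw [this, map_zero]

/-- every element is a constant times a fraction with non-zero reductions -/
theorem exists_repr (h : IsGauss (L := L) (F := F) π ρ t r) (f : F) (hf : f ≠ 0) :
    ∃ c : L, c ≠ 0 ∧ ∃ (a : S) (P : A[X]), ρ a ≠ 0 ∧ ρ (aeval t P) ≠ 0 ∧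
      algebraMap S F (aeval t P) * f = algebraMap L F c * algebraMap S F a := by
  obtain ⟨d, hd, p, hp⟩ := h.span f
  obtain ⟨c, hc, P, hdP, hP⟩ := h.poly_scale d hd
  have hp0 : ∃ i, p i ≠ 0 := by
    by_contra hcon
    push Not at hcon
    have : aeval (algebraMap S F t) d * f = 0 := by
      rw [hp]
      exact Finset.sum_eq_zero fun i _ => by rw [hcon i, map_zero, zero_mul]
    exact (mul_ne_zero (h.aeval_ne_zero d hd) hf) this
  obtain ⟨c', hc', Q, hQ, i₀, hi₀⟩ := exists_scale_poly π p hp0
  have hcF : algebraMap L F c ≠ 0 := by rwa [Ne, map_eq_zero_iff _ (algebraMap L F).injective]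
  refine ⟨c⁻¹ * c', mul_ne_zero (inv_ne_zero hc) hc', ∑ i, aeval t (Q i) * r i, P, ?_, hP, ?_⟩
  · intro h0
    rw [map_sum] at h0
    simp only [map_mul, h.rho_aeval] at h0
    exact hi₀ (h.indep _ h0 i₀)
  · rw [hdP, map_mul, aeval_C, ← h.algebraMap_aeval] at hp
    have h1 : algebraMap S F (aeval t P) * f = (algebraMap L F c)⁻¹ *
        ∑ i, aeval (algebraMap S F t) (p i) * algebraMap S F (r i) := by
      rw [← hp]; field_simp
    rw [h1, map_mul, map_inv₀, mul_assoc, map_sum]
    congr 1
    rw [Finset.mul_sum]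
    refine Finset.sum_congr rfl fun i _ => ?_
    rw [hQ i, map_mul, aeval_C, ← h.algebraMap_aeval, map_mul]
    ring

theorem mem_or_inv_mem (h : IsGauss (L := L) (F := F) π ρ t r) (f : F) :
    f ∈ valRing (F := F) ρ ∨ f⁻¹ ∈ valRing (F := F) ρ := by
  by_cases hf : f = 0
  · left; rw [hf]; exact Subring.zero_mem _
  obtain ⟨c, hc, a, P, ha, hP, heq⟩ := h.exists_repr f hf
  rcases ValuationRing.isInteger_or_isInteger A c with ⟨y, hy⟩ | ⟨y, hy⟩
  · left
    refine ⟨algebraMap A S y * a, aeval t P, hP, ?_⟩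
    rw [heq, map_mul, h.tower, hy]
  · right
    refine ⟨algebraMap A S y * aeval t P, a, ha, ?_⟩
    have hcF : algebraMap L F c ≠ 0 := by rwa [Ne, map_eq_zero_iff _ (algebraMap L F).injective]
    rw [map_mul, h.tower, hy, map_inv₀]
    have : algebraMap S F a = (algebraMap L F c)⁻¹ * (algebraMap S F (aeval t P) * f) := by
      rw [heq]; field_simp
    rw [this]; field_simp

/-- the valuation ring -/
def val (h : IsGauss (L := L) (F := F) π ρ t r) : ValuationSubring F :=
  { valRing (F := F) ρ with mem_or_inv_mem' := h.mem_or_inv_mem }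

theorem mem_val (h : IsGauss (L := L) (F := F) π ρ t r) {f : F} :
    f ∈ h.val ↔ f ∈ valRing (F := F) ρ := Iff.rfl

theorem algebraMap_mem (h : IsGauss (L := L) (F := F) π ρ t r) (a : A) :
    algebraMap L F (algebraMap A L a) ∈ valRing (F := F) ρ := by
  rw [← h.tower]; exact algebraMap_mem_valRing ρ _

theorem valMap_algebraMap_A (h : IsGauss (L := L) (F := F) π ρ t r) (a : A) :
    valMap ρ ⟨algebraMap L F (algebraMap A L a), h.algebraMap_mem a⟩ = algebraMap k κ (π a) := by
  have : (⟨algebraMap L F (algebraMap A L a), h.algebraMap_mem a⟩ : valRing (F := F) ρ) =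
    ⟨algebraMap S F (algebraMap A S a), algebraMap_mem_valRing ρ _⟩ := Subtype.ext (h.tower a).symm
  rw [this, valMap_algebraMap, h.hρ]

/-- constants in the valuation ring -/
theorem exists_of_mul_mem (h : IsGauss (L := L) (F := F) π ρ t r) (c : L) (g : valRing (F := F) ρ)
    (hg : valMap ρ g ≠ 0) (hcg : algebraMap L F c * g ∈ valRing (F := F) ρ) :
    ∃ a : A, algebraMap A L a = c ∧
      valMap ρ ⟨algebraMap L F c * g, hcg⟩ = algebraMap k κ (π a) * valMap ρ g := by
  have hginv := inv_mem_valRing ρ g hg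
  have hg0 : (g : F) ≠ 0 := by
    intro h0; apply hg
    have : g = 0 := Subtype.ext h0
    rw [this, map_zero]
  have hc : algebraMap L F c ∈ valRing (F := F) ρ := by
    have := Subring.mul_mem _ hcg hginv
    rwa [mul_assoc, mul_inv_cancel₀ hg0, mul_one] at this
  have hex : ∃ a : A, algebraMap A L a = c := by
    rcases ValuationRing.isInteger_or_isInteger A c with ⟨y, hy⟩ | ⟨y, hy⟩
    · exact ⟨y, hy⟩
    · by_cases hu : IsUnit y
      · obtain ⟨u, rfl⟩ := hu
        refine ⟨((u⁻¹ : Aˣ) : A), ?_⟩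
        have h1 : algebraMap A L ((u⁻¹ : Aˣ) : A) * algebraMap A L (u : A) = 1 := by
          rw [← map_mul]; simp
        rw [hy] at h1
        by_cases hc0 : c = 0
        · rw [hc0, inv_zero, mul_zero] at h1; exact absurd h1 zero_ne_one
        · field_simp at h1; exact h1
      · by_cases hc0 : c = 0
        · exact ⟨0, by rw [hc0, map_zero]⟩
        exfalso
        have h1 : (⟨algebraMap L F (algebraMap A L y), h.algebraMap_mem y⟩ : valRing (F := F) ρ) *
            ⟨algebraMap L F c, hc⟩ = 1 := by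
          apply Subtype.ext
          show algebraMap L F (algebraMap A L y) * algebraMap L F c = 1
          rw [hy, ← map_mul, inv_mul_cancel₀ hc0, map_one]
        have h2 := congrArg (valMap ρ) h1
        rw [map_mul, h.valMap_algebraMap_A, h.hπ y hu, map_zero, zero_mul, map_one] at h2
        exact zero_ne_one h2
  obtain ⟨a, ha⟩ := hex
  refine ⟨a, ha, ?_⟩
  have : (⟨algebraMap L F c * g, hcg⟩ : valRing (F := F) ρ) =
    ⟨algebraMap L F (algebraMap A L a), h.algebraMap_mem a⟩ * g := by
    apply Subtype.ext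
    show algebraMap L F c * g = algebraMap L F (algebraMap A L a) * g
    rw [ha]
  rw [this, map_mul, h.valMap_algebraMap_A]

/-- elements with reduction zero -/
theorem exists_of_valMap_eq_zero (h : IsGauss (L := L) (F := F) π ρ t r)
    (f : valRing (F := F) ρ) (hf : valMap ρ f = 0) :
    ∃ a : A, π a = 0 ∧ ∃ g : valRing (F := F) ρ, (f : F) = algebraMap L F (algebraMap A L a) * g ∧
      ((f : F) ≠ 0 → valMap ρ g ≠ 0) := by
  by_cases hf0 : (f : F) = 0
  · exact ⟨0, map_zero _, 0, by rw [hf0]; simp, fun h => absurd hf0 h⟩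
  obtain ⟨c, hc, a, P, ha, hP, heq⟩ := h.exists_repr f hf0
  have hmem : algebraMap S F a / algebraMap S F (aeval t P) ∈ valRing (F := F) ρ := by
    refine ⟨a, aeval t P, hP, ?_⟩
    have : algebraMap S F (aeval t P) ≠ 0 := by
      intro h0
      apply hP
      have : aeval t P = 0 := by
        apply FaithfulSMul.algebraMap_injective S F
        rw [h0, map_zero]
      rw [this, map_zero]
    field_simp
  have hP0 : algebraMap S F (aeval t P) ≠ 0 := by
    intro h0
    apply hP
    have : aeval t P = 0 := by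
      apply FaithfulSMul.algebraMap_injective S F
      rw [h0, map_zero]
    rw [this, map_zero]
  have hval : valMap ρ ⟨_, hmem⟩ = ρ a / ρ (aeval t P) :=
    valMap_eq ρ _ hP (by
      show algebraMap S F (aeval t P) * (algebraMap S F a / algebraMap S F (aeval t P)) = _
      field_simp)
  have hval0 : valMap ρ ⟨_, hmem⟩ ≠ 0 := by rw [hval]; exact div_ne_zero ha hP
  have hfc : (f : F) = algebraMap L F c * (algebraMap S F a / algebraMap S F (aeval t P)) := by
    rw [← mul_div_assoc, ← heq]; field_simp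
  obtain ⟨y, hy, hy2⟩ := h.exists_of_mul_mem c ⟨_, hmem⟩ hval0 (hfc ▸ f.2)
  refine ⟨y, ?_, ⟨_, hmem⟩, ?_, fun _ => hval0⟩
  · have h3 : (⟨algebraMap L F c * (algebraMap S F a / algebraMap S F (aeval t P)), hfc ▸ f.2⟩ :
        valRing (F := F) ρ) = f := Subtype.ext hfc.symm
    rw [h3, hf] at hy2
    rcases mul_eq_zero.mp hy2.symm with h4 | h4
    · exact (map_eq_zero_iff _ (algebraMap k κ).injective).mp h4
    · exact absurd h4 hval0
  · rw [hy]; exact hfc

/-- the valuation ring contains all elements integral over `A[t]` -/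
theorem mem_of_isIntegralElem (h : IsGauss (L := L) (F := F) π ρ t r) {R : Type*} [CommRing R]
    (φ : R →+* F) (hφ : ∀ x, φ x ∈ valRing (F := F) ρ) (f : F) (hf : φ.IsIntegralElem f) :
    f ∈ valRing (F := F) ρ := by
  let ψ : R →+* h.val := φ.codRestrict h.val.toSubring hφ
  have h1 : IsIntegral h.val f := by
    obtain ⟨p, hp, hpf⟩ := hf
    refine ⟨p.map ψ, hp.map _, ?_⟩
    rw [eval₂_map]
    exact hpf
  obtain ⟨⟨g, hg⟩, hgf⟩ := IsIntegrallyClosed.isIntegral_iff.mp h1
  rw [← hgf]
  exact hg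

/-- coefficients in the valuation ring: if `f r_j = ∑ m_ij r_i`, with `f` in the valuation ring,
then denominators can be chosen with non-zero reduction. -/
theorem exists_coeff (h : IsGauss (L := L) (F := F) π ρ t r) (f : F)
    (hf : f ∈ valRing (F := F) ρ) :
    ∃ (D : A[X]) (P : ι → A[X]), ρ (aeval t D) ≠ 0 ∧
      algebraMap S F (aeval t D) * f = ∑ i, algebraMap S F (aeval t (P i)) * algebraMap S F (r i) := by
  by_cases hf0 : f = 0
  · refine ⟨1, fun _ => 0, by simp, ?_⟩
    rw [hf0]; simp
  obtain ⟨d, hd, p, hp⟩ := h.span f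
  obtain ⟨c, hc, P, hdP, hP⟩ := h.poly_scale d hd
  have hp0 : ∃ i, p i ≠ 0 := by
    by_contra hcon
    push Not at hcon
    have : aeval (algebraMap S F t) d * f = 0 := by
      rw [hp]
      exact Finset.sum_eq_zero fun i _ => by rw [hcon i, map_zero, zero_mul]
    exact (mul_ne_zero (h.aeval_ne_zero d hd) hf0) this
  obtain ⟨c', hc', Q, hQ, i₀, hi₀⟩ := exists_scale_poly π p hp0
  have hcF : algebraMap L F c ≠ 0 := by rwa [Ne, map_eq_zero_iff _ (algebraMap L F).injective]
  -- `P f = (c'/c) * ∑ Q_i r_i`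
  set g : S := ∑ i, aeval t (Q i) * r i with hg
  have hgρ : ρ g ≠ 0 := by
    intro h0
    rw [hg, map_sum] at h0
    simp only [map_mul, h.rho_aeval] at h0
    exact hi₀ (h.indep _ h0 i₀)
  have hPf : algebraMap S F (aeval t P) * f = algebraMap L F (c⁻¹ * c') * algebraMap S F g := by
    rw [hdP, map_mul, aeval_C, ← h.algebraMap_aeval] at hp
    have h1 : algebraMap S F (aeval t P) * f = (algebraMap L F c)⁻¹ *
        ∑ i, aeval (algebraMap S F t) (p i) * algebraMap S F (r i) := by
      rw [← hp]; field_simp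
    rw [h1, map_mul, map_inv₀, mul_assoc, hg, map_sum]
    congr 1
    rw [Finset.mul_sum]
    refine Finset.sum_congr rfl fun i _ => ?_
    rw [hQ i, map_mul, aeval_C, ← h.algebraMap_aeval, map_mul]
    ring
  obtain ⟨y, hy, -⟩ := h.exists_of_mul_mem (c⁻¹ * c') ⟨_, algebraMap_mem_valRing ρ g⟩
    (by rw [valMap_algebraMap]; exact hgρ) (by
      show algebraMap L F (c⁻¹ * c') * algebraMap S F g ∈ _
      rw [← hPf]
      exact Subring.mul_mem _ (algebraMap_mem_valRing ρ _) hf)
  refine ⟨P, fun i => C y * Q i, hP, ?_⟩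
  rw [hPf, ← hy, ← h.tower, hg, map_sum, Finset.mul_sum]
  refine Finset.sum_congr rfl fun i _ => ?_
  rw [map_mul, map_mul, map_mul, aeval_C]
  ring

end IsGauss

end Main

end Fermat.Agent.H29
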