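import Mathlib
import Fermat.Agent.H29.GaussExt2

set_option autoImplicit false
set_option linter.all false

open Polynomial IntermediateField

namespace Fermat.Agent.H29

theorem exists_div_of_mem_adjoin {K F : Type*} [Field K] [Field F] [Algebra K F] (t : F)
    (x : K⟮t⟯) : ∃ p q : K[X], aeval t q ≠ 0 ∧ aeval t q * (x : F) = aeval t p := by
  obtain ⟨p, q, h⟩ := (IntermediateField.mem_adjoin_simple_iff K (x : F)).mp x.2
  by_cases hq : aeval t q = 0
  · refine ⟨0, 1, by simp, ?_⟩
    rw [hq, div_zero] at h
    rw [h]; simp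
  · exact ⟨p, q, hq, by rw [h]; field_simp⟩

/-- common denominators -/
theorem exists_common_div {K F : Type*} [Field K] [Field F] [Algebra K F] (t : F)
    {ι : Type*} [Fintype ι] (x : ι → K⟮t⟯) :
    ∃ (q : K[X]) (p : ι → K[X]), aeval t q ≠ 0 ∧ ∀ i, aeval t q * (x i : F) = aeval t (p i) := by
  classical
  choose p q hq h using fun i => exists_div_of_mem_adjoin t (x i)
  refine ⟨∏ i, q i, fun i => (∏ j ∈ Finset.univ.erase i, q j) * p i, ?_, fun i => ?_⟩
  · rw [map_prod]; exact Finset.prod_ne_zero_iff.mpr fun i _ => hq i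
  · rw [← Finset.mul_prod_erase _ _ (Finset.mem_univ i), map_mul, map_mul, ← h i]; ring

section

variable {A L F S k κ : Type*} [CommRing A] [IsDomain A] [ValuationRing A] [Field L] [Algebra A L]
  [IsFractionRing A L] [Field F] [Algebra L F] [CommRing S] [Algebra A S] [Algebra S F]
  [FaithfulSMul S F] [Field k] [Field κ] [Algebra k κ]

/-- existence of Gauss bases from equality of degrees -/
theorem IsGauss.of_finrank (π : A →+* k) (ρ : S →+* κ) (t : S) (n : ℕ) (hn : 0 < n)
    (hπ : ∀ a, ¬ IsUnit a → π a = 0) (surj : Function.Surjective π)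
    (tower : ∀ a : A, algebraMap S F (algebraMap A S a) = algebraMap L F (algebraMap A L a))
    (hρ : ∀ a : A, ρ (algebraMap A S a) = algebraMap k κ (π a))
    (htr : Transcendental k (ρ t))
    (hgen : IntermediateField.adjoin k (Set.range ρ) = ⊤)
    (hκ : Module.finrank k⟮ρ t⟯ κ = n)
    (hF : Module.finrank L⟮algebraMap S F t⟯ F = n) :
    ∃ r : Fin n → S, IsGauss (L := L) (F := F) π ρ t r := by
  classical
  haveI hfκ : FiniteDimensional k⟮ρ t⟯ κ := by
    apply Module.finite_of_finrank_pos; rw [hκ]; exact hn
  haveI hfF : FiniteDimensional L⟮algebraMap S F t⟯ F := by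
    apply Module.finite_of_finrank_pos; rw [hF]; exact hn
  -- spanning
  have hspan : Submodule.span k⟮ρ t⟯ (Set.range ρ) = ⊤ := by
    have h1 : IntermediateField.adjoin k⟮ρ t⟯ (Set.range ρ) = ⊤ := by
      rw [eq_top_iff]
      have h2 : IntermediateField.adjoin k (Set.range ρ) ≤
          (IntermediateField.adjoin k⟮ρ t⟯ (Set.range ρ)).restrictScalars k := by
        rw [IntermediateField.adjoin_le_iff]
        exact IntermediateField.subset_adjoin k⟮ρ t⟯ (Set.range ρ)
      rw [hgen] at h2
      intro x _
      exact h2 (IntermediateField.mem_top (x := x))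
    have h3 : (Algebra.adjoin k⟮ρ t⟯ (Set.range ρ)) = ⊤ := by
      rw [← IntermediateField.adjoin_toSubalgebra_of_isAlgebraic
        (fun x _ => Algebra.IsAlgebraic.isAlgebraic x), h1]
      rfl
    have h4 := Algebra.adjoin_eq_span k⟮ρ t⟯ (Set.range ρ)
    have h5 : (Submonoid.closure (Set.range ρ) : Set κ) = Set.range ρ := by
      have : Set.range ρ = ((MonoidHom.mrange (ρ : S →* κ) : Submonoid κ) : Set κ) := by
        ext x; simp
      rw [this, Submonoid.closure_eq]
    rw [h3, h5] at h4
    rw [← h4]; rfl
  obtain ⟨b, hb, hbspan, hbind⟩ := exists_linearIndependent k⟮ρ t⟯ (Set.range ρ)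
  rw [hspan] at hbspan
  let e0 : Module.Basis b k⟮ρ t⟯ κ := Module.Basis.mk hbind (by
    rw [Subtype.range_coe_subtype, Set.setOf_mem_eq, hbspan])
  haveI : Fintype b := FiniteDimensional.fintypeBasisIndex e0
  have hcard : Fintype.card b = n := by
    rw [← hκ, Module.finrank_eq_card_basis e0]
  let eq : Fin n ≃ b := (Fintype.equivFinOfCardEq hcard).symm
  have hlift : ∀ i : Fin n, ∃ s : S, ρ s = (eq i : κ) := fun i => hb (eq i).2
  choose r hr using hlift
  have hind : LinearIndependent k⟮ρ t⟯ (fun i => ρ (r i)) := by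
    have : (fun i => ρ (r i)) = (fun i => ((eq i : b) : κ)) := funext hr
    rw [this]
    exact hbind.comp _ eq.injective
  have hindep : ∀ Q : Fin n → k[X], ∑ i, aeval (ρ t) (Q i) * ρ (r i) = 0 → ∀ i, Q i = 0 := by
    intro Q hQ i
    have h1 := Fintype.linearIndependent_iff.mp hind
      (fun i => ⟨aeval (ρ t) (Q i), by
        apply IntermediateField.algebra_adjoin_le_adjoin k {ρ t}
        rw [Algebra.adjoin_singleton_eq_range_aeval]
        exact ⟨Q i, rfl⟩⟩) (by
        simp only [Algebra.smul_def]
        exact hQ) i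
    have h2 : aeval (ρ t) (Q i) = 0 := congrArg Subtype.val h1
    exact (transcendental_iff.mp htr) (Q i) h2
  -- weak version to get independence over `L(t)`
  have rho_aeval : ∀ P : A[X], ρ (aeval t P) = aeval (ρ t) (P.map π) := by
    intro P
    induction P using Polynomial.induction_on' with
    | add p q hp hq => rw [map_add, map_add, hp, hq, Polynomial.map_add, map_add]
    | monomial n a =>
      rw [aeval_monomial, map_monomial, aeval_monomial, map_mul, map_pow, hρ]
  have algebraMap_aeval : ∀ P : A[X], algebraMap S F (aeval t P) =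
      aeval (algebraMap S F t) (P.map (algebraMap A L)) := by
    intro P
    induction P using Polynomial.induction_on' with
    | add p q hp hq => rw [map_add, map_add, hp, hq, Polynomial.map_add, map_add]
    | monomial n a =>
      rw [aeval_monomial, map_monomial, aeval_monomial, map_mul, map_pow, tower]
  have hindL : ∀ p : Fin n → L[X], ∑ i, aeval (algebraMap S F t) (p i) * algebraMap S F (r i) = 0 →
      ∀ i, p i = 0 := by
    intro p hp
    by_contra hcon
    push Not at hcon
    obtain ⟨c, hc, P, hP, i₀, hi₀⟩ := exists_scale_poly π p hcon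
    have hcF : algebraMap L F c ≠ 0 := by rwa [Ne, map_eq_zero_iff _ (algebraMap L F).injective]
    have h1 : algebraMap L F c * algebraMap S F (∑ i, aeval t (P i) * r i) = 0 := by
      rw [map_sum, Finset.mul_sum, ← hp]
      refine Finset.sum_congr rfl fun i _ => ?_
      rw [hP i, map_mul (aeval (algebraMap S F t)), aeval_C, ← algebraMap_aeval, map_mul]; ring
    have h2 : ∑ i, aeval t (P i) * r i = 0 := by
      apply FaithfulSMul.algebraMap_injective S F
      rw [map_zero]
      exact (mul_eq_zero.mp h1).resolve_left hcF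
    have h3 : ∑ i, aeval (ρ t) ((P i).map π) * ρ (r i) = 0 := by
      rw [← map_zero ρ, ← h2, map_sum]
      refine Finset.sum_congr rfl fun i _ => ?_
      rw [map_mul, rho_aeval]
    exact hi₀ (hindep _ h3 i₀)
  have hindF : LinearIndependent L⟮algebraMap S F t⟯ (fun i => algebraMap S F (r i)) := by
    rw [Fintype.linearIndependent_iff]
    intro g hg i
    obtain ⟨q, p, hq, hqp⟩ := exists_common_div (algebraMap S F t) g
    have h1 := hindL p (by
      have : ∑ i, aeval (algebraMap S F t) (p i) * algebraMap S F (r i) =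
          aeval (algebraMap S F t) q * ∑ i, g i • algebraMap S F (r i) := by
        rw [Finset.mul_sum]
        refine Finset.sum_congr rfl fun i _ => ?_
        rw [← hqp i, Algebra.smul_def]
        show _ = _ * ((g i : F) * _)
        ring
      rw [this, hg, mul_zero]) i
    have h2 := hqp i
    rw [h1, map_zero] at h2
    exact Subtype.ext ((mul_eq_zero.mp h2).resolve_left hq)
  let bF : Module.Basis (Fin n) L⟮algebraMap S F t⟯ F :=
    basisOfLinearIndependentOfCardEqFinrank' _ hindF (by rw [Fintype.card_fin, hF])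
  have hbF : ∀ i, bF i = algebraMap S F (r i) := fun i => by simp [bF]
  refine ⟨r, ⟨⟨⟨0, hn⟩⟩, hπ, surj, tower, hρ, hindep, fun f => ?_⟩⟩
  obtain ⟨q, p, hq, hqp⟩ := exists_common_div (algebraMap S F t) (fun i => bF.repr f i)
  refine ⟨q, ?_, p, ?_⟩
  · rintro rfl; exact hq (map_zero _)
  · conv_lhs => rw [← bF.sum_repr f]
    rw [Finset.mul_sum]
    refine Finset.sum_congr rfl fun i _ => ?_
    rw [← hqp i, hbF i, Algebra.smul_def]
    show _ * (((bF.repr f) i : F) * _) = _
    ring

end

end Fermat.Agent.H29
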