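import Mathlib
import Fermat.Agent.H29.GaussExt2

set_option autoImplicit false
set_option linter.all false

open Polynomial

namespace Fermat.Agent.H29

namespace IsGauss

section Int

variable {A L F S k κ : Type*} [CommRing A] [IsDomain A] [ValuationRing A] [Field L] [Algebra A L]
  [IsFractionRing A L] [Field F] [Algebra L F] [CommRing S] [Algebra A S] [Algebra S F]
  [FaithfulSMul S F] [Field k] [Field κ] [Algebra k κ]
  {π : A →+* k} {ρ : S →+* κ} {t : S} {ι : Type*} [Fintype ι] {r : ι → S}

/-- **Integrality over `A[t]`** = integrality over `L[t]` + membership in the valuation ring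
(version with a field `E = L(t)`). -/
theorem isIntegralElem_of_mem_aux (h : IsGauss (L := L) (F := F) π ρ t r)
    (E : Type*) [Field E] [Algebra L[X] E] [IsFractionRing L[X] E] [Algebra E F]
    (hE : ∀ p : L[X], algebraMap E F (algebraMap L[X] E p) = aeval (algebraMap S F t) p)
    (f : F) (hf : f ∈ valRing (F := F) ρ)
    (hint : (aeval (R := L) (algebraMap S F t)).toRingHom.IsIntegralElem f) :
    (((aeval (R := L) (algebraMap S F t)).toRingHom).comp
      (mapRingHom (algebraMap A L))).IsIntegralElem f := by
  classical
  let OE0 : ValuationSubring E := h.val.comap (algebraMap E F)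
  let OE : Subring E := OE0.toSubring
  have hOE : ∀ e : E, e ∈ OE ↔ algebraMap E F e ∈ valRing (F := F) ρ := fun e => Iff.rfl
  have : IsIntegrallyClosed OE := inferInstanceAs (IsIntegrallyClosed OE0)
  have : IsFractionRing OE E := inferInstanceAs (IsFractionRing OE0 E)
  let _ : Algebra OE F := ((algebraMap E F).comp OE.subtype).toAlgebra
  have : IsScalarTower OE E F := IsScalarTower.of_algebraMap_eq (fun _ => rfl)
  -- fractions
  have hfrac : ∀ (D P : A[X]), ρ (aeval t D) ≠ 0 → ∃ e : OE,
      algebraMap S F (aeval t D) * algebraMap E F e = algebraMap S F (aeval t P) := by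
    intro D P hD
    have hD0 : algebraMap S F (aeval t D) ≠ 0 := by
      intro h0
      apply hD
      have : aeval t D = 0 := by
        apply FaithfulSMul.algebraMap_injective S F
        rw [h0, map_zero]
      rw [this, map_zero]
    set e : E := algebraMap L[X] E (P.map (algebraMap A L)) /
      algebraMap L[X] E (D.map (algebraMap A L)) with he
    have h1 : algebraMap S F (aeval t D) * algebraMap E F e = algebraMap S F (aeval t P) := by
      rw [he, map_div₀, hE, hE, ← h.algebraMap_aeval, ← h.algebraMap_aeval]
      field_simp
    exact ⟨⟨e, (hOE e).mpr ⟨_, _, hD, h1⟩⟩, h1⟩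
  -- integrality over `OE`
  have hintOE : IsIntegral OE f := by
    let N : Submodule OE F := Submodule.span OE (Set.range (fun i => algebraMap S F (r i)))
    have hN0 : N ≠ ⊥ := by
      obtain ⟨i⟩ := h.ne
      intro h0
      have h1 : algebraMap S F (r i) ∈ N := Submodule.subset_span ⟨i, rfl⟩
      rw [h0, Submodule.mem_bot] at h1
      have h2 : r i = 0 := FaithfulSMul.algebraMap_injective S F (by rw [h1, map_zero])
      have h3 := h.indep (fun j => if j = i then 1 else 0) (by
        rw [Finset.sum_eq_single i]
        · rw [h2, map_zero, mul_zero]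
        · intro j _ hj; rw [if_neg hj, map_zero, zero_mul]
        · intro hh; exact absurd (Finset.mem_univ _) hh) i
      rw [if_pos rfl] at h3
      exact one_ne_zero h3
    have hNfg : N.FG := Submodule.fg_span (Set.finite_range _)
    refine isIntegral_of_smul_mem_submodule N hN0 hNfg f ?_
    intro n hn
    induction hn using Submodule.span_induction with
    | zero => rw [smul_zero]; exact Submodule.zero_mem _
    | add x y _ _ hx hy => rw [smul_add]; exact Submodule.add_mem _ hx hy
    | smul a x _ hx => rw [smul_comm]; exact Submodule.smul_mem _ _ hx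
    | mem x hx =>
      obtain ⟨j, rfl⟩ := hx
      obtain ⟨D, P, hD, hDP⟩ := h.exists_coeff (f * algebraMap S F (r j))
        (Subring.mul_mem _ hf (algebraMap_mem_valRing ρ _))
      choose e he using fun i => hfrac D (P i) hD
      have hD0 : algebraMap S F (aeval t D) ≠ 0 := by
        intro h0
        apply hD
        have : aeval t D = 0 := by
          apply FaithfulSMul.algebraMap_injective S F
          rw [h0, map_zero]
        rw [this, map_zero]
      have h4 : f • algebraMap S F (r j) = ∑ i, e i • algebraMap S F (r i) := by
        apply mul_left_cancel₀ hD0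
        rw [smul_eq_mul, hDP, Finset.mul_sum]
        refine Finset.sum_congr rfl fun i _ => ?_
        rw [← he i, Algebra.smul_def]
        show _ = _ * (algebraMap E F (e i) * _)
        ring
      rw [h4]
      exact Submodule.sum_mem _ fun i _ => Submodule.smul_mem _ _ (Submodule.subset_span ⟨i, rfl⟩)
  -- integrality over `L[X]`
  let _ : Algebra L[X] F := ((algebraMap E F).comp (algebraMap L[X] E)).toAlgebra
  have : IsScalarTower L[X] E F := IsScalarTower.of_algebraMap_eq (fun _ => rfl)
  have hintL : IsIntegral L[X] f := by
    obtain ⟨p, hp, hpf⟩ := hint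
    refine ⟨p, hp, ?_⟩
    convert hpf using 2
    ext x
    · simp only [RingHom.comp_apply]
      show algebraMap E F (algebraMap L[X] E (C x)) = _
      rw [hE]; rfl
    · show algebraMap E F (algebraMap L[X] E X) = _
      rw [hE]; rfl
  have h1 := minpoly.isIntegrallyClosed_eq_field_fractions' E hintOE
  have h2 := minpoly.isIntegrallyClosed_eq_field_fractions' E hintL
  -- the minimal polynomial lifts to `A[X]`
  have hlift : ∀ n, ∃ P : A[X],
      algebraMap L[X] E (P.map (algebraMap A L)) = (minpoly E f).coeff n := by
    intro n
    set p := (minpoly L[X] f).coeff n with hp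
    have h3 : (minpoly E f).coeff n = algebraMap L[X] E p := by rw [h2, coeff_map]
    have h4 : (minpoly E f).coeff n ∈ OE := by
      rw [h1, coeff_map]; exact ((minpoly OE f).coeff n).2
    by_cases hp0 : p = 0
    · exact ⟨0, by rw [h3, hp0]; simp⟩
    obtain ⟨c, hc, P, hcP, hP⟩ := h.poly_scale p hp0
    rw [h3, hOE, hE, hcP, map_mul, aeval_C, ← h.algebraMap_aeval] at h4
    obtain ⟨y, hy, -⟩ := h.exists_of_mul_mem c ⟨_, algebraMap_mem_valRing ρ (aeval t P)⟩
      (by rw [valMap_algebraMap]; exact hP) h4
    refine ⟨C y * P, ?_⟩
    rw [h3, hcP, Polynomial.map_mul, map_C, hy]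
  have hfg : (minpoly E f) ∈ lifts ((algebraMap L[X] E).comp (mapRingHom (algebraMap A L))) := by
    rw [lifts_iff_coeff_lifts]
    intro n
    obtain ⟨P, hP⟩ := hlift n
    exact ⟨P, hP⟩
  have hmonic : (minpoly E f).Monic := by
    rw [h2]; exact (minpoly.monic hintL).map _
  obtain ⟨q, hq, -, hqm⟩ := lifts_and_degree_eq_and_monic hfg hmonic
  refine ⟨q, hqm, ?_⟩
  have h5 : eval₂ (algebraMap E F) f (minpoly E f) = 0 := minpoly.aeval E f
  rw [← hq, eval₂_map] at h5
  have hφ : (((aeval (R := L) (algebraMap S F t)).toRingHom).comp
      (mapRingHom (algebraMap A L))) =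
        (algebraMap E F).comp ((algebraMap L[X] E).comp (mapRingHom (algebraMap A L))) := by
    apply RingHom.ext
    intro x
    show aeval (algebraMap S F t) (x.map (algebraMap A L)) =
      algebraMap E F (algebraMap L[X] E (x.map (algebraMap A L)))
    rw [hE]
  rw [hφ]
  exact h5

theorem transcendental (h : IsGauss (L := L) (F := F) π ρ t r) :
    Transcendental L (algebraMap S F t) := by
  rw [transcendental_iff]
  intro p hp
  by_contra hp0
  exact h.aeval_ne_zero p hp0 hp

/-- **Integrality over `A[t]`** = integrality over `L[t]` + membership in the valuation ring. -/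
theorem isIntegralElem_of_mem (h : IsGauss (L := L) (F := F) π ρ t r)
    (f : F) (hf : f ∈ valRing (F := F) ρ)
    (hint : (aeval (R := L) (algebraMap S F t)).toRingHom.IsIntegralElem f) :
    (((aeval (R := L) (algebraMap S F t)).toRingHom).comp
      (mapRingHom (algebraMap A L))).IsIntegralElem f := by
  have hinj : Function.Injective (aeval (R := L) (algebraMap S F t)) :=
    transcendental_iff_injective.mp h.transcendental
  let g : RatFunc L →+* F := RatFunc.liftRingHom (aeval (R := L) (algebraMap S F t)).toRingHom
    (nonZeroDivisors_le_comap_nonZeroDivisors_of_injective _ hinj)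
  let _ : Algebra (RatFunc L) F := g.toAlgebra
  exact h.isIntegralElem_of_mem_aux (RatFunc L) (fun p => by
    show g (algebraMap L[X] (RatFunc L) p) = _
    simp [g]) f hf hint

end Int

end IsGauss

end Fermat.Agent.H29
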