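import Mathlib
import Fermat.Agent.H27.NormC
import Fermat.Agent.H29.GaussInt
import Fermat.Agent.H29.GaussDeg

set_option autoImplicit false
set_option linter.all false

/-! From Gauss bases (H29) to etale bases (H27). -/

open Polynomial IntermediateField

namespace Fermat.Agent.H29

open Fermat.Agent.H27 (RatCoord evA redP incP gauss rho EtBasis BV OK intSub Small evA_ne_zero
  evA_mem_gauss mem_gauss_iff)

noncomputable section

variable {L : Type*} [Field L] {A : ValuationSubring L} {F S κ 𝕂 : Type*} [Field F] [Algebra L F]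
  [CommRing S] [Algebra A S] [Algebra S F] [FaithfulSMul S F]
  [Field κ] [Algebra (IsLocalRing.ResidueField A) κ]
  [Field 𝕂] [Algebra L 𝕂] [Algebra 𝕂 F] [IsScalarTower L 𝕂 F]
  {ρ : S →+* κ} {t : S} {ι : Type*} [Fintype ι] {r : ι → S} {x : 𝕂}


/-- the predicate `IsGauss` for valuation subrings -/
abbrev GaussB (A : ValuationSubring L) (F : Type*) {S κ : Type*} [Field F] [Algebra L F]
    [CommRing S] [Algebra A S] [Algebra S F] [FaithfulSMul S F]
    [Field κ] [Algebra (IsLocalRing.ResidueField A) κ] (ρ : S →+* κ) (t : S)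
    {ι : Type*} [Fintype ι] (r : ι → S) : Prop :=
  IsGauss (A := A) (L := L) (F := F) (k := IsLocalRing.ResidueField A) (κ := κ)
    (IsLocalRing.residue A) ρ t r

namespace GaussB

variable (hG : GaussB A F ρ t r) (hx : algebraMap 𝕂 F x = algebraMap S F t) (h : RatCoord L x)

include hG hx in
theorem algebraMap_evA (p : A[X]) : algebraMap 𝕂 F (evA A x p) = algebraMap S F (aeval t p) := by
  rw [hG.algebraMap_aeval, H27.evA_apply, ← hx, ← Polynomial.aeval_algebraMap_apply]
  rfl

include hG hx in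
theorem gauss_le {y : 𝕂} (hy : y ∈ gauss A h) : algebraMap 𝕂 F y ∈ valRing (F := F) ρ := by
  obtain ⟨f, g, hg, hfg⟩ := hy
  refine ⟨aeval t f, aeval t g, ?_, ?_⟩
  · exact hG.rho_aeval_ne g hg
  · rw [← algebraMap_evA hG hx, ← algebraMap_evA hG hx, ← map_mul, ← hfg, mul_comm]

include hG hx in
theorem mem_BV_of_mem {f : F} (hf : f ∈ valRing (F := F) ρ) : f ∈ BV (gauss A h) F := by
  classical
  let φ : gauss A h →+* F := (algebraMap 𝕂 F).comp (gauss A h).subtype
  letI : Algebra (gauss A h) F := φ.toAlgebra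
  let N : Submodule (gauss A h) F := Submodule.span (gauss A h)
    (Set.range (fun i => algebraMap S F (r i)))
  have hN0 : N ≠ ⊥ := by
    obtain ⟨i⟩ := hG.ne
    intro h0
    have h1 : algebraMap S F (r i) ∈ N := Submodule.subset_span ⟨i, rfl⟩
    rw [h0, Submodule.mem_bot] at h1
    have h2 : r i = 0 := FaithfulSMul.algebraMap_injective S F (by rw [h1, map_zero])
    have h3 := hG.indep (fun j => if j = i then 1 else 0) (by
      rw [Finset.sum_eq_single i]
      · rw [h2, map_zero, mul_zero]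
      · intro j _ hj; rw [if_neg hj, map_zero, zero_mul]
      · intro hh; exact absurd (Finset.mem_univ _) hh) i
    rw [if_pos rfl] at h3
    exact one_ne_zero h3
  have hNfg : N.FG := Submodule.fg_span (Set.finite_range _)
  have : IsIntegral (gauss A h) f := by
    refine isIntegral_of_smul_mem_submodule N hN0 hNfg f ?_
    intro n hn
    induction hn using Submodule.span_induction with
    | zero => rw [smul_zero]; exact Submodule.zero_mem _
    | add x y _ _ hx hy => rw [smul_add]; exact Submodule.add_mem _ hx hy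
    | smul a x _ hx => rw [smul_comm]; exact Submodule.smul_mem _ _ hx
    | mem x' hx' =>
      obtain ⟨j, rfl⟩ := hx'
      obtain ⟨D, P, hD, hDP⟩ := hG.exists_coeff (f * algebraMap S F (r j))
        (Subring.mul_mem _ hf (algebraMap_mem_valRing ρ _))
      have hD1 : redP A D ≠ 0 := by
        intro h0
        apply hD
        rw [hG.rho_aeval, show D.map (IsLocalRing.residue A) = redP A D from rfl, h0, map_zero]
      have hD0 : evA A x D ≠ 0 := evA_ne_zero h hD1
      have h4 : f • algebraMap S F (r j) = ∑ i,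
          (⟨evA A x (P i) / evA A x D, P i, D, hD1, div_mul_cancel₀ _ hD0⟩ : gauss A h) •
            algebraMap S F (r i) := by
        have hDF : algebraMap 𝕂 F (evA A x D) ≠ 0 := by rwa [Ne, map_eq_zero]
        apply mul_left_cancel₀ hDF
        rw [smul_eq_mul, algebraMap_evA hG hx, hDP, Finset.mul_sum]
        refine Finset.sum_congr rfl fun i _ => ?_
        rw [Algebra.smul_def]
        show _ = _ * (algebraMap 𝕂 F (evA A x (P i) / evA A x D) * _)
        rw [map_div₀, ← algebraMap_evA hG hx, ← algebraMap_evA hG hx D]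
        field_simp
      rw [h4]
      exact Submodule.sum_mem _ fun i _ => Submodule.smul_mem _ _ (Submodule.subset_span ⟨i, rfl⟩)
  exact this

include hG hx in
theorem mem_of_mem_BV {f : F} (hf : f ∈ BV (gauss A h) F) : f ∈ valRing (F := F) ρ :=
  hG.mem_of_isIntegralElem ((algebraMap 𝕂 F).comp (gauss A h).subtype)
    (fun y => gauss_le hG hx h y.2) f hf

include hG hx in
theorem mem_BV_iff {f : F} : f ∈ BV (gauss A h) F ↔ f ∈ valRing (F := F) ρ :=
  ⟨mem_of_mem_BV hG hx h, mem_BV_of_mem hG hx h⟩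

include hG hx in
theorem mem_gauss_of_mem {y : 𝕂} (hy : algebraMap 𝕂 F y ∈ valRing (F := F) ρ) :
    y ∈ gauss A h := by
  have h1 := mem_BV_of_mem hG hx h hy
  obtain ⟨p, hp, hpy⟩ := h1
  refine H27.closed_val (gauss A h) ⟨p, hp, ?_⟩
  rw [← Polynomial.hom_eval₂] at hpy
  exact (map_eq_zero_iff _ (algebraMap 𝕂 F).injective).mp hpy

/-! ### the basis -/

include hG hx h in
theorem linInd : LinearIndependent 𝕂 (fun i => algebraMap S F (r i)) := by
  classical
  rw [Fintype.linearIndependent_iff]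
  intro y hy
  by_contra hcon
  push Not at hcon
  -- common denominators
  choose f g hg hfg using fun i => h.gen (y i)
  have hgx : ∀ i, aeval x (g i) ≠ 0 := fun i => by
    rw [ne_eq, map_eq_zero_iff _ (H27.aeval_injective h)]; exact hg i
  let p : ι → L[X] := fun i => f i * ∏ j ∈ Finset.univ.erase i, g j
  have hp : ∀ i, y i * ∏ j, aeval x (g j) = aeval x (p i) := by
    intro i
    rw [← Finset.mul_prod_erase _ _ (Finset.mem_univ i), ← mul_assoc, hfg, map_mul, map_prod]
  have hprod : ∏ j, aeval x (g j) ≠ 0 := Finset.prod_ne_zero_iff.mpr fun i _ => hgx i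
  have hp0 : ∃ i, p i ≠ 0 := by
    obtain ⟨i, hi⟩ := hcon
    refine ⟨i, fun h0 => ?_⟩
    have := hp i
    rw [h0, map_zero] at this
    exact mul_ne_zero hi hprod this
  obtain ⟨c, hc, Q, hQ, i₀, hi₀⟩ := exists_scale_poly (IsLocalRing.residue A) p hp0
  have hcF : algebraMap L F c ≠ 0 := by rwa [Ne, map_eq_zero_iff _ (algebraMap L F).injective]
  have h1 : ∑ i, aeval t (Q i) * r i = 0 := by
    apply FaithfulSMul.algebraMap_injective S F
    apply mul_left_cancel₀ hcF
    rw [map_zero, mul_zero, map_sum, Finset.mul_sum]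
    have h2 : ∑ i, algebraMap 𝕂 F (aeval x (p i)) * algebraMap S F (r i) = 0 := by
      have h3 := congrArg (fun z => algebraMap 𝕂 F (∏ j, aeval x (g j)) * z) hy
      simp only [mul_zero, Finset.mul_sum] at h3
      rw [← h3]
      refine Finset.sum_congr rfl fun i _ => ?_
      rw [← hp, Algebra.smul_def, map_mul]
      ring
    rw [← h2]
    refine Finset.sum_congr rfl fun i _ => ?_
    rw [hQ i, map_mul (aeval x), aeval_C, map_mul (algebraMap 𝕂 F), ← IsScalarTower.algebraMap_apply,
      show aeval x ((Q i).map (algebraMap A L)) = evA A x (Q i) from rfl,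
      algebraMap_evA hG hx, map_mul (algebraMap S F)]
    ring
  have h2 := congrArg ρ h1
  rw [map_sum, map_zero] at h2
  simp only [map_mul, hG.rho_aeval] at h2
  exact hi₀ (hG.indep _ h2 i₀)

include hG hx in
theorem span_top : ⊤ ≤ Submodule.span 𝕂 (Set.range (fun i => algebraMap S F (r i))) := by
  intro f _
  obtain ⟨d, hd, p, hp⟩ := hG.span f
  have hd0 := hG.aeval_ne_zero d hd
  have hev : ∀ q : L[X], aeval (algebraMap S F t) q = algebraMap 𝕂 F (aeval x q) := by
    intro q
    rw [← hx, Polynomial.aeval_algebraMap_apply]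
  have h1 : f = ∑ i, (aeval x (p i) / aeval x d) • algebraMap S F (r i) := by
    apply mul_left_cancel₀ hd0
    rw [hp, Finset.mul_sum]
    refine Finset.sum_congr rfl fun i _ => ?_
    rw [Algebra.smul_def, map_div₀, hev, hev]
    rw [hev] at hd0
    field_simp
  rw [h1]
  exact Submodule.sum_mem _ fun i _ => Submodule.smul_mem _ _ (Submodule.subset_span ⟨i, rfl⟩)

/-- the Gauss basis as a basis over `𝕂` -/
def basis : Module.Basis ι 𝕂 F := Module.Basis.mk (linInd hG hx h) (span_top hG hx)

@[simp] theorem basis_apply (i : ι) : basis hG hx h i = algebraMap S F (r i) := by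
  rw [basis, Module.Basis.mk_apply]

/-- reduction of `V` -/
def tau : gauss A h →+* κ :=
  (valMap ρ).comp (((algebraMap 𝕂 F).comp (gauss A h).subtype).codRestrict (valRing (F := F) ρ)
    (fun y => gauss_le hG hx h y.2))

theorem tau_apply (y : gauss A h) : tau hG hx h y =
    valMap ρ ⟨algebraMap 𝕂 F y, gauss_le hG hx h y.2⟩ := rfl

theorem tau_eq (y : gauss A h) {f g : A[X]} (hg : redP A g ≠ 0)
    (hy : (y : 𝕂) * evA A x g = evA A x f) :
    tau hG hx h y = aeval (ρ t) (redP A f) / aeval (ρ t) (redP A g) := by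
  rw [tau_apply, valMap_eq ρ _ (a := aeval t f) (b := aeval t g) (hG.rho_aeval_ne g hg),
    hG.rho_aeval, hG.rho_aeval]
  · rfl
  · show _ * algebraMap 𝕂 F y = _
    rw [← algebraMap_evA hG hx, ← algebraMap_evA hG hx, ← map_mul, ← hy, mul_comm]

theorem tau_mem (y : gauss A h) : tau hG hx h y ∈ (IsLocalRing.ResidueField A)⟮ρ t⟯ := by
  obtain ⟨f, g, hg, hfg⟩ := y.2
  rw [tau_eq hG hx h y hg hfg]
  have hmem : ∀ r : (IsLocalRing.ResidueField A)[X], aeval (ρ t) r ∈ (IsLocalRing.ResidueField A)⟮ρ t⟯ := fun r => by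
    have hxm : ρ t ∈ (IsLocalRing.ResidueField A)⟮ρ t⟯ := IntermediateField.mem_adjoin_simple_self _ _
    have : aeval (ρ t) r = ((aeval (⟨ρ t, hxm⟩ : (IsLocalRing.ResidueField A)⟮ρ t⟯) r : (IsLocalRing.ResidueField A)⟮ρ t⟯) : κ) := by
      rw [← IntermediateField.algebraMap_apply, ← Polynomial.aeval_algebraMap_apply]
      rfl
    rw [this]; exact (aeval (⟨ρ t, hxm⟩ : (IsLocalRing.ResidueField A)⟮ρ t⟯) r).2
  exact div_mem (hmem _) (hmem _)

/-- reduction of `V` into `k(ρ t)` -/
def tau' : gauss A h →+* (IsLocalRing.ResidueField A)⟮ρ t⟯ :=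
  (tau hG hx h).codRestrict ((IsLocalRing.ResidueField A)⟮ρ t⟯).toSubring (tau_mem hG hx h)

theorem coe_tau' (y : gauss A h) : ((tau' hG hx h y : (IsLocalRing.ResidueField A)⟮ρ t⟯) : κ) = tau hG hx h y := rfl

/-- an element of `V` with non-zero reduction is a unit -/
theorem isUnit_of_tau (y : gauss A h) (hy : tau hG hx h y ≠ 0) : IsUnit y := by
  have h1 := inv_mem_valRing ρ ⟨algebraMap 𝕂 F y, gauss_le hG hx h y.2⟩ hy
  have hne : (y : 𝕂) ≠ 0 := by
    intro h0
    apply hy
    rw [show y = 0 from Subtype.ext h0, map_zero]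
  have h2 : ((y : 𝕂))⁻¹ ∈ gauss A h := by
    apply mem_gauss_of_mem hG hx h
    rw [map_inv₀]
    exact h1
  refine IsUnit.of_mul_eq_one ⟨_, h2⟩ (Subtype.ext (mul_inv_cancel₀ hne))

include hG hx in
/-- coordinates of elements of the valuation ring -/
theorem repr_mem {f : F} (hf : f ∈ valRing (F := F) ρ) :
    ∃ c : ι → gauss A h, f = ∑ i, algebraMap 𝕂 F (c i) * algebraMap S F (r i) := by
  obtain ⟨D, P, hD, hDP⟩ := hG.exists_coeff f hf
  have hD1 : redP A D ≠ 0 := by
    intro h0
    apply hD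
    rw [hG.rho_aeval, show D.map (IsLocalRing.residue A) = redP A D from rfl, h0, map_zero]
  have hD0 : evA A x D ≠ 0 := evA_ne_zero h hD1
  have hDF : algebraMap 𝕂 F (evA A x D) ≠ 0 := by rwa [Ne, map_eq_zero]
  refine ⟨fun i => ⟨evA A x (P i) / evA A x D, P i, D, hD1, div_mul_cancel₀ _ hD0⟩, ?_⟩
  apply mul_left_cancel₀ hDF
  rw [algebraMap_evA hG hx, hDP, Finset.mul_sum]
  refine Finset.sum_congr rfl fun i _ => ?_
  show _ = _ * (algebraMap 𝕂 F (evA A x (P i) / evA A x D) * _)
  rw [map_div₀, ← algebraMap_evA hG hx, ← algebraMap_evA hG hx D]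
  field_simp

theorem valMap_sum (c : ι → gauss A h) (hf : ∑ i, algebraMap 𝕂 F (c i) * algebraMap S F (r i) ∈
    valRing (F := F) ρ) : valMap ρ ⟨_, hf⟩ = ∑ i, tau hG hx h (c i) * ρ (r i) := by
  have : (⟨_, hf⟩ : valRing (F := F) ρ) = ∑ i,
      (⟨algebraMap 𝕂 F (c i), gauss_le hG hx h (c i).2⟩ : valRing (F := F) ρ) *
        ⟨algebraMap S F (r i), algebraMap_mem_valRing ρ _⟩ := by
    apply Subtype.ext
    rw [AddSubmonoidClass.coe_finset_sum]
    rfl
  rw [this, map_sum]
  refine Finset.sum_congr rfl fun i _ => ?_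
  rw [map_mul, valMap_algebraMap]
  rfl

include hG in
theorem indep_res : LinearIndependent (IsLocalRing.ResidueField A)⟮ρ t⟯ (fun i => ρ (r i)) := by
  classical
  rw [Fintype.linearIndependent_iff]
  intro y hy
  obtain ⟨q, p, hq, hp⟩ := exists_common_div (ρ t) y
  have h1 : ∑ i, aeval (ρ t) (p i) * ρ (r i) = 0 := by
    have h2 := congrArg (fun z => aeval (ρ t) q * z) hy
    simp only [mul_zero, Finset.mul_sum] at h2
    rw [← h2]
    refine Finset.sum_congr rfl fun i _ => ?_
    rw [← hp i, Algebra.smul_def]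
    show _ = _ * ((y i : κ) * _)
    ring
  intro i
  have h2 := hG.indep p h1 i
  have h3 := hp i
  rw [h2, map_zero] at h3
  exact Subtype.ext ((mul_eq_zero.mp h3).resolve_left hq)

variable [FiniteDimensional (IsLocalRing.ResidueField A)⟮ρ t⟯ κ]

/-- the reduced basis -/
def resBasis (hκ : Module.finrank (IsLocalRing.ResidueField A)⟮ρ t⟯ κ = Fintype.card ι) :
    Module.Basis ι (IsLocalRing.ResidueField A)⟮ρ t⟯ κ :=
  basisOfLinearIndependentOfCardEqFinrank' _ (indep_res hG) hκ.symm

theorem resBasis_apply (hκ : Module.finrank (IsLocalRing.ResidueField A)⟮ρ t⟯ κ = Fintype.card ι) (i : ι) :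
    resBasis hG hκ i = ρ (r i) := by
  rw [resBasis, coe_basisOfLinearIndependentOfCardEqFinrank']

theorem trace_red [DecidableEq ι] (hκ : Module.finrank (IsLocalRing.ResidueField A)⟮ρ t⟯ κ = Fintype.card ι)
    (f : valRing (F := F) ρ) : ∃ hf : Algebra.trace 𝕂 F (f : F) ∈ gauss A h,
      tau' hG hx h ⟨_, hf⟩ = Algebra.trace (IsLocalRing.ResidueField A)⟮ρ t⟯ κ (valMap ρ f) := by
  choose c hc using fun j => repr_mem hG hx h
    (Subring.mul_mem _ f.2 (algebraMap_mem_valRing ρ (r j)))
  have h1 : Algebra.trace 𝕂 F (f : F) = ∑ j, (c j j : 𝕂) := by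
    rw [Algebra.trace_eq_matrix_trace (basis hG hx h), Matrix.trace]
    refine Finset.sum_congr rfl fun j _ => ?_
    rw [Matrix.diag_apply, Algebra.leftMulMatrix_eq_repr_mul, basis_apply, hc j]
    have : ∑ i, algebraMap 𝕂 F (c j i) * algebraMap S F (r i) =
        ∑ i, (c j i : 𝕂) • basis hG hx h i := by
      refine Finset.sum_congr rfl fun i _ => ?_
      rw [Algebra.smul_def, basis_apply]
    rw [this, Module.Basis.repr_sum_self]
  have hf : Algebra.trace 𝕂 F (f : F) ∈ gauss A h := by
    rw [h1]; exact sum_mem fun j _ => (c j j).2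
  refine ⟨hf, ?_⟩
  have h2 : (⟨_, hf⟩ : gauss A h) = ∑ j, c j j := by
    apply Subtype.ext
    rw [AddSubmonoidClass.coe_finset_sum]
    exact h1
  rw [h2, map_sum, Algebra.trace_eq_matrix_trace (resBasis hG hκ), Matrix.trace]
  refine Finset.sum_congr rfl fun j _ => ?_
  rw [Matrix.diag_apply, Algebra.leftMulMatrix_eq_repr_mul, resBasis_apply]
  have h3 : valMap ρ f * ρ (r j) = ∑ i, tau' hG hx h (c j i) • resBasis hG hκ i := by
    have h4 : valMap ρ f * ρ (r j) = valMap ρ ⟨(f : F) * algebraMap S F (r j),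
        Subring.mul_mem _ f.2 (algebraMap_mem_valRing ρ (r j))⟩ := by
      rw [← valMap_algebraMap (F := F) ρ (r j), ← map_mul]
      rfl
    have h5 : (⟨(f : F) * algebraMap S F (r j),
        Subring.mul_mem _ f.2 (algebraMap_mem_valRing ρ (r j))⟩ : valRing (F := F) ρ) =
        ⟨∑ i, algebraMap 𝕂 F (c j i) * algebraMap S F (r i), by
          rw [← hc j]; exact Subring.mul_mem _ f.2 (algebraMap_mem_valRing ρ (r j))⟩ :=
      Subtype.ext (hc j)
    rw [h4, h5, valMap_sum hG hx h]
    refine Finset.sum_congr rfl fun i _ => ?_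
    rw [resBasis_apply, Algebra.smul_def]
    rfl
  rw [h3, Module.Basis.repr_sum_self]

include hG hx in
/-- **Etale basis** from a Gauss basis with separable residue extension. -/
theorem exists_etBasis [DecidableEq ι] (hκ : Module.finrank (IsLocalRing.ResidueField A)⟮ρ t⟯ κ = Fintype.card ι)
    [Algebra.IsSeparable (IsLocalRing.ResidueField A)⟮ρ t⟯ κ] :
    ∃ e : EtBasis (gauss A h) F ι, ∀ i, e.b i = algebraMap S F (r i) := by
  haveI : FiniteDimensional 𝕂 F := Module.Finite.of_basis (basis hG hx h)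
  have hrr : ∀ i j, algebraMap S F (r i) * algebraMap S F (r j) ∈ valRing (F := F) ρ := fun i j =>
    Subring.mul_mem _ (algebraMap_mem_valRing ρ _) (algebraMap_mem_valRing ρ _)
  choose hG1 hG2 using fun i j => trace_red hG hx h hκ ⟨_, hrr i j⟩
  let G : Matrix ι ι (gauss A h) := Matrix.of fun i j =>
    ⟨Algebra.trace 𝕂 F (algebraMap S F (r i) * algebraMap S F (r j)), hG1 i j⟩
  have hdet : tau' hG hx h G.det ≠ 0 := by
    have h1 : tau' hG hx h G.det = Algebra.discr (IsLocalRing.ResidueField A)⟮ρ t⟯ (resBasis hG hκ) := by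
      rw [Algebra.discr_def, RingHom.map_det]
      congr 1
      ext1 i j
      rw [RingHom.mapMatrix_apply, Matrix.map_apply, Algebra.traceMatrix_apply,
        Algebra.traceForm_apply, resBasis_apply, resBasis_apply]
      show tau' hG hx h ⟨_, _⟩ = _
      rw [hG2 i j]
      congr 1
      rw [← valMap_algebraMap (F := F) ρ (r i), ← valMap_algebraMap (F := F) ρ (r j)]
      exact map_mul (valMap (F := F) ρ) ⟨_, algebraMap_mem_valRing ρ (r i)⟩
        ⟨_, algebraMap_mem_valRing ρ (r j)⟩
    rw [h1]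
    exact Algebra.discr_not_zero_of_basis _ _
  have hunit : IsUnit G.det := by
    apply isUnit_of_tau hG hx h
    intro h0
    apply hdet
    exact Subtype.ext h0
  have hinv : G * G⁻¹ = 1 := Matrix.mul_nonsing_inv G hunit
  refine ⟨{ b := basis hG hx h
            bd := fun j => ∑ k, ((G⁻¹ k j : gauss A h) : 𝕂) • algebraMap S F (r k)
            b_mem := fun i => ?_
            bd_mem := fun j => ?_
            dual := fun i j => ?_ }, fun i => basis_apply hG hx h i⟩
  · rw [basis_apply]
    exact mem_BV_of_mem hG hx h (algebraMap_mem_valRing ρ _)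
  · refine sum_mem fun k _ => ?_
    rw [Algebra.smul_def]
    exact mul_mem (H27.val_mem_BV (G⁻¹ k j).2)
      (mem_BV_of_mem hG hx h (algebraMap_mem_valRing ρ _))
  · rw [basis_apply, Finset.mul_sum, map_sum]
    have h1 := congrArg (fun M : Matrix ι ι (gauss A h) => ((M i j : gauss A h) : 𝕂)) hinv
    rw [Matrix.mul_apply, Matrix.one_apply] at h1
    have h2 : (((∑ k, G i k * G⁻¹ k j : gauss A h)) : 𝕂) = if i = j then 1 else 0 := by
      rw [h1]
      split_ifs <;> rfl
    rw [← h2, AddSubmonoidClass.coe_finset_sum]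
    refine Finset.sum_congr rfl fun k _ => ?_
    rw [mul_smul_comm, map_smul, smul_eq_mul]
    show _ = Algebra.trace 𝕂 F (algebraMap S F (r i) * algebraMap S F (r k)) * _
    rw [mul_comm]

end GaussB

end

end Fermat.Agent.H29
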