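import Mathlib
import Fermat.Agent.H29.Bridge

set_option autoImplicit false
set_option linter.all false

/-! Surjectivity of the reduction from normality (THEOREM N of helper27). -/

open Polynomial IntermediateField

namespace Fermat.Agent.H29

open Fermat.Agent.H27 (RatCoord evA redP incP gauss rho EtBasis BV OK intSub Small evA_ne_zero
  evA_mem_gauss mem_gauss_iff IntMod LocData polB Lam)

noncomputable section

variable {L : Type*} [Field L] {A : ValuationSubring L} {F S κ 𝕂 : Type*} [Field F] [Algebra L F]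
  [CommRing S] [Algebra A S] [Algebra S F] [FaithfulSMul S F]
  [Field κ] [Algebra (IsLocalRing.ResidueField A) κ]
  [Field 𝕂] [Algebra L 𝕂] [Algebra 𝕂 F] [IsScalarTower L 𝕂 F]
  {ρ : S →+* κ} {t : S} {ι : Type} [Fintype ι] {r : ι → S} {x : 𝕂}

namespace GaussB

variable (hG : GaussB A F ρ t r) (hx : algebraMap 𝕂 F x = algebraMap S F t) (h : RatCoord L x)

include hG in
theorem small_of_valMap {f : F} (hf : f ∈ valRing (F := F) ρ) (hf0 : valMap ρ ⟨f, hf⟩ = 0) :
    ∃ a : A, IsLocalRing.residue A a = 0 ∧ ∃ g ∈ valRing (F := F) ρ,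
      f = algebraMap L F a * g := by
  obtain ⟨a, ha, g, hg, -⟩ := hG.exists_of_valMap_eq_zero ⟨f, hf⟩ hf0
  exact ⟨a, ha, g, g.2, hg⟩

include hG hx in
theorem small_iff {f : F} : Small A (gauss A h) f ↔
    ∃ hf : f ∈ valRing (F := F) ρ, valMap ρ ⟨f, hf⟩ = 0 := by
  constructor
  · rintro ⟨ϖ, y', h1, h2, h3⟩
    have hy' := mem_of_mem_BV hG hx h h2
    rw [← IsScalarTower.algebraMap_apply] at h3
    have hϖ := hG.algebraMap_mem ϖ
    have hf : f ∈ valRing (F := F) ρ := by rw [h3]; exact Subring.mul_mem _ hϖ hy'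
    refine ⟨hf, ?_⟩
    have h4 : (⟨f, hf⟩ : valRing (F := F) ρ) = ⟨_, hϖ⟩ * ⟨y', hy'⟩ := Subtype.ext h3
    rw [h4, map_mul, hG.valMap_algebraMap_A, h1, map_zero, zero_mul]
  · rintro ⟨hf, h0⟩
    obtain ⟨a, ha, g, hg, hfg⟩ := small_of_valMap hG hf h0
    refine ⟨a, g, ha, mem_BV_of_mem hG hx h hg, ?_⟩
    rw [← IsScalarTower.algebraMap_apply]
    exact hfg

include hG hx in
theorem exists_valMap [FiniteDimensional (IsLocalRing.ResidueField A)⟮ρ t⟯ κ]
    (hκ : Module.finrank (IsLocalRing.ResidueField A)⟮ρ t⟯ κ = Fintype.card ι) (h : RatCoord L x)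
    (y : κ) : ∃ z : valRing (F := F) ρ, valMap ρ z = y := by
  classical
  let b := resBasis hG hκ
  obtain ⟨q, p, hq, hp⟩ := exists_common_div (ρ t) (fun i => b.repr y i)
  obtain ⟨Q, hQ⟩ := H27.redP_surjective (A := A) q
  choose P hP using fun i => H27.redP_surjective (A := A) (p i)
  have hQ0 : redP A Q ≠ 0 := by
    rw [hQ]; rintro rfl; simp at hq
  have hQx : evA A x Q ≠ 0 := evA_ne_zero h hQ0
  let c : ι → gauss A h := fun i =>
    ⟨evA A x (P i) / evA A x Q, P i, Q, hQ0, div_mul_cancel₀ _ hQx⟩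
  have hmem : ∑ i, algebraMap 𝕂 F (c i) * algebraMap S F (r i) ∈ valRing (F := F) ρ :=
    sum_mem fun i _ => Subring.mul_mem _ (gauss_le hG hx h (c i).2) (algebraMap_mem_valRing ρ _)
  refine ⟨⟨_, hmem⟩, ?_⟩
  rw [valMap_sum hG hx h c hmem]
  conv_rhs => rw [← b.sum_repr y]
  refine Finset.sum_congr rfl fun i _ => ?_
  rw [tau_eq hG hx h (c i) hQ0 (f := P i) (div_mul_cancel₀ _ hQx), hQ, hP, ← hp i,
    mul_div_cancel_left₀ _ hq, Algebra.smul_def, show b i = ρ (r i) from resBasis_apply hG hκ i]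
  rfl

include hG hx in
/-- `IntMod` from integrality of the reduction -/
theorem intMod_of [DecidableEq ι] (e : EtBasis (gauss A h) F ι) (z : BV (gauss A h) F)
    (P : (IsLocalRing.ResidueField A)[X][X]) (hP : P.Monic)
    (hz : (z : F) ∈ valRing (F := F) ρ)
    (hPz : P.eval₂ (aeval (ρ t)).toRingHom (valMap ρ ⟨(z : F), hz⟩) = 0) : IntMod h e z := by
  have hl : P ∈ lifts (redP A) := by
    rw [lifts_iff_coeff_lifts]
    intro n
    exact H27.redP_surjective (A := A) _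
  obtain ⟨Q, hQ, -, hQm⟩ := lifts_and_degree_eq_and_monic hl hP
  refine ⟨Q, hQm, ?_⟩
  rw [← Polynomial.hom_eval₂, Ideal.Quotient.eq_zero_iff_mem, RingHom.mem_ker,
    H27.Lam_eq_zero_iff, small_iff hG hx h]
  -- the evaluation as an element of the valuation ring
  let φ : A[X] →+* valRing (F := F) ρ := ((algebraMap S F).comp (aeval t).toRingHom).codRestrict
    (valRing (F := F) ρ) (fun p => algebraMap_mem_valRing ρ _)
  have h1 : ((eval₂ (polB A h F) z Q : BV (gauss A h) F) : F) =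
      ((eval₂ φ (⟨z, hz⟩ : valRing (F := F) ρ) Q : valRing (F := F) ρ) : F) := by
    have h2 := Polynomial.hom_eval₂ Q (polB A h F) (BV (gauss A h) F).subtype z
    have h3 := Polynomial.hom_eval₂ Q φ (valRing (F := F) ρ).subtype ⟨z, hz⟩
    change (BV (gauss A h) F).subtype _ = (valRing (F := F) ρ).subtype _
    rw [h2, h3]
    congr 1
    apply RingHom.ext
    intro p
    show algebraMap 𝕂 F (evA A x p) = algebraMap S F (aeval t p)
    exact algebraMap_evA hG hx p
  have hmem : ((eval₂ (polB A h F) z Q : BV (gauss A h) F) : F) ∈ valRing (F := F) ρ := by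
    rw [h1]; exact (eval₂ φ (⟨z, hz⟩ : valRing (F := F) ρ) Q).2
  refine ⟨hmem, ?_⟩
  have h4 : (⟨_, hmem⟩ : valRing (F := F) ρ) = eval₂ φ (⟨z, hz⟩ : valRing (F := F) ρ) Q :=
    Subtype.ext h1
  rw [h4, Polynomial.hom_eval₂, ← hPz, ← hQ, eval₂_map]
  congr 1
  apply RingHom.ext
  intro p
  show valMap ρ ⟨algebraMap S F (aeval t p), _⟩ = aeval (ρ t) (p.map (IsLocalRing.residue A))
  rw [valMap_algebraMap, hG.rho_aeval]

include hG hx in
/-- **Lifting**: integral elements of the special fibre lift to integral elements. -/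
theorem exists_integral_lift [CharZero L] [IsAlgClosed L] [DecidableEq ι]
    [FiniteDimensional (IsLocalRing.ResidueField A)⟮ρ t⟯ κ]
    (hκ : Module.finrank (IsLocalRing.ResidueField A)⟮ρ t⟯ κ = Fintype.card ι)
    [Algebra.IsSeparable (IsLocalRing.ResidueField A)⟮ρ t⟯ κ]
    (h : RatCoord L x) (D : A[X]) (hD : Squarefree (redP A D))
    (hloc : ∀ a ∈ A, ∃ d : LocData x a F ι, (incP A D).eval a ≠ 0 → d.e = 1)
    (y : κ) (P : (IsLocalRing.ResidueField A)[X][X]) (hP : P.Monic)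
    (hPy : P.eval₂ (aeval (ρ t)).toRingHom y = 0) :
    ∃ z : F, ((algebraMap S F).comp (aeval (R := A) t).toRingHom).IsIntegralElem z ∧
      ∃ hz : z ∈ valRing (F := F) ρ, valMap ρ ⟨z, hz⟩ = y := by
  obtain ⟨e, -⟩ := exists_etBasis hG hx h hκ
  haveI := e.finite
  obtain ⟨z, hz⟩ := exists_valMap hG hx hκ h y
  have hzB : (z : F) ∈ BV (gauss A h) F := mem_BV_of_mem hG hx h z.2
  have hint : IntMod h e ⟨z, hzB⟩ := intMod_of hG hx h e ⟨z, hzB⟩ P hP z.2 (by
    rw [show (⟨((⟨(z : F), hzB⟩ : BV (gauss A h) F) : F), z.2⟩ : valRing (F := F) ρ) = z from rfl,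
      hz]; exact hPy)
  obtain ⟨z₀, hz₀O, hz₀B, hsmall⟩ := H27.normality h e D hD hloc hint
  have hz₀ := mem_of_mem_BV hG hx h hz₀B
  obtain ⟨Q, hQm, hQ⟩ := H27.exists_monic_A A h hz₀O hz₀B
  refine ⟨z₀, ⟨Q, hQm, ?_⟩, hz₀, ?_⟩
  · rw [← hQ]
    congr 1
    apply RingHom.ext
    intro p
    exact (algebraMap_evA hG hx p).symm
  · obtain ⟨hs, hs0⟩ := (small_iff hG hx h).mp hsmall
    have h1 : (⟨z₀, hz₀⟩ : valRing (F := F) ρ) = ⟨_, hs⟩ + z :=
      Subtype.ext (sub_add_cancel z₀ (z : F)).symm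
    rw [h1, map_add, hs0, zero_add, hz]

end GaussB

end

end Fermat.Agent.H29
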