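import Mathlib
import Fermat.Agent.H28.ModRed
import Fermat.Agent.H29.Surj
import Fermat.Agent.H29.Inst

set_option autoImplicit false
set_option linter.all false

/-! Charts from Gauss bases. -/

namespace Fermat.Agent.H29

open Polynomial IntermediateField IsLocalRing
open Fermat.Agent.H28 (RedData IntOver intOver_self intOver_alg intOver_ev)

noncomputable section

theorem isIntegral_adjoin_iff {K F : Type*} [Field K] [Field F] [Algebra K F] (t y : F) :
    IsIntegral (Algebra.adjoin K {t}) y ↔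
      ∃ P : K[X][X], P.Monic ∧ P.eval₂ (aeval (R := K) t).toRingHom y = 0 := by
  have hsurj : ∀ a : Algebra.adjoin K {t}, ∃ p : K[X], aeval t p = (a : F) := by
    intro a
    have : (a : F) ∈ (aeval (R := K) t).range := by
      rw [← Algebra.adjoin_singleton_eq_range_aeval]; exact a.2
    exact this
  let φ : K[X] →+* Algebra.adjoin K {t} :=
    (aeval (R := K) (⟨t, Algebra.subset_adjoin rfl⟩ : Algebra.adjoin K {t})).toRingHom
  have hφ : ∀ p, ((φ p : Algebra.adjoin K {t}) : F) = aeval t p := by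
    intro p
    show (((aeval (R := K) (⟨t, Algebra.subset_adjoin rfl⟩ : Algebra.adjoin K {t})) p :
      Algebra.adjoin K {t}) : F) = _
    rw [← Subalgebra.coe_val, ← Polynomial.aeval_algHom_apply]
    rfl
  constructor
  · rintro ⟨P, hP, hPy⟩
    have hl : P ∈ lifts φ := by
      rw [lifts_iff_coeff_lifts]
      intro n
      obtain ⟨p, hp⟩ := hsurj (P.coeff n)
      exact ⟨p, Subtype.ext ((hφ p).trans hp)⟩
    obtain ⟨Q, hQ, -, hQm⟩ := lifts_and_degree_eq_and_monic hl hP
    refine ⟨Q, hQm, ?_⟩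
    rw [← hQ, eval₂_map] at hPy
    rw [← hPy]
    congr 1
    apply RingHom.ext
    intro p
    exact (hφ p).symm
  · rintro ⟨P, hP, hPy⟩
    refine ⟨P.map φ, hP.map _, ?_⟩
    rw [eval₂_map, ← hPy]
    congr 1
    apply RingHom.ext
    intro p
    exact hφ p

section Alg

variable {L : Type*} [Field L] {A : ValuationSubring L} {F Fb : Type*} [Field F] [Field Fb]
  [Algebra L F] [Algebra (ResidueField A) Fb]

/-- the `A`-algebra structure on the ring of integral functions -/
@[reducible] def algZ (D : RedData A F Fb) : Algebra A D.Z :=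
  (((algebraMap L F).comp A.subtype).codRestrict D.Z D.alg_mem).toAlgebra

/-- the predicate `GaussB` for reduction data -/
def GaussD (D : RedData A F Fb) (t : D.Z) {ι : Type*} [Fintype ι] (r : ι → D.Z) : Prop :=
  letI := algZ D
  GaussB A F D.ρ t r

theorem exists_gaussD (D : RedData A F Fb) (t : D.Z) (n : ℕ) (hn : 0 < n)
    (htr : Transcendental (ResidueField A) (D.ρ t))
    (hgen : IntermediateField.adjoin (ResidueField A) (Set.range D.ρ) = ⊤)
    (hκ : Module.finrank (ResidueField A)⟮D.ρ t⟯ Fb = n)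
    (hF : Module.finrank L⟮(t : F)⟯ F = n) :
    ∃ r : Fin n → D.Z, GaussD D t r :=
  letI := algZ D
  IsGauss.of_finrank (A := A) (L := L) (F := F) (residue A) D.ρ t n hn
    (fun a ha => (residue_eq_zero_iff a).mpr ((mem_maximalIdeal a).mpr ha)) residue_surjective
    (fun a => rfl) (fun a => D.ρ_alg a) htr hgen hκ hF

variable {D : RedData A F Fb} {t : D.Z} {ι : Type} [Fintype ι] {r : ι → D.Z}

/-- evaluation in the ring of integral functions -/
def evZ (D : RedData A F Fb) (t : D.Z) : A[X] →+* D.Z :=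
  letI := algZ D
  (aeval (R := A) t).toRingHom

theorem coe_evZ (t : D.Z) (p : A[X]) : ((evZ D t p : D.Z) : F) = H28.evA A (t : F) p := by
  letI := algZ D
  have h1 : (D.Z.subtype.comp (evZ D t)) = H28.evA A (t : F) := by
    apply Polynomial.ringHom_ext
    · intro a
      rw [H28.evA_C, RingHom.comp_apply]
      show ((aeval (R := A) t (C a) : D.Z) : F) = _
      rw [aeval_C]; rfl
    · rw [H28.evA_X, RingHom.comp_apply]
      show ((aeval (R := A) t X : D.Z) : F) = _
      rw [aeval_X]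
  exact congrArg (fun f => f p) h1

theorem rho_evZ (t : D.Z) (p : A[X]) : D.ρ (evZ D t p) =
    aeval (D.ρ t) (p.map (residue A)) := by
  letI := algZ D
  have h1 : (D.ρ.comp (evZ D t)) = (aeval (R := ResidueField A) (D.ρ t)).toRingHom.comp
      (mapRingHom (residue A)) := by
    apply Polynomial.ringHom_ext
    · intro a
      rw [RingHom.comp_apply, RingHom.comp_apply, coe_mapRingHom, Polynomial.map_C]
      show D.ρ (aeval (R := A) t (C a) : D.Z) = aeval (D.ρ t) (C (residue A a))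
      rw [aeval_C, aeval_C]
      exact D.ρ_alg a
    · rw [RingHom.comp_apply, RingHom.comp_apply, coe_mapRingHom, Polynomial.map_X]
      show D.ρ (aeval (R := A) t X : D.Z) = aeval (D.ρ t) X
      rw [aeval_X, aeval_X]
  exact congrArg (fun f => f p) h1

/-- `red_int` is automatic. -/
theorem red_int (mem : ∀ x : F, IntOver A (t : F) x → x ∈ D.Z) (x : F)
    (hx : IntOver A (t : F) x) :
    IsIntegral (Algebra.adjoin (ResidueField A) {D.ρ t}) (D.ρ ⟨x, mem x hx⟩) := by
  rw [isIntegral_adjoin_iff]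
  obtain ⟨P, hP, hPx⟩ := hx
  refine ⟨P.map (mapRingHom (residue A)), hP.map _, ?_⟩
  have h1 : P.eval₂ (evZ D t) ⟨x, mem x ⟨P, hP, hPx⟩⟩ = 0 := by
    apply Subtype.ext
    have h2 := Polynomial.hom_eval₂ P (evZ D t) D.Z.subtype ⟨x, mem x ⟨P, hP, hPx⟩⟩
    have h3 : D.Z.subtype.comp (evZ D t) = H28.evA A (t : F) := RingHom.ext fun p => coe_evZ t p
    rw [h3] at h2
    exact h2.trans hPx
  have h2 := congrArg D.ρ h1
  rw [Polynomial.hom_eval₂, map_zero] at h2
  rw [eval₂_map, ← h2]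
  congr 1
  apply RingHom.ext
  intro p
  exact (rho_evZ t p).symm

theorem intOver_of_mem (hG : GaussD D t r) {x : F} (hx : x ∈ valRing (F := F) D.ρ)
    (hint : IsIntegral (Algebra.adjoin L {(t : F)}) x) : IntOver A (t : F) x := by
  letI := algZ D
  have h1 := IsGauss.isIntegralElem_of_mem hG x hx ((isIntegral_adjoin_iff (t : F) x).mp hint)
  have h2 : (((aeval (R := L) (algebraMap D.Z F t)).toRingHom).comp
      (mapRingHom (algebraMap A L))) = H28.evA A (t : F) := by
    apply RingHom.ext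
    intro p
    rw [H28.evA_eq_aeval]
    rfl
  rw [h2] at h1
  exact h1

theorem intOver_of_Z (hG : GaussD D t r) {x : F} (hx : x ∈ D.Z)
    (hint : IsIntegral (Algebra.adjoin L {(t : F)}) x) : IntOver A (t : F) x :=
  intOver_of_mem hG (algebraMap_mem_valRing D.ρ ⟨x, hx⟩) hint

/-- `prim` -/
theorem prim (hG : GaussD D t r) (mem : ∀ x : F, IntOver A (t : F) x → x ∈ D.Z) (x : F)
    (hx : x ≠ 0) (hint : IsIntegral (Algebra.adjoin L {(t : F)}) x) :
    ∃ (c : L) (hc : IntOver A (t : F) (c • x)), D.ρ ⟨c • x, mem _ hc⟩ ≠ 0 := by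
  letI := algZ D
  obtain ⟨c, hc, a, P, ha, hP, heq⟩ := IsGauss.exists_repr hG x hx
  have hcF : algebraMap L F c ≠ 0 := by rwa [Ne, map_eq_zero_iff _ (algebraMap L F).injective]
  have heq2 : algebraMap D.Z F (aeval (R := A) t P) * (c⁻¹ • x) = algebraMap D.Z F a := by
    rw [Algebra.smul_def, map_inv₀]
    field_simp
    exact heq
  have hmem : c⁻¹ • x ∈ valRing (F := F) D.ρ := ⟨a, _, hP, heq2⟩
  have hval : valMap D.ρ ⟨c⁻¹ • x, hmem⟩ = D.ρ a / D.ρ (aeval (R := A) t P) :=
    valMap_eq D.ρ _ hP heq2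
  have hint2 : IsIntegral (Algebra.adjoin L {(t : F)}) (c⁻¹ • x) := by
    rw [Algebra.smul_def]
    refine IsIntegral.mul ?_ hint
    have : algebraMap L F c⁻¹ = algebraMap (Algebra.adjoin L {(t : F)}) F
      (algebraMap L (Algebra.adjoin L {(t : F)}) c⁻¹) := rfl
    rw [this]
    exact isIntegral_algebraMap
  have hI := intOver_of_mem hG hmem hint2
  refine ⟨c⁻¹, hI, ?_⟩
  rw [← valMap_algebraMap (F := F) D.ρ ⟨c⁻¹ • x, mem _ hI⟩]
  have h3 : (⟨algebraMap D.Z F ⟨c⁻¹ • x, mem _ hI⟩, algebraMap_mem_valRing D.ρ _⟩ :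
      valRing (F := F) D.ρ) = ⟨c⁻¹ • x, hmem⟩ := rfl
  rw [h3, hval]
  exact div_ne_zero ha hP

/-- lifting of integral elements -/
def LiftProp (D : RedData A F Fb) (t : D.Z) : Prop :=
  ∀ y : Fb, IsIntegral (Algebra.adjoin (ResidueField A) {D.ρ t}) y →
    ∃ z : D.Z, IntOver A (t : F) (z : F) ∧ D.ρ z = y

theorem liftProp_of_normality [CharZero L] [IsAlgClosed L] [DecidableEq ι]
    (hG : GaussD D t r) (mem : ∀ x : F, IntOver A (t : F) x → x ∈ D.Z)
    {𝕂 : Type*} [Field 𝕂] [Algebra L 𝕂] [Algebra 𝕂 F] [IsScalarTower L 𝕂 F]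
    (x : 𝕂) (hx : algebraMap 𝕂 F x = t) (h : H27.RatCoord L x)
    [FiniteDimensional (ResidueField A)⟮D.ρ t⟯ Fb]
    (hκ : Module.finrank (ResidueField A)⟮D.ρ t⟯ Fb = Fintype.card ι)
    [Algebra.IsSeparable (ResidueField A)⟮D.ρ t⟯ Fb]
    (B : A[X]) (hB : Squarefree (H27.redP A B))
    (hloc : ∀ a ∈ A, ∃ d : H27.LocData x a F ι, (H27.incP A B).eval a ≠ 0 → d.e = 1) :
    LiftProp D t := by
  letI := algZ D
  intro y hy
  obtain ⟨P, hP, hPy⟩ := (isIntegral_adjoin_iff _ y).mp hy
  obtain ⟨z, hz, hzv, hzy⟩ := GaussB.exists_integral_lift hG hx hκ h B hB hloc y P hP hPy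
  have h2 : (algebraMap D.Z F).comp (aeval (R := A) t).toRingHom = H28.evA A (t : F) := by
    apply RingHom.ext
    intro p
    exact coe_evZ t p
  rw [h2] at hz
  refine ⟨⟨z, mem z hz⟩, hz, ?_⟩
  rw [← hzy, ← valMap_algebraMap (F := F) D.ρ ⟨z, mem z hz⟩]
  rfl

end Alg

end

end Fermat.Agent.H29
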