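import Mathlib
import Fermat.Agent.H29.Chart

set_option autoImplicit false
set_option linter.all false

/-! Localisation of charts. -/

namespace Fermat.Agent.H29

open Polynomial IntermediateField IsLocalRing
open Fermat.Agent.H28 (RedData IntOver intOver_self intOver_alg intOver_ev)

noncomputable section

/-- clearing denominators in an integral equation -/
theorem exists_pow_mul_isIntegral {K F : Type*} [Field K] [Field F] [Algebra K F] {t u s z : F}
    (hs : IsIntegral (Algebra.adjoin K {u}) s) (m : ℕ)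
    (hst : IsIntegral (Algebra.adjoin K {u}) (s ^ m * t))
    (hz : IsIntegral (Algebra.adjoin K {t}) z) :
    ∃ N : ℕ, IsIntegral (Algebra.adjoin K {u}) (s ^ N * z) := by
  classical
  obtain ⟨P, hP, hPz⟩ := (isIntegral_adjoin_iff t z).mp hz
  set R : Subring F := (integralClosure (Algebra.adjoin K {u}) F).toSubring with hR
  have hmemR : ∀ a : F, a ∈ R ↔ IsIntegral (Algebra.adjoin K {u}) a := fun a => Iff.rfl
  have hK : ∀ c : K, algebraMap K F c ∈ R := by
    intro c
    rw [hmemR]
    exact isIntegral_algebraMap (R := Algebra.adjoin K {u})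
      (x := algebraMap K (Algebra.adjoin K {u}) c)
  -- coefficients
  have hcoef : ∀ (p : K[X]) (n : ℕ), p.natDegree ≤ n → s ^ (m * n) * aeval t p ∈ R := by
    intro p n hn
    rw [aeval_eq_sum_range' (Nat.lt_succ_of_le hn), Finset.mul_sum]
    refine sum_mem fun i hi => ?_
    have hi' : i ≤ n := Nat.lt_succ_iff.mp (Finset.mem_range.mp hi)
    have h1 : s ^ (m * n) * (p.coeff i • t ^ i) =
        algebraMap K F (p.coeff i) * (s ^ (m * (n - i)) * (s ^ m * t) ^ i) := by
      rw [Algebra.smul_def, mul_pow, ← pow_mul]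
      have : s ^ (m * n) = s ^ (m * (n - i)) * s ^ (m * i) := by
        rw [← pow_add, ← mul_add, Nat.sub_add_cancel hi']
      rw [this]; ring
    rw [h1]
    exact mul_mem (hK _) (mul_mem (pow_mem ((hmemR s).mpr hs) _) (pow_mem ((hmemR _).mpr hst) _))
  let d : ℕ := (Finset.range (P.natDegree + 1)).sup fun i => (P.coeff i).natDegree
  have hd : ∀ i ≤ P.natDegree, (P.coeff i).natDegree ≤ d := fun i hi =>
    Finset.le_sup (f := fun i => (P.coeff i).natDegree) (Finset.mem_range.mpr (Nat.lt_succ_of_le hi))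
  refine ⟨m * d, ?_⟩
  -- the scaled polynomial
  let P' : F[X] := P.map (aeval (R := K) t).toRingHom
  have hP' : P'.Monic := hP.map _
  have hroot : (scaleRoots P' (s ^ (m * d))).eval (s ^ (m * d) * z) = 0 := by
    have h1 : P'.eval z = 0 := by rw [eval_map]; exact hPz
    have h2 := scaleRoots_eval₂_mul (p := P') (f := RingHom.id F) (s := s ^ (m * d)) (r := z)
    rw [RingHom.id_apply, eval₂_id] at h2
    rw [h2]
    rw [eval₂_id, h1, mul_zero]
  have hlift : scaleRoots P' (s ^ (m * d)) ∈ lifts R.subtype := by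
    rw [lifts_iff_coeff_lifts]
    intro i
    have hnat : P'.natDegree = P.natDegree := hP.natDegree_map _
    suffices h : (scaleRoots P' (s ^ (m * d))).coeff i ∈ R from ⟨⟨_, h⟩, rfl⟩
    rw [coeff_scaleRoots, coeff_map, hnat]
    rcases lt_trichotomy i P.natDegree with h | h | h
    · obtain ⟨e, he⟩ : ∃ e, P.natDegree - i = e + 1 := ⟨P.natDegree - i - 1, by omega⟩
      rw [he, pow_succ]
      have h3 := hcoef (P.coeff i) d (hd i h.le)
      have h4 : (aeval (R := K) t).toRingHom (P.coeff i) * ((s ^ (m * d)) ^ e * s ^ (m * d)) =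
          (s ^ (m * d)) ^ e * (s ^ (m * d) * aeval t (P.coeff i)) := by
        show aeval t (P.coeff i) * _ = _
        ring
      rw [h4]
      exact mul_mem (pow_mem (pow_mem ((hmemR s).mpr hs) _) _) h3
    · subst h
      rw [Nat.sub_self, pow_zero, mul_one, hP.coeff_natDegree, map_one]
      exact one_mem _
    · rw [coeff_eq_zero_of_natDegree_lt h, map_zero, zero_mul]
      exact zero_mem _
  obtain ⟨Q, hQ, -, hQm⟩ := lifts_and_degree_eq_and_monic hlift
    ((monic_scaleRoots_iff _).mpr hP')
  have hint : IsIntegral R (s ^ (m * d) * z) := by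
    refine ⟨Q, hQm, ?_⟩
    have h5 : Q.eval₂ R.subtype (s ^ (m * d) * z) = 0 := by
      rw [← eval_map, hQ]; exact hroot
    exact h5
  have h6 : IsIntegral (integralClosure (Algebra.adjoin K {u}) F) (s ^ (m * d) * z) := hint
  exact isIntegral_trans _ h6

section Alg

variable {L : Type*} [Field L] {A : ValuationSubring L} {F Fb : Type*} [Field F] [Field Fb]
  [Algebra L F] [Algebra (ResidueField A) Fb] {D : RedData A F Fb}

/-- integrality is transitive for charts -/
theorem intOver_trans {u t z : F} (hu : IntOver A t u) (hz : IntOver A u z) : IntOver A t z := by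
  obtain ⟨P, hP, hPz⟩ := hz
  -- all `evA A u p` are integral over `A[t]`
  have hmem : ∀ p : A[X], H28.evA A u p ∈ H28.intSubring A t := by
    intro p
    rw [H28.evA_apply, eval₂_eq_sum_range]
    refine sum_mem fun i _ => mul_mem ?_ (pow_mem hu i)
    exact intOver_alg t (p.coeff i)
  letI := (H28.evA A t).toAlgebra
  have h1 : IsIntegral (integralClosure A[X] F) z := by
    let φ : A[X] →+* integralClosure A[X] F :=
      (H28.evA A u).codRestrict (integralClosure A[X] F) hmem
    refine ⟨P.map φ, hP.map _, ?_⟩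
    rw [eval₂_map]
    exact hPz
  exact isIntegral_trans (R := A[X]) _ h1

/-- localisation of the lifting property -/
theorem LiftProp.loc {u t s s' : D.Z} (hu : LiftProp D u)
    (hut : IntOver A (t : F) (u : F)) (hs' : IntOver A (t : F) (s' : F)) (hss' : s * s' = 1)
    (hs : IntOver A (u : F) (s : F)) (m : ℕ) (hst : IntOver A (u : F) ((s ^ m * t : D.Z) : F))
    (memu : ∀ x : F, IntOver A (u : F) x → x ∈ D.Z) : LiftProp D t := by
  intro y hy
  have h1 := red_int memu _ hs
  have h2 := red_int memu _ hst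
  have e1 : D.ρ ⟨(s : F), memu _ hs⟩ = D.ρ s := rfl
  have e2 : D.ρ ⟨((s ^ m * t : D.Z) : F), memu _ hst⟩ = D.ρ s ^ m * D.ρ t := by
    rw [← map_pow, ← map_mul]
  rw [e1] at h1
  rw [e2] at h2
  obtain ⟨N, hN⟩ := exists_pow_mul_isIntegral h1 m h2 hy
  obtain ⟨z, hz, hzy⟩ := hu _ hN
  refine ⟨s' ^ N * z, ?_, ?_⟩
  · have h3 : IntOver A (t : F) ((s' : F) ^ N) := by
      have : (s' : F) ∈ H28.intSubring A (t : F) := hs'
      exact pow_mem this N
    exact H28.IntOver.mul h3 (intOver_trans hut hz)
  · rw [map_mul, map_pow, hzy, ← mul_assoc, ← mul_pow, ← map_mul, mul_comm s' s, hss', map_one,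
      one_pow, one_mul]

end Alg

end

end Fermat.Agent.H29
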