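import Mathlib
import Fermat.Agent.AL.Aff
import Fermat.Agent.IntStr.Main
import Fermat.Agent.H14.Numerics

/-!
# Identities between `E₄(z)`, `E₄(rz)`, `Δ(z)`, `Δ(rz)` for `r = 2, 3`
-/

set_option autoImplicit false
set_option linter.all false

namespace Fermat.Agent.H29

open UpperHalfPlane Function ModularForm PowerSeries CongruenceSubgroup Filter
open scoped Manifold Topology MatrixGroups ModularForm
open Fermat.Agent.IntStr Fermat.Agent.AL

noncomputable section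

section IsMN

variable {N : ℕ} {k l : ℤ} {f g : ℍ → ℂ}

theorem isMN_of_isM1 (h : IsM1 k f) : IsMN N k f where
  slash γ _ := h.slash γ
  holo := h.holo
  bdd γ := by rw [h.slash]; exact h.bdd

theorem isMN_scale (r : ℕ) (hr : 0 < r) (h : IsM1 k f) :
    IsMN r k (fun z => f (aff r 1 0 z)) where
  slash γ hγ := by
    rw [mem_Gamma0_iff] at hγ
    obtain ⟨c, hc⟩ := hγ
    have hdet := det_eq γ
    let δ : SL(2, ℤ) := ⟨!![γ 0 0, r * γ 0 1; c, γ 1 1], by
      rw [Matrix.det_fin_two_of]; rw [hc] at hdet; linear_combination hdet⟩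
    have h1 := slash_aff (k := k) (f : ℍ → ℂ) (a := r) (d := 1) (a' := r) (d' := 1) (b := 0)
      (b' := 0) (γ := γ) (δ := δ) hr one_pos hr one_pos (by change _ = γ 0 0 * r; push_cast; ring)
      (by change _ = γ 0 0 * 0 + (r * γ 0 1) * _; push_cast; ring)
      (by change _ = c * r; rw [hc]; push_cast; ring)
      (by change _ = c * 0 + γ 1 1 * _; push_cast; ring)
    rw [h1, h.slash δ]
    ext z
    simp
  holo := mdiff_comp_aff h.holo hr one_pos 0
  bdd γ := by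
    obtain ⟨δ, a', d', b', ha', hd', h'⟩ := slash_aff' (k := k) (b := 0) f γ hr one_pos
    rw [h', h.slash δ]
    have h1 : IsBoundedAtImInfty (fun z => f (aff a' d' b' z)) :=
      h.bdd.comp_tendsto (tendsto_aff ha' hd' b')
    exact (Filter.const_boundedAtFilter _ _).mul h1

theorem isMN_mul (hf : IsMN N k f) (hg : IsMN N l g) : IsMN N (k + l) (f * g) where
  slash γ hγ := by rw [mul_slash_SL2, hf.slash γ hγ, hg.slash γ hγ]
  holo := hf.holo.mul hg.holo
  bdd γ := by rw [mul_slash_SL2]; exact (hf.bdd γ).mul (hg.bdd γ)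

theorem isMN_add (hf : IsMN N k f) (hg : IsMN N k g) : IsMN N k (f + g) where
  slash γ hγ := by rw [SlashAction.add_slash, hf.slash γ hγ, hg.slash γ hγ]
  holo := hf.holo.add hg.holo
  bdd γ := by rw [SlashAction.add_slash]; exact (hf.bdd γ).add (hg.bdd γ)

theorem isMN_smul (hf : IsMN N k f) (c : ℂ) : IsMN N k (c • f) where
  slash γ hγ := by rw [ModularForm.SL_smul_slash, hf.slash γ hγ]
  holo := hf.holo.const_smul c
  bdd γ := by rw [ModularForm.SL_smul_slash]; exact (hf.bdd γ).smul c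

theorem isMN_sub (hf : IsMN N k f) (hg : IsMN N k g) : IsMN N k (f - g) := by
  have := isMN_add hf (isMN_smul hg (-1))
  convert this using 1
  ext z; simp; ring

end IsMN

/-! ### power series -/

/-- `E₄` -/
def pe : PowerSeries ℤ := ModularCurve.eisenstein4

/-- `E₆` -/
def pe6 : PowerSeries ℤ :=
  PowerSeries.mk fun n => if n = 0 then 1 else -504 * ∑ d ∈ n.divisors, (d : ℤ) ^ 5

/-- `F(q ^ r)` -/
def pV (r : ℕ) (F : PowerSeries ℤ) : PowerSeries ℤ :=
  PowerSeries.mk fun n => if r ∣ n then coeff (n / r) F else 0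

/-- reduction modulo `X ^ 6` -/
def m6 : PowerSeries ℤ →+* PowerSeries ℤ ⧸ Ideal.span {(X : PowerSeries ℤ) ^ 6} :=
  Ideal.Quotient.mk _

theorem m6_eq {F G : PowerSeries ℤ} (h : ∀ m < 6, coeff m F = coeff m G) : m6 F = m6 G := by
  rw [m6, Ideal.Quotient.eq, Ideal.mem_span_singleton, X_pow_dvd_iff]
  intro m hm
  rw [map_sub, h m hm, sub_self]

theorem coeff_eq_zero_of_m6 {F : PowerSeries ℤ} (h : m6 F = 0) : ∀ m < 6, coeff m F = 0 := by
  rw [m6, Ideal.Quotient.eq_zero_iff_mem, Ideal.mem_span_singleton, X_pow_dvd_iff] at h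
  exact h

theorem divisors_small : (1 : ℕ).divisors = {1} ∧ (2 : ℕ).divisors = {1, 2} ∧
    (3 : ℕ).divisors = {1, 3} ∧ (4 : ℕ).divisors = {1, 2, 4} ∧ (5 : ℕ).divisors = {1, 5} := by
  decide

theorem m6_pe : m6 pe = m6 (C (1) + C (240) * X ^ 1 + C (2160) * X ^ 2 + C (6720) * X ^ 3 + C (17520) * X ^ 4 + C (30240) * X ^ 5) := by
  apply m6_eq
  intro m hm
  obtain ⟨h1, h2, h3, h4, h5⟩ := divisors_small
  interval_cases m <;>
  (simp only [map_add, coeff_C_mul, coeff_X_pow, coeff_C]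
   simp [pe, ModularCurve.eisenstein4, coeff_mk, h1, h2, h3, h4, h5, coeff_X_pow, coeff_C_mul, coeff_C])

theorem m6_pe6 : m6 pe6 = m6 (C (1) + C (-504) * X ^ 1 + C (-16632) * X ^ 2 + C (-122976) * X ^ 3 + C (-532728) * X ^ 4 + C (-1575504) * X ^ 5) := by
  apply m6_eq
  intro m hm
  obtain ⟨h1, h2, h3, h4, h5⟩ := divisors_small
  interval_cases m <;>
  (simp only [map_add, coeff_C_mul, coeff_X_pow, coeff_C]
   simp [pe6, coeff_mk, h1, h2, h3, h4, h5, coeff_X_pow, coeff_C_mul, coeff_C])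

theorem m6_pV2 : m6 (pV 2 pe) = m6 (C (1) + C (240) * X ^ 2 + C (2160) * X ^ 4) := by
  apply m6_eq
  intro m hm
  obtain ⟨h1, h2, h3, h4, h5⟩ := divisors_small
  interval_cases m <;>
  (simp only [map_add, coeff_C_mul, coeff_X_pow, coeff_C]
   simp [pV, pe, ModularCurve.eisenstein4, coeff_mk, h1, h2, h3, h4, h5, coeff_X_pow, coeff_C_mul, coeff_C])

theorem m6_pV26 : m6 (pV 2 pe6) = m6 (C (1) + C (-504) * X ^ 2 + C (-16632) * X ^ 4) := by
  apply m6_eq
  intro m hm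
  obtain ⟨h1, h2, h3, h4, h5⟩ := divisors_small
  interval_cases m <;>
  (simp only [map_add, coeff_C_mul, coeff_X_pow, coeff_C]
   simp [pV, pe6, coeff_mk, h1, h2, h3, h4, h5, coeff_X_pow, coeff_C_mul, coeff_C])

theorem m6_pV3 : m6 (pV 3 pe) = m6 (C (1) + C (240) * X ^ 3) := by
  apply m6_eq
  intro m hm
  obtain ⟨h1, h2, h3, h4, h5⟩ := divisors_small
  interval_cases m <;>
  (simp only [map_add, coeff_C_mul, coeff_X_pow, coeff_C]
   simp [pV, pe, ModularCurve.eisenstein4, coeff_mk, h1, h2, h3, h4, h5, coeff_X_pow, coeff_C_mul, coeff_C])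

theorem m6_pV36 : m6 (pV 3 pe6) = m6 (C (1) + C (-504) * X ^ 3) := by
  apply m6_eq
  intro m hm
  obtain ⟨h1, h2, h3, h4, h5⟩ := divisors_small
  interval_cases m <;>
  (simp only [map_add, coeff_C_mul, coeff_X_pow, coeff_C]
   simp [pV, pe6, coeff_mk, h1, h2, h3, h4, h5, coeff_X_pow, coeff_C_mul, coeff_C])

theorem m6_21 : m6 (1728 * ((pe - (pV 2 pe)) * (16 * (pV 2 pe) - pe) ^ 2) - 54000 * (pe ^ 3 - pe6 ^ 2)) = 0 := by
  have h : m6 (1728 * ((pe - (pV 2 pe)) * (16 * (pV 2 pe) - pe) ^ 2) - 54000 * (pe ^ 3 - pe6 ^ 2)) = m6 (1728 * (((C (1) + C (240) * X ^ 1 + C (2160) * X ^ 2 + C (6720) * X ^ 3 + C (17520) * X ^ 4 + C (30240) * X ^ 5) - (C (1) + C (240) * X ^ 2 + C (2160) * X ^ 4)) * (16 * (C (1) + C (240) * X ^ 2 + C (2160) * X ^ 4) - (C (1) + C (240) * X ^ 1 + C (2160) * X ^ 2 + C (6720) * X ^ 3 + C (17520) * X ^ 4 + C (30240) * X ^ 5)) ^ 2) - 54000 * ((C (1) + C (240) * X ^ 1 + C (2160) * X ^ 2 + C (6720) * X ^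 3 + C (17520) * X ^ 4 + C (30240) * X ^ 5) ^ 3 - (C (1) + C (-504) * X ^ 1 + C (-16632) * X ^ 2 + C (-122976) * X ^ 3 + C (-532728) * X ^ 4 + C (-1575504) * X ^ 5) ^ 2)) := by
    simp only [map_sub, map_mul, map_pow, map_add, map_natCast, map_ofNat, m6_pe, m6_pe6, m6_pV2]
  rw [h, m6, Ideal.Quotient.eq_zero_iff_mem, Ideal.mem_span_singleton]
  refine ⟨C (427182336000) + C (-215213677056000) * X ^ 1 + C (-7139069799552000) * X ^ 2 + C (-58848117179904000) * X ^ 3 + C (-285607229022720000) * X ^ 4 + C (-959330943664128000) * X ^ 5 + C (-1771635815424000000) * X ^ 6 + C (-2479552764788736000) * X ^ 7 + C (-2625031159382016000) * X ^ 8 + C (-1445487956656128000) * X ^ 9, ?_⟩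
  simp only [map_neg, map_ofNat, map_one]
  ring

theorem m6_22 : m6 (1728 * ((pe - (pV 2 pe)) ^ 2 * (16 * (pV 2 pe) - pe)) - 864000 * ((pV 2 pe) ^ 3 - (pV 2 pe6) ^ 2)) = 0 := by
  have h : m6 (1728 * ((pe - (pV 2 pe)) ^ 2 * (16 * (pV 2 pe) - pe)) - 864000 * ((pV 2 pe) ^ 3 - (pV 2 pe6) ^ 2)) = m6 (1728 * (((C (1) + C (240) * X ^ 1 + C (2160) * X ^ 2 + C (6720) * X ^ 3 + C (17520) * X ^ 4 + C (30240) * X ^ 5) - (C (1) + C (240) * X ^ 2 + C (2160) * X ^ 4)) ^ 2 * (16 * (C (1) + C (240) * X ^ 2 + C (2160) * X ^ 4) - (C (1) + C (240) * X ^ 1 + C (2160) * X ^ 2 + C (6720) * X ^ 3 + C (17520) * X ^ 4 + C (30240) * X ^ 5))) - 864000 * ((C (1) + C (240) * X ^ 2 + C (2160) * X ^ 4) ^ 3 - (C (1) + C (-504) * X ^ 2 + C (-16632) * X ^ 4) ^ 2)) := by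
    simp only [map_sub, map_mul, map_pow, map_add, map_natCast, map_ofNat, m6_pe, m6_pe6, m6_pV2, m6_pV26]
  rw [h, m6, Ideal.Quotient.eq_zero_iff_mem, Ideal.mem_span_singleton]
  refine ⟨C (229920768000) + C (-668860416000) * X ^ 1 + C (-98132871168000) * X ^ 2 + C (-68032659456000) * X ^ 3 + C (-3384618835968000) * X ^ 4 + C (-1844048166912000) * X ^ 5 + C (-14780859678720000) * X ^ 6 + C (-16831203508224000) * X ^ 7 + C (-21616899784704000) * X ^ 8 + C (-47784725839872000) * X ^ 9, ?_⟩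
  simp only [map_neg, map_ofNat, map_one]
  ring

theorem m6_31 : m6 (1728 * ((81 * (pV 3 pe) - pe) ^ 3 * (pe - (pV 3 pe))) - 12288000 * ((9 * (pV 3 pe) + pe) * (pe ^ 3 - pe6 ^ 2))) = 0 := by
  have h : m6 (1728 * ((81 * (pV 3 pe) - pe) ^ 3 * (pe - (pV 3 pe))) - 12288000 * ((9 * (pV 3 pe) + pe) * (pe ^ 3 - pe6 ^ 2))) = m6 (1728 * ((81 * (C (1) + C (240) * X ^ 3) - (C (1) + C (240) * X ^ 1 + C (2160) * X ^ 2 + C (6720) * X ^ 3 + C (17520) * X ^ 4 + C (30240) * X ^ 5)) ^ 3 * ((C (1) + C (240) * X ^ 1 + C (2160) * X ^ 2 + C (6720) * X ^ 3 + C (17520) * X ^ 4 + C (30240) * X ^ 5) - (C (1) + C (240) * X ^ 3))) - 12288000 * ((9 * (C (1) + C (240) * X ^ 3) + (C (1) + C (240) * X ^ 1 + C (2160) * X ^ 2 + C (6720) * X ^ 3 + C (17520) * X ^ 4 + C (30240) * X ^ 5)) * ((C (1) + C (240) * X ^ 1 + C (2160) * X ^ 2 + C (6720) * X ^ 3 + C (17520) * X ^ 4 + C (30240) * X ^ 5) ^ 3 - (C (1) + C (-504) * X ^ 1 + C (-16632) * X ^ 2 + C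 (-122976) * X ^ 3 + C (-532728) * X ^ 4 + C (-1575504) * X ^ 5) ^ 2))) := by
    simp only [map_sub, map_mul, map_pow, map_add, map_natCast, map_ofNat, m6_pe, m6_pe6, m6_pV3]
  rw [h, m6, Ideal.Quotient.eq_zero_iff_mem, Ideal.mem_span_singleton]
  refine ⟨C (968042741760000) + C (-464199745536000000) * X ^ 1 + C (-27811579405271040000) * X ^ 2 + C (-628248432476160000000) * X ^ 3 + C (-7808765999012904960000) * X ^ 4 + C (-61983777877516615680000) * X ^ 5 + C (-345648399648361021440000) * X ^ 6 + C (-1434806434235264532480000) * X ^ 7 + C (-4494598586010524712960000) * X ^ 8 + C (-10734215364012901662720000) * X ^ 9 + C (-20057412064282733445120000) * X ^ 10 + C (-28079372305527346298880000) * X ^ 11 + C (-30564203658314262773760000) * X ^ 12 + C (-23816707593467603189760000) * X ^ 13 + C (-10277072454715472609280000) * X ^ 14, ?_⟩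
  simp only [map_neg, map_ofNat, map_one]
  ring

theorem m6_32 : m6 (1728 * ((pe - (pV 3 pe)) ^ 3 * (81 * (pV 3 pe) - pe)) - 110592000 * ((9 * (pV 3 pe) + pe) * ((pV 3 pe) ^ 3 - (pV 3 pe6) ^ 2))) = 0 := by
  have h : m6 (1728 * ((pe - (pV 3 pe)) ^ 3 * (81 * (pV 3 pe) - pe)) - 110592000 * ((9 * (pV 3 pe) + pe) * ((pV 3 pe) ^ 3 - (pV 3 pe6) ^ 2))) = m6 (1728 * (((C (1) + C (240) * X ^ 1 + C (2160) * X ^ 2 + C (6720) * X ^ 3 + C (17520) * X ^ 4 + C (30240) * X ^ 5) - (C (1) + C (240) * X ^ 3)) ^ 3 * (81 * (C (1) + C (240) * X ^ 3) - (C (1) + C (240) * X ^ 1 + C (2160) * X ^ 2 + C (6720) * X ^ 3 + C (17520) * X ^ 4 + C (30240) * X ^ 5))) - 110592000 * ((9 * (C (1) + C (240) * X ^ 3) + (C (1) + C (240) * X ^ 1 + C (2160) * X ^ 2 + C (6720) * X ^ 3 + C (17520) * X ^ 4 + C (30240) * X ^ 5)) * ((C (1) + C (240) * X ^ 3) ^ 3 - (C (1) + C (-504) * X ^ 3) ^ 2))) := by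
    simp only [map_sub, map_mul, map_pow, map_add, map_natCast, map_ofNat, m6_pe, m6_pe6, m6_pV3, m6_pV36]
  rw [h, m6, Ideal.Quotient.eq_zero_iff_mem, Ideal.mem_span_singleton]
  refine ⟨C (43953684480000) + C (1054888427520000) * X ^ 1 + C (8100855152640000) * X ^ 2 + C (13893186355200000) * X ^ 3 + C (-442605958594560000) * X ^ 4 + C (-3889597222748160000) * X ^ 5 + C (-18543188052541440000) * X ^ 6 + C (-54785183302287360000) * X ^ 7 + C (-163829940281671680000) * X ^ 8 + C (-400802404274012160000) * X ^ 9 + C (-1057946508939755520000) * X ^ 10 + C (-2095041302054830080000) * X ^ 11 + C (-3231339689080258560000) * X ^ 12 + C (-3348753586858229760000) * X ^ 13 + C (-1445010109397729280000) * X ^ 14, ?_⟩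
  simp only [map_neg, map_ofNat, map_one]
  ring


end

end Fermat.Agent.H29
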