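import Mathlib
import Fermat.Agent.AL.Level
import Fermat.Agent.H01.JQ
import Fermat.Agent.H29.Haupt

set_option autoImplicit false
set_option linter.all false

namespace Fermat.Agent.H29

open UpperHalfPlane Function ModularForm PowerSeries CongruenceSubgroup Filter
open scoped Manifold Topology MatrixGroups ModularForm
open Fermat.Agent.IntStr Fermat.Agent.AL
open ModularFormClass (qCoeff)

noncomputable section

/-- `Δ` -/
def pD : PowerSeries ℤ := X * ModularCurve.dedekindEtaUnit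

abbrev toC : PowerSeries ℤ →+* PowerSeries ℂ := PowerSeries.map (Int.castRingHom ℂ)

theorem toC_injective : Function.Injective toC := by
  intro F G h
  ext n
  have := congrArg (coeff n) h
  simpa using this

theorem qExp_E4 : qExpansion 1 (E₄ : ℍ → ℂ) = toC pe := by
  ext n
  rw [EisensteinSeries.E_qExpansion_coeff (by norm_num) ⟨2, rfl⟩, PowerSeries.coeff_map,
    pe, ModularCurve.eisenstein4, PowerSeries.coeff_mk]
  split_ifs with h
  · simp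
  · have hb : bernoulli 4 = -1 / 30 := by decide +kernel
    rw [hb, ArithmeticFunction.sigma_apply]
    push_cast
    simp
    ring

theorem qExp_E6 : qExpansion 1 (E₆ : ℍ → ℂ) = toC pe6 := by
  ext n
  rw [EisensteinSeries.E_qExpansion_coeff (by norm_num) ⟨3, rfl⟩, PowerSeries.coeff_map,
    pe6, PowerSeries.coeff_mk]
  split_ifs with h
  · simp
  · have hb : bernoulli 6 = 1 / 42 := by decide +kernel
    rw [hb, ArithmeticFunction.sigma_apply]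
    push_cast
    simp
    left
    norm_num

theorem qExp_D : qExpansion 1 (discriminant : ℍ → ℂ) = toC pD := by
  rw [pD, map_mul, toC, PowerSeries.map_X]
  exact Fermat.Agent.H01.qExpansion_discriminant

theorem scale_mem_QR {k : ℤ} {f : ℍ → ℂ} (hf : IsM1 k f) (r : ℕ) [NeZero r] :
    (fun z => f (aff r 1 0 z)) ∈ QR 1 :=
  (isMN_scale r (Nat.pos_of_ne_zero (NeZero.ne r)) hf).mem_QR

theorem qExp_scale {k : ℤ} {f : ℍ → ℂ} (hf : IsM1 k f) (r : ℕ) [NeZero r] (F : PowerSeries ℤ)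
    (hF : qExpansion 1 f = toC F) :
    qExpansion 1 (fun z => f (aff r 1 0 z)) = toC (pV r F) := by
  ext n
  have h := qExp_comp_mul hf.mem_QR (Nat.pos_of_ne_zero (NeZero.ne r)) (scale_mem_QR hf r) n
  rw [show qCoeff (fun z ↦ f (aff r 1 0 z)) n =
    coeff n (qExpansion 1 (fun z => f (aff r 1 0 z))) from rfl] at h
  rw [h, PowerSeries.coeff_map, pV, PowerSeries.coeff_mk]
  split_ifs with hr
  · rw [show qCoeff f (n / r) = coeff (n / r) (qExpansion 1 f) from rfl, hF, PowerSeries.coeff_map]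
  · simp

theorem isM1_E4 : IsM1 4 (E₄ : ℍ → ℂ) := isM1_coe E₄
theorem isM1_E6 : IsM1 6 (E₆ : ℍ → ℂ) := isM1_coe E₆
theorem isM1_D : IsM1 12 (discriminant : ℍ → ℂ) := isS1_discriminant.isM1

/-- elements of `QR` -/
def qe : QR 1 := ⟨E₄, isM1_E4.mem_QR⟩
def qe6 : QR 1 := ⟨E₆, isM1_E6.mem_QR⟩
def qD : QR 1 := ⟨discriminant, isM1_D.mem_QR⟩
def qE (r : ℕ) [NeZero r] : QR 1 := ⟨_, scale_mem_QR isM1_E4 r⟩
def qE6 (r : ℕ) [NeZero r] : QR 1 := ⟨_, scale_mem_QR isM1_E6 r⟩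
def qDr (r : ℕ) [NeZero r] : QR 1 := ⟨_, scale_mem_QR isM1_D r⟩

theorem qHom_qe : qHom 1 one_pos qe = toC pe := qExp_E4
theorem qHom_qe6 : qHom 1 one_pos qe6 = toC pe6 := qExp_E6
theorem qHom_qD : qHom 1 one_pos qD = toC pD := qExp_D
theorem qHom_qE (r : ℕ) [NeZero r] : qHom 1 one_pos (qE r) = toC (pV r pe) :=
  qExp_scale isM1_E4 r _ qExp_E4
theorem qHom_qE6 (r : ℕ) [NeZero r] : qHom 1 one_pos (qE6 r) = toC (pV r pe6) :=
  qExp_scale isM1_E6 r _ qExp_E6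
theorem qHom_qDr (r : ℕ) [NeZero r] : qHom 1 one_pos (qDr r) = toC (pV r pD) :=
  qExp_scale isM1_D r _ qExp_D

theorem disc_fun (z : ℍ) : (1728 : ℂ) * discriminant z = E₄ z ^ 3 - E₆ z ^ 2 := by
  rw [discriminant_eq_E₄_cube_sub_E₆_sq z]; ring

theorem qD_eq : 1728 * qD = qe ^ 3 - qe6 ^ 2 := by
  ext z; exact disc_fun z

theorem qDr_eq (r : ℕ) [NeZero r] : 1728 * qDr r = qE r ^ 3 - qE6 r ^ 2 := by
  ext z; exact disc_fun (aff r 1 0 z)

theorem pD_eq : 1728 * pD = pe ^ 3 - pe6 ^ 2 := by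
  apply toC_injective
  have := congrArg (qHom 1 one_pos) qD_eq
  simp only [map_mul, map_sub, map_pow, map_ofNat, qHom_qe, qHom_qe6, qHom_qD] at this ⊢
  exact this

theorem pVD_eq (r : ℕ) [NeZero r] : 1728 * pV r pD = pV r pe ^ 3 - pV r pe6 ^ 2 := by
  apply toC_injective
  have := congrArg (qHom 1 one_pos) (qDr_eq r)
  simp only [map_mul, map_sub, map_pow, map_ofNat, qHom_qE, qHom_qE6, qHom_qDr] at this ⊢
  exact this

/-- Sturm -/
theorem eq_zero_of_m6 {N : ℕ} [NeZero N] {k : ℤ} (W : QR 1) (hW : IsMN N k (W : ℍ → ℂ))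
    (F : PowerSeries ℤ) (hF : qHom 1 one_pos W = toC F) (h6 : m6 F = 0)
    (hb : (k * (Gamma0 N).index).toNat / 12 < 6) : F = 0 := by
  have h0 : (W : ℍ → ℂ) = 0 := by
    apply hW.eq_zero
    intro n hn
    have h1 : coeff n (qExpansion 1 (W : ℍ → ℂ)) = coeff n (toC F) := by rw [← hF]; rfl
    rw [h1, PowerSeries.coeff_map, coeff_eq_zero_of_m6 h6 n (by omega), map_zero]
  have h1 : W = 0 := Subtype.ext h0
  apply toC_injective
  rw [← hF, h1, map_zero, map_zero]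

theorem index_two : (Gamma0 2).index = 3 := by
  rw [Subgroup.index, Fermat.Agent.H14.card_X]
  decide +kernel

theorem index_three : (Gamma0 3).index = 4 := by
  rw [Subgroup.index, Fermat.Agent.H14.card_X]
  decide +kernel

variable (r : ℕ) [NeZero r]

theorem mn_e : IsMN r 4 (qe : ℍ → ℂ) := isMN_of_isM1 isM1_E4
theorem mn_e6 : IsMN r 6 (qe6 : ℍ → ℂ) := isMN_of_isM1 isM1_E6
theorem mn_E : IsMN r 4 (qE r : ℍ → ℂ) := isMN_scale r (Nat.pos_of_ne_zero (NeZero.ne r)) isM1_E4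
theorem mn_E6 : IsMN r 6 (qE6 r : ℍ → ℂ) :=
  isMN_scale r (Nat.pos_of_ne_zero (NeZero.ne r)) isM1_E6

theorem mn_cst {N : ℕ} {k : ℤ} {f : QR 1} (hf : IsMN N k (f : ℍ → ℂ)) (c : ℕ) [c.AtLeastTwo] :
    IsMN N k (((OfNat.ofNat c : QR 1) * f : QR 1) : ℍ → ℂ) := by
  have := isMN_smul hf (OfNat.ofNat c : ℂ)
  convert this using 1
  rfl

theorem mn_mul {N : ℕ} {k l : ℤ} {f g : QR 1} (hf : IsMN N k (f : ℍ → ℂ))
    (hg : IsMN N l (g : ℍ → ℂ)) : IsMN N (k + l) ((f * g : QR 1) : ℍ → ℂ) := isMN_mul hf hg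

theorem mn_sub {N : ℕ} {k : ℤ} {f g : QR 1} (hf : IsMN N k (f : ℍ → ℂ))
    (hg : IsMN N k (g : ℍ → ℂ)) : IsMN N k ((f - g : QR 1) : ℍ → ℂ) := isMN_sub hf hg

theorem mn_add {N : ℕ} {k : ℤ} {f g : QR 1} (hf : IsMN N k (f : ℍ → ℂ))
    (hg : IsMN N k (g : ℍ → ℂ)) : IsMN N k ((f + g : QR 1) : ℍ → ℂ) := isMN_add hf hg

theorem mn_one {N : ℕ} : IsMN N 0 ((1 : QR 1) : ℍ → ℂ) :=
  isMN_of_isM1 (isM1_coe (1 : ModularForm 𝒮ℒ 0))

theorem mn_pow {N : ℕ} {k : ℤ} {f : QR 1} (hf : IsMN N k (f : ℍ → ℂ)) (n : ℕ) :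
    IsMN N (n * k) ((f ^ n : QR 1) : ℍ → ℂ) := by
  induction n with
  | zero => simpa using mn_one
  | succ n ih =>
    rw [pow_succ]
    have := mn_mul ih hf
    convert this using 1
    push_cast; ring

theorem n1728 : (1728 : PowerSeries ℤ) ≠ 0 := by
  intro h
  have h1 := congrArg (PowerSeries.constantCoeff (R := ℤ)) h
  rw [map_ofNat, map_zero] at h1
  norm_num at h1

theorem P21 : (pe - pV 2 pe) * (16 * pV 2 pe - pe) ^ 2 = 54000 * pD := by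
  have h := eq_zero_of_m6 (N := 2) (k := 12)
    (1728 * ((qe - qE 2) * (16 * qE 2 - qe) ^ 2) - 54000 * (qe ^ 3 - qe6 ^ 2))
    (mn_sub (mn_cst (mn_mul (mn_sub (mn_e 2) (mn_E 2)) (mn_pow (mn_sub (mn_cst (mn_E 2) 16)
      (mn_e 2)) 2)) 1728) (mn_cst (mn_sub (mn_pow (mn_e 2) 3) (mn_pow (mn_e6 2) 2)) 54000))
    (1728 * ((pe - pV 2 pe) * (16 * pV 2 pe - pe) ^ 2) - 54000 * (pe ^ 3 - pe6 ^ 2))
    (by simp only [map_mul, map_sub, map_pow, map_ofNat, qHom_qe, qHom_qe6, qHom_qE])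
    m6_21 (by rw [index_two]; decide)
  rw [← pD_eq] at h
  have h2 : (1728 : PowerSeries ℤ) * ((pe - pV 2 pe) * (16 * pV 2 pe - pe) ^ 2 - 54000 * pD) = 0 := by
    linear_combination h
  exact sub_eq_zero.mp ((mul_eq_zero.mp h2).resolve_left n1728)

theorem P22 : (pe - pV 2 pe) ^ 2 * (16 * pV 2 pe - pe) = 864000 * pV 2 pD := by
  have h := eq_zero_of_m6 (N := 2) (k := 12)
    (1728 * ((qe - qE 2) ^ 2 * (16 * qE 2 - qe)) - 864000 * (qE 2 ^ 3 - qE6 2 ^ 2))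
    (mn_sub (mn_cst (mn_mul (mn_pow (mn_sub (mn_e 2) (mn_E 2)) 2) (mn_sub (mn_cst (mn_E 2) 16)
      (mn_e 2))) 1728) (mn_cst (mn_sub (mn_pow (mn_E 2) 3) (mn_pow (mn_E6 2) 2)) 864000))
    (1728 * ((pe - pV 2 pe) ^ 2 * (16 * pV 2 pe - pe)) - 864000 * (pV 2 pe ^ 3 - pV 2 pe6 ^ 2))
    (by simp only [map_mul, map_sub, map_pow, map_ofNat, qHom_qe, qHom_qe6, qHom_qE, qHom_qE6])
    m6_22 (by rw [index_two]; decide)
  rw [← pVD_eq 2] at h
  have h2 : (1728 : PowerSeries ℤ) * ((pe - pV 2 pe) ^ 2 * (16 * pV 2 pe - pe) -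
      864000 * pV 2 pD) = 0 := by
    linear_combination h
  exact sub_eq_zero.mp ((mul_eq_zero.mp h2).resolve_left n1728)

theorem P31 : (81 * pV 3 pe - pe) ^ 3 * (pe - pV 3 pe) = 12288000 * ((9 * pV 3 pe + pe) * pD) := by
  have h := eq_zero_of_m6 (N := 3) (k := 16)
    (1728 * ((81 * qE 3 - qe) ^ 3 * (qe - qE 3)) -
      12288000 * ((9 * qE 3 + qe) * (qe ^ 3 - qe6 ^ 2)))
    (mn_sub (mn_cst (mn_mul (mn_pow (mn_sub (mn_cst (mn_E 3) 81) (mn_e 3)) 3)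
      (mn_sub (mn_e 3) (mn_E 3))) 1728)
      (mn_cst (mn_mul (mn_add (mn_cst (mn_E 3) 9) (mn_e 3))
        (mn_sub (mn_pow (mn_e 3) 3) (mn_pow (mn_e6 3) 2))) 12288000))
    (1728 * ((81 * pV 3 pe - pe) ^ 3 * (pe - pV 3 pe)) -
      12288000 * ((9 * pV 3 pe + pe) * (pe ^ 3 - pe6 ^ 2)))
    (by simp only [map_mul, map_sub, map_add, map_pow, map_ofNat, qHom_qe, qHom_qe6, qHom_qE])
    m6_31 (by rw [index_three]; decide)
  rw [← pD_eq] at h
  have h2 : (1728 : PowerSeries ℤ) * ((81 * pV 3 pe - pe) ^ 3 * (pe - pV 3 pe) -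
      12288000 * ((9 * pV 3 pe + pe) * pD)) = 0 := by
    linear_combination h
  exact sub_eq_zero.mp ((mul_eq_zero.mp h2).resolve_left n1728)

theorem P32 : (pe - pV 3 pe) ^ 3 * (81 * pV 3 pe - pe) =
    110592000 * ((9 * pV 3 pe + pe) * pV 3 pD) := by
  have h := eq_zero_of_m6 (N := 3) (k := 16)
    (1728 * ((qe - qE 3) ^ 3 * (81 * qE 3 - qe)) -
      110592000 * ((9 * qE 3 + qe) * (qE 3 ^ 3 - qE6 3 ^ 2)))
    (mn_sub (mn_cst (mn_mul (mn_pow (mn_sub (mn_e 3) (mn_E 3)) 3)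
      (mn_sub (mn_cst (mn_E 3) 81) (mn_e 3))) 1728)
      (mn_cst (mn_mul (mn_add (mn_cst (mn_E 3) 9) (mn_e 3))
        (mn_sub (mn_pow (mn_E 3) 3) (mn_pow (mn_E6 3) 2))) 110592000))
    (1728 * ((pe - pV 3 pe) ^ 3 * (81 * pV 3 pe - pe)) -
      110592000 * ((9 * pV 3 pe + pe) * (pV 3 pe ^ 3 - pV 3 pe6 ^ 2)))
    (by simp only [map_mul, map_sub, map_add, map_pow, map_ofNat, qHom_qe, qHom_qe6, qHom_qE,
      qHom_qE6])
    m6_32 (by rw [index_three]; decide)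
  rw [← pVD_eq 3] at h
  have h2 : (1728 : PowerSeries ℤ) * ((pe - pV 3 pe) ^ 3 * (81 * pV 3 pe - pe) -
      110592000 * ((9 * pV 3 pe + pe) * pV 3 pD)) = 0 := by
    linear_combination h
  exact sub_eq_zero.mp ((mul_eq_zero.mp h2).resolve_left n1728)

end

end Fermat.Agent.H29
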