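import Mathlib
import Fermat.Agent.Igusa.Degree3
import Fermat.Agent.H29.Haupt2

set_option autoImplicit false
set_option linter.all false

/-! The hauptmoduls of levels 2 and 3 as Laurent series over `ℤ`. -/

namespace Fermat.Agent.H29

open PowerSeries ModularCurve
open Fermat.Agent.Igusa

noncomputable section

/-- `∑ σ₃(n) qⁿ` -/
def pS : PowerSeries ℤ := PowerSeries.mk fun n => ∑ d ∈ n.divisors, (d : ℤ) ^ 3

theorem pe_eq : pe = 1 + 240 * pS := by
  ext n
  have h240 : (240 : PowerSeries ℤ) = C 240 := by simp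
  rw [pe, eisenstein4, PowerSeries.coeff_mk, map_add, h240, PowerSeries.coeff_C_mul, pS,
    PowerSeries.coeff_mk, PowerSeries.coeff_one]
  split_ifs with h
  · subst h; simp
  · ring

theorem pVe_eq (r : ℕ) : pV r pe = 1 + 240 * pV r pS := by
  ext n
  have h240 : (240 : PowerSeries ℤ) = C 240 := by simp
  rw [map_add, h240, PowerSeries.coeff_C_mul, PowerSeries.coeff_one, pV, pV,
    PowerSeries.coeff_mk, PowerSeries.coeff_mk]
  by_cases hn : n = 0
  · subst hn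
    simp [pe_eq, pS]
  · rw [if_neg hn]
    by_cases hr : r ∣ n
    · rw [if_pos hr, if_pos hr, pe_eq, map_add, h240, PowerSeries.coeff_C_mul,
        PowerSeries.coeff_one, if_neg]
      intro h0
      apply hn
      obtain ⟨m, rfl⟩ := hr
      rcases Nat.eq_zero_or_pos r with h1 | h1
      · simp [h1]
      · rw [Nat.mul_div_cancel_left _ h1] at h0
        simp [h0]
    · rw [if_neg hr, if_neg hr]; simp

/-- denominators -/
def pT (r : ℕ) : PowerSeries ℤ := pS - pV r pS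

def pU2 : PowerSeries ℤ := 1 + 256 * pV 2 pS - 16 * pS
def pU3 : PowerSeries ℤ := 1 + 243 * pV 3 pS - 3 * pS

theorem nat_ne (n : ℕ) (hn : n ≠ 0) : ((n : ℤ) : PowerSeries ℤ) ≠ 0 := by
  intro h
  have h1 := congrArg (PowerSeries.constantCoeff (R := ℤ)) h
  rw [map_intCast, map_zero] at h1
  norm_num at h1
  exact hn h1

theorem t2_1 : pT 2 * pU2 ^ 2 = pD := by
  have h := P21
  rw [pVe_eq, pe_eq] at h
  have h1 : (((54000 : ℕ) : ℤ) : PowerSeries ℤ) * (pT 2 * pU2 ^ 2 - pD) = 0 := by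
    rw [pT, pU2]; push_cast; linear_combination h
  exact sub_eq_zero.mp ((mul_eq_zero.mp h1).resolve_left (nat_ne _ (by norm_num)))

theorem t2_2 : pT 2 ^ 2 * pU2 = pV 2 pD := by
  have h := P22
  rw [pVe_eq, pe_eq] at h
  have h1 : (((864000 : ℕ) : ℤ) : PowerSeries ℤ) * (pT 2 ^ 2 * pU2 - pV 2 pD) = 0 := by
    rw [pT, pU2]; push_cast; linear_combination h
  exact sub_eq_zero.mp ((mul_eq_zero.mp h1).resolve_left (nat_ne _ (by norm_num)))

theorem t3_1 : pU3 ^ 3 * pT 3 = (27 * pT 3 + pU3) * pD := by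
  have h := P31
  rw [pVe_eq, pe_eq] at h
  have h1 : (((122880000 : ℕ) : ℤ) : PowerSeries ℤ) *
      (pU3 ^ 3 * pT 3 - (27 * pT 3 + pU3) * pD) = 0 := by
    rw [pT, pU3]; push_cast; linear_combination h
  exact sub_eq_zero.mp ((mul_eq_zero.mp h1).resolve_left (nat_ne _ (by norm_num)))

theorem t3_2 : pT 3 ^ 3 * pU3 = (27 * pT 3 + pU3) * pV 3 pD := by
  have h := P32
  rw [pVe_eq, pe_eq] at h
  have h1 : (((1105920000 : ℕ) : ℤ) : PowerSeries ℤ) *
      (pT 3 ^ 3 * pU3 - (27 * pT 3 + pU3) * pV 3 pD) = 0 := by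
    rw [pT, pU3]; push_cast; linear_combination h
  exact sub_eq_zero.mp ((mul_eq_zero.mp h1).resolve_left (nat_ne _ (by norm_num)))

theorem pe_2 : pe = 256 * pT 2 + pU2 := by rw [pe_eq, pT, pU2]; ring
theorem pVe_2 : pV 2 pe = 16 * pT 2 + pU2 := by rw [pVe_eq, pT, pU2]; ring
theorem pe_3 : pe = 243 * pT 3 + pU3 := by rw [pe_eq, pT, pU3]; ring
theorem pVe_3 : pV 3 pe = 3 * pT 3 + pU3 := by rw [pVe_eq, pT, pU3]; ring

/-! ### Laurent series -/

/-- power series as Laurent series -/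
abbrev oo : PowerSeries ℤ →+* LaurentSeries ℤ := HahnSeries.ofPowerSeries ℤ ℤ

theorem oo_injective : Function.Injective oo := HahnSeries.ofPowerSeries_injective

theorem qExpand_oo (r : ℕ) [NeZero r] (F : PowerSeries ℤ) : qExpand ℤ r (oo F) = oo (pV r F) := by
  ext k
  rcases le_or_gt 0 k with hk | hk
  · lift k to ℕ using hk
    rw [HahnSeries.ofPowerSeries_apply_coeff, pV, PowerSeries.coeff_mk]
    split_ifs with h
    · obtain ⟨m, rfl⟩ := h
      rw [Nat.mul_div_cancel_left _ (Nat.pos_of_ne_zero (NeZero.ne r)), Nat.cast_mul,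
        qExpand_coeff_mul, HahnSeries.ofPowerSeries_apply_coeff]
    · rw [qExpand_coeff_of_not_dvd]
      exact_mod_cast h
  · rw [ofPowerSeries_coeff_of_neg _ hk]
    by_cases h : (r : ℤ) ∣ k
    · obtain ⟨m, rfl⟩ := h
      rw [qExpand_coeff_mul, ofPowerSeries_coeff_of_neg]
      have : (0 : ℤ) < r := by exact_mod_cast Nat.pos_of_ne_zero (NeZero.ne r)
      by_contra hm
      push Not at hm
      exact absurd hk (not_lt.mpr (mul_nonneg this.le hm))
    · exact qExpand_coeff_of_not_dvd _ _ h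

theorem map_cast_id (F : PowerSeries ℤ) : F.map (Int.castRingHom ℤ) = F := by
  ext n; simp

theorem oo_X : oo X = HahnSeries.single 1 1 := by
  rw [oo, HahnSeries.ofPowerSeries_X]

theorem dS_eq : dS ℤ = oo pD := by
  rw [dS, pD, map_mul, map_cast_id, oo_X]

theorem j_mul_dS : jqModC ℤ * dS ℤ = oo pe ^ 3 := by
  have h1 : (HahnSeries.single (-1 : ℤ) (1 : ℤ)) * HahnSeries.single 1 1 = 1 := by
    rw [HahnSeries.single_mul_single]; simp
  rw [jqModC, dS, mul_mul_mul_comm, h1, one_mul, map_cast_id, map_cast_id, ← map_mul, jNum,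
    mul_assoc, mul_comm dedekindEtaUnitInv, dedekindEtaUnit_mul_inv, mul_one, ← map_pow]
  rfl

/-- the shifted denominator -/
def pG (r : ℕ) : PowerSeries ℤ := PowerSeries.mk fun n => coeff (n + 1) (pT r)

theorem coeff_zero_pT (r : ℕ) : coeff 0 (pT r) = 0 := by
  rw [pT, map_sub, pV, PowerSeries.coeff_mk, if_pos (dvd_zero _), Nat.zero_div, sub_self]

theorem coeff_one_pT (r : ℕ) (hr : 1 < r) : coeff 1 (pT r) = 1 := by
  rw [pT, map_sub, pV, PowerSeries.coeff_mk, if_neg, pS, PowerSeries.coeff_mk]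
  · simp
  · intro h
    have := Nat.dvd_one.mp h
    omega

theorem pT_eq (r : ℕ) : pT r = X * pG r := by
  ext n
  rcases n with _ | n
  · rw [coeff_zero_pT]; simp
  · rw [PowerSeries.coeff_succ_X_mul, pG, PowerSeries.coeff_mk]

theorem constantCoeff_pG (r : ℕ) (hr : 1 < r) : constantCoeff (pG r) = 1 := by
  rw [← PowerSeries.coeff_zero_eq_constantCoeff_apply, pG, PowerSeries.coeff_mk, zero_add,
    coeff_one_pT r hr]

/-- inverse of `pG` -/
def pGi (r : ℕ) : PowerSeries ℤ := (pG r).invOfUnit 1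

theorem pG_mul_pGi (r : ℕ) (hr : 1 < r) : pG r * pGi r = 1 :=
  PowerSeries.mul_invOfUnit _ _ (by rw [constantCoeff_pG r hr]; rfl)

theorem constantCoeff_pGi (r : ℕ) (hr : 1 < r) : constantCoeff (pGi r) = 1 := by
  have h := congrArg (constantCoeff (R := ℤ)) (pG_mul_pGi r hr)
  rwa [map_mul, constantCoeff_pG r hr, one_mul, map_one] at h

/-- the hauptmodul `U / T` -/
def hF (r : ℕ) (U : PowerSeries ℤ) : LaurentSeries ℤ :=
  HahnSeries.single (-1) 1 * oo (U * pGi r)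

theorem hF_mul (r : ℕ) (hr : 1 < r) (U : PowerSeries ℤ) : hF r U * oo (pT r) = oo U := by
  have h1 : (HahnSeries.single (-1 : ℤ) (1 : ℤ)) * HahnSeries.single 1 1 = 1 := by
    rw [HahnSeries.single_mul_single]; simp
  rw [hF, pT_eq, map_mul oo X, oo_X, mul_mul_mul_comm, h1, one_mul, ← map_mul, mul_assoc,
    mul_comm (pGi r), pG_mul_pGi r hr, mul_one]

theorem hF_coeff (r : ℕ) (U : PowerSeries ℤ) (k : ℤ) :
    (hF r U).coeff k = (oo (U * pGi r)).coeff (k + 1) := by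
  rw [hF, HahnSeries.coeff_single_mul, one_mul]
  congr 1

theorem hF_coeff_neg_one (r : ℕ) (hr : 1 < r) (U : PowerSeries ℤ) (hU : constantCoeff U = 1) :
    (hF r U).coeff (-1) = 1 := by
  rw [hF_coeff, show (-1 : ℤ) + 1 = ((0 : ℕ) : ℤ) from rfl, HahnSeries.ofPowerSeries_apply_coeff,
    PowerSeries.coeff_zero_eq_constantCoeff_apply, map_mul, hU, constantCoeff_pGi r hr, one_mul]

theorem hF_coeff_of_lt (r : ℕ) (U : PowerSeries ℤ) (k : ℤ) (hk : k < -1) :
    (hF r U).coeff k = 0 := by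
  rw [hF_coeff, ofPowerSeries_coeff_of_neg]
  omega

/-- the hauptmodul of level 2 -/
def f2 : LaurentSeries ℤ := hF 2 pU2

/-- the hauptmodul of level 3 -/
def f3 : LaurentSeries ℤ := hF 3 pU3

theorem constantCoeff_pS : constantCoeff pS = 0 := by
  rw [← PowerSeries.coeff_zero_eq_constantCoeff_apply, pS, PowerSeries.coeff_mk]; simp

theorem constantCoeff_pVS (r : ℕ) : constantCoeff (pV r pS) = 0 := by
  rw [← PowerSeries.coeff_zero_eq_constantCoeff_apply, pV, PowerSeries.coeff_mk]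
  simp [constantCoeff_pS]

theorem constantCoeff_pU2 : constantCoeff pU2 = 1 := by
  rw [pU2, map_sub, map_add, map_mul, map_mul, constantCoeff_pS, constantCoeff_pVS]; simp

theorem constantCoeff_pU3 : constantCoeff pU3 = 1 := by
  rw [pU3, map_sub, map_add, map_mul, map_mul, constantCoeff_pS, constantCoeff_pVS]; simp

theorem oo_ne_zero {F : PowerSeries ℤ} (hF : F ≠ 0) : oo F ≠ 0 := by
  rw [ne_eq, map_eq_zero_iff _ oo_injective]; exact hF

theorem pT_ne_zero (r : ℕ) (hr : 1 < r) : pT r ≠ 0 := by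
  intro h
  have := coeff_one_pT r hr
  rw [h] at this
  simp at this

theorem dS_ne : dS ℤ ≠ 0 := dS_ne_zero

theorem qdS_ne (r : ℕ) [NeZero r] : qExpand ℤ r (dS ℤ) ≠ 0 := by
  rw [ne_eq, map_eq_zero_iff _ (qExpand_injective r)]; exact dS_ne

theorem f2_j : jqModC ℤ * f2 ^ 2 = (f2 + 256) ^ 3 := by
  have hT := oo_ne_zero (pT_ne_zero 2 (by norm_num))
  have h1 : f2 * oo (pT 2) = oo pU2 := hF_mul 2 (by norm_num) _
  have h2 : dS ℤ = oo (pT 2) * oo pU2 ^ 2 := by rw [dS_eq, ← t2_1, map_mul, map_pow]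
  have h3 : oo pe = 256 * oo (pT 2) + oo pU2 := by rw [pe_2, map_add, map_mul, map_ofNat]
  have h4 := j_mul_dS
  rw [h3, h2, ← h1] at h4
  have h5 : oo (pT 2) ^ 3 * (jqModC ℤ * f2 ^ 2) = oo (pT 2) ^ 3 * (f2 + 256) ^ 3 := by
    linear_combination h4
  exact mul_left_cancel₀ (pow_ne_zero 3 hT) h5

theorem f2_jr : qExpand ℤ 2 (jqModC ℤ) * f2 = (f2 + 16) ^ 3 := by
  have hT := oo_ne_zero (pT_ne_zero 2 (by norm_num))
  have h1 : f2 * oo (pT 2) = oo pU2 := hF_mul 2 (by norm_num) _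
  have h2 : qExpand ℤ 2 (dS ℤ) = oo (pT 2) ^ 2 * oo pU2 := by
    rw [dS_eq, qExpand_oo, ← t2_2, map_mul, map_pow]
  have h3 : qExpand ℤ 2 (oo pe) = 16 * oo (pT 2) + oo pU2 := by
    rw [qExpand_oo, pVe_2, map_add, map_mul, map_ofNat]
  have h4 := congrArg (qExpand ℤ 2) j_mul_dS
  rw [map_mul, map_pow, h3, h2, ← h1] at h4
  have h5 : oo (pT 2) ^ 3 * (qExpand ℤ 2 (jqModC ℤ) * f2) = oo (pT 2) ^ 3 * (f2 + 16) ^ 3 := by
    linear_combination h4
  exact mul_left_cancel₀ (pow_ne_zero 3 hT) h5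

theorem f3_j : jqModC ℤ * f3 ^ 3 = (f3 + 27) * (f3 + 243) ^ 3 := by
  have hT := oo_ne_zero (pT_ne_zero 3 (by norm_num))
  have h1 : f3 * oo (pT 3) = oo pU3 := hF_mul 3 (by norm_num) _
  have h2 : oo pU3 ^ 3 * oo (pT 3) = (27 * oo (pT 3) + oo pU3) * dS ℤ := by
    rw [dS_eq]
    have := congrArg oo t3_1
    simpa only [map_mul, map_pow, map_add, map_ofNat] using this
  have h3 : oo pe = 243 * oo (pT 3) + oo pU3 := by rw [pe_3, map_add, map_mul, map_ofNat]
  have h4 := j_mul_dS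
  rw [h3] at h4
  rw [← h1] at h4 h2
  have h5 : oo (pT 3) ^ 4 * (jqModC ℤ * f3 ^ 3) =
      oo (pT 3) ^ 4 * ((f3 + 27) * (f3 + 243) ^ 3) := by
    linear_combination (27 * oo (pT 3) + f3 * oo (pT 3)) * h4 + jqModC ℤ * h2
  exact mul_left_cancel₀ (pow_ne_zero 4 hT) h5

theorem f3_jr : qExpand ℤ 3 (jqModC ℤ) * f3 = (f3 + 27) * (f3 + 3) ^ 3 := by
  have hT := oo_ne_zero (pT_ne_zero 3 (by norm_num))
  have h1 : f3 * oo (pT 3) = oo pU3 := hF_mul 3 (by norm_num) _
  have h2 : oo (pT 3) ^ 3 * oo pU3 = (27 * oo (pT 3) + oo pU3) * qExpand ℤ 3 (dS ℤ) := by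
    rw [dS_eq, qExpand_oo]
    have := congrArg oo t3_2
    simpa only [map_mul, map_pow, map_add, map_ofNat] using this
  have h3 : qExpand ℤ 3 (oo pe) = 3 * oo (pT 3) + oo pU3 := by
    rw [qExpand_oo, pVe_3, map_add, map_mul, map_ofNat]
  have h4 := congrArg (qExpand ℤ 3) j_mul_dS
  rw [map_mul, map_pow, h3] at h4
  rw [← h1] at h4 h2
  have h5 : oo (pT 3) ^ 4 * (qExpand ℤ 3 (jqModC ℤ) * f3) =
      oo (pT 3) ^ 4 * ((f3 + 27) * (f3 + 3) ^ 3) := by
    linear_combination (27 * oo (pT 3) + f3 * oo (pT 3)) * h4 + qExpand ℤ 3 (jqModC ℤ) * h2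
  exact mul_left_cancel₀ (pow_ne_zero 4 hT) h5

end

end Fermat.Agent.H29
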