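import Mathlib
import Fermat.Agent.Igusa.Basis
import Fermat.Agent.H29.Haupt3

set_option autoImplicit false
set_option linter.all false

/-! The fields generated by the hauptmoduls. -/

namespace Fermat.Agent.H29

open Polynomial IntermediateField ModularCurve
open Fermat.Agent.Igusa

noncomputable section

/-- Laurent series with leading coefficient `1` are units. -/
theorem isUnit_laurent (y : LaurentSeries ℤ) (n : ℤ) (hn : y.coeff n = 1)
    (h : ∀ m < n, y.coeff m = 0) : IsUnit y := by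
  let P : PowerSeries ℤ := PowerSeries.mk fun i => y.coeff (n + i)
  have h1 : y = HahnSeries.single n 1 * oo P := by
    ext m
    rw [HahnSeries.coeff_single_mul, one_mul]
    rcases le_or_gt 0 (m - n) with hm | hm
    · obtain ⟨i, hi⟩ := Int.eq_ofNat_of_zero_le hm
      rw [hi, HahnSeries.ofPowerSeries_apply_coeff, PowerSeries.coeff_mk]
      congr 1; omega
    · rw [ofPowerSeries_coeff_of_neg _ hm, h m (by omega)]
  have hP : IsUnit P := by
    rw [PowerSeries.isUnit_iff_constantCoeff, ← PowerSeries.coeff_zero_eq_constantCoeff_apply,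
      PowerSeries.coeff_mk]
    simp [hn]
  have h2 : IsUnit (HahnSeries.single n (1 : ℤ)) := by
    refine IsUnit.of_mul_eq_one (HahnSeries.single (-n) 1) ?_
    rw [HahnSeries.single_mul_single]; simp
  rw [h1]
  exact h2.mul (hP.map oo)

theorem f2_coeff_neg_one : f2.coeff (-1) = 1 := hF_coeff_neg_one 2 (by norm_num) _ constantCoeff_pU2
theorem f3_coeff_neg_one : f3.coeff (-1) = 1 := hF_coeff_neg_one 3 (by norm_num) _ constantCoeff_pU3
theorem f2_coeff_of_lt {k : ℤ} (hk : k < -1) : f2.coeff k = 0 := hF_coeff_of_lt 2 _ k hk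
theorem f3_coeff_of_lt {k : ℤ} (hk : k < -1) : f3.coeff k = 0 := hF_coeff_of_lt 3 _ k hk

theorem natCast_coeff (R : Type*) [CommRing R] (c : ℕ) (k : ℤ) (hk : k ≠ 0) :
    ((c : LaurentSeries R)).coeff k = 0 := by
  have : (c : LaurentSeries R) = HahnSeries.single 0 (c : R) := by
    rw [← map_natCast (HahnSeries.C (Γ := ℤ) (R := R)) c]; rfl
  rw [this, HahnSeries.coeff_single_of_ne hk]

theorem isUnit_f2_add (c : ℕ) : IsUnit (f2 + (c : LaurentSeries ℤ)) := by
  refine isUnit_laurent _ (-1) ?_ fun m hm => ?_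
  · rw [HahnSeries.coeff_add, f2_coeff_neg_one, natCast_coeff _ _ _ (by norm_num), add_zero]
  · rw [HahnSeries.coeff_add, f2_coeff_of_lt hm, natCast_coeff _ _ _ (by omega), add_zero]

theorem isUnit_f3_add (c : ℕ) : IsUnit (f3 + (c : LaurentSeries ℤ)) := by
  refine isUnit_laurent _ (-1) ?_ fun m hm => ?_
  · rw [HahnSeries.coeff_add, f3_coeff_neg_one, natCast_coeff _ _ _ (by norm_num), add_zero]
  · rw [HahnSeries.coeff_add, f3_coeff_of_lt hm, natCast_coeff _ _ _ (by omega), add_zero]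

theorem isUnit_j : IsUnit (jqModC ℤ) :=
  isUnit_laurent _ (-1) (coeff_jqModC_neg_one ℤ) fun m hm => coeff_jqModC_of_lt ℤ hm

/-- `1 / (f2 + 256)` -/
def u2 : LaurentSeries ℤ := ((isUnit_f2_add 256).unit⁻¹ : (LaurentSeries ℤ)ˣ)
/-- `1 / (f3 + 27)` -/
def u3 : LaurentSeries ℤ := ((isUnit_f3_add 27).unit⁻¹ : (LaurentSeries ℤ)ˣ)
/-- `1 / f2` -/
def g2 : LaurentSeries ℤ := ((isUnit_f2_add 0).unit⁻¹ : (LaurentSeries ℤ)ˣ)
/-- `1 / f3` -/
def g3 : LaurentSeries ℤ := ((isUnit_f3_add 0).unit⁻¹ : (LaurentSeries ℤ)ˣ)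
/-- `1 / j` -/
def jinv : LaurentSeries ℤ := (isUnit_j.unit⁻¹ : (LaurentSeries ℤ)ˣ)

theorem u2_mul : u2 * (f2 + 256) = 1 := (isUnit_f2_add 256).val_inv_mul
theorem u3_mul : u3 * (f3 + 27) = 1 := (isUnit_f3_add 27).val_inv_mul
theorem g2_mul : g2 * f2 = 1 := by
  have h : f2 = f2 + ((0 : ℕ) : LaurentSeries ℤ) := by simp
  exact (congrArg (g2 * ·) h).trans (isUnit_f2_add 0).val_inv_mul
theorem g3_mul : g3 * f3 = 1 := by
  have h : f3 = f3 + ((0 : ℕ) : LaurentSeries ℤ) := by simp
  exact (congrArg (g3 * ·) h).trans (isUnit_f3_add 0).val_inv_mul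
/-- `1 / (f3 + 243)` -/
def w3 : LaurentSeries ℤ := ((isUnit_f3_add 243).unit⁻¹ : (LaurentSeries ℤ)ˣ)
theorem w3_mul : w3 * (f3 + 243) = 1 := (isUnit_f3_add 243).val_inv_mul
theorem jinv_mul : jinv * jqModC ℤ = 1 := isUnit_j.val_inv_mul

/-! ### identities, level 2 -/

/-- `j = g² (f + 256)³` -/
theorem j_eq_2 : jqModC ℤ = g2 ^ 2 * (f2 + 256) ^ 3 := by
  linear_combination g2 ^ 2 * f2_j - (g2 * f2 + 1) * jqModC ℤ * g2_mul

theorem jg_2 : (1 + 256 * g2) ^ 3 = jqModC ℤ * g2 := by
  have h : 1 + 256 * g2 = g2 * (f2 + 256) := by linear_combination -g2_mul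
  rw [h]
  linear_combination -g2 ^ 3 * f2_j + (g2 * f2 + 1) * jqModC ℤ * g2 * g2_mul

theorem jinv_eq_u2 : jinv = u2 * (1 - 256 * u2) ^ 2 := by
  have h5 : f2 ^ 2 = jinv * (f2 + 256) ^ 3 := by linear_combination jinv * f2_j - f2 ^ 2 * jinv_mul
  have h4 : 1 - 256 * u2 = u2 * f2 := by linear_combination -u2_mul
  have h6 : jinv = jinv * (u2 * (f2 + 256)) ^ 3 := by rw [u2_mul]; ring
  calc jinv = jinv * (u2 * (f2 + 256)) ^ 3 := h6
    _ = u2 ^ 3 * (jinv * (f2 + 256) ^ 3) := by ring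
    _ = u2 ^ 3 * f2 ^ 2 := by rw [← h5]
    _ = _ := by rw [h4]; ring

/-! ### identities, level 3 -/

theorem j_eq_3 : jqModC ℤ = g3 ^ 3 * ((f3 + 27) * (f3 + 243) ^ 3) := by
  linear_combination g3 ^ 3 * f3_j - (g3 ^ 2 * f3 ^ 2 + g3 * f3 + 1) * jqModC ℤ * g3_mul

theorem jg_3 : (1 + 27 * g3) * (1 + 243 * g3) ^ 3 = jqModC ℤ * g3 := by
  have h : 1 + 27 * g3 = g3 * (f3 + 27) := by linear_combination -g3_mul
  have h' : 1 + 243 * g3 = g3 * (f3 + 243) := by linear_combination -g3_mul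
  rw [h, h']
  linear_combination -g3 ^ 4 * f3_j + (g3 ^ 2 * f3 ^ 2 + g3 * f3 + 1) * jqModC ℤ * g3 * g3_mul

theorem f3_jinv : f3 ^ 3 = jinv * ((f3 + 27) * (f3 + 243) ^ 3) := by
  linear_combination jinv * f3_j - f3 ^ 3 * jinv_mul

theorem jinv_u3 : jinv * (1 + 216 * u3) ^ 3 = u3 * (1 - 27 * u3) ^ 3 := by
  have h1 : 1 - 27 * u3 = u3 * f3 := by linear_combination -u3_mul
  have h2 : 1 + 216 * u3 = u3 * (f3 + 243) := by linear_combination -u3_mul
  rw [h1, h2]
  calc jinv * (u3 * (f3 + 243)) ^ 3 = u3 ^ 3 * (jinv * ((u3 * (f3 + 27)) * (f3 + 243) ^ 3)) := by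
        rw [u3_mul]; ring
    _ = u3 ^ 4 * (jinv * ((f3 + 27) * (f3 + 243) ^ 3)) := by ring
    _ = u3 ^ 4 * f3 ^ 3 := by rw [← f3_jinv]
    _ = _ := by ring

theorem jinv_w3 : jinv * (1 - 216 * w3) = w3 * (1 - 243 * w3) ^ 3 := by
  have h1 : 1 - 243 * w3 = w3 * f3 := by linear_combination -w3_mul
  have h2 : 1 - 216 * w3 = w3 * (f3 + 27) := by linear_combination -w3_mul
  rw [h1, h2]
  calc jinv * (w3 * (f3 + 27)) = w3 * (jinv * ((f3 + 27) * (w3 * (f3 + 243)) ^ 3)) := by
        rw [w3_mul]; ring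
    _ = w3 ^ 4 * (jinv * ((f3 + 27) * (f3 + 243) ^ 3)) := by ring
    _ = w3 ^ 4 * f3 ^ 3 := by rw [← f3_jinv]
    _ = _ := by ring

theorem s3_mul : (1 + 216 * u3) * (1 - 216 * w3) = 1 := by
  have h2 : 1 + 216 * u3 = u3 * (f3 + 243) := by linear_combination -u3_mul
  have h3 : 1 - 216 * w3 = w3 * (f3 + 27) := by linear_combination -w3_mul
  rw [h2, h3]
  linear_combination (w3 * (f3 + 243)) * u3_mul + w3_mul

/-! ### fields -/

section Field

variable (k : Type*) [Field k]

theorem cc_j : cc k (jqModC ℤ) = jqModC k := coeffMap_jqModC _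

theorem cc_jr (r : ℕ) [NeZero r] : cc k (qExpand ℤ r (jqModC ℤ)) = qExpand k r (jqModC k) := by
  rw [cc, coeffMap_qExpand, coeffMap_jqModC]

theorem F2_j : jqModC k * cc k f2 ^ 2 = (cc k f2 + 256) ^ 3 := by
  have := congrArg (cc k) f2_j
  rwa [map_mul, map_pow, map_pow, map_add, map_ofNat, cc_j] at this

theorem F2_jr : qExpand k 2 (jqModC k) * cc k f2 = (cc k f2 + 16) ^ 3 := by
  have := congrArg (cc k) f2_jr
  rwa [map_mul, map_pow, map_add, map_ofNat, cc_jr] at this

theorem F3_j : jqModC k * cc k f3 ^ 3 = (cc k f3 + 27) * (cc k f3 + 243) ^ 3 := by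
  have := congrArg (cc k) f3_j
  rwa [map_mul, map_mul, map_pow, map_pow, map_add, map_add, map_ofNat, map_ofNat, cc_j] at this

theorem F3_jr : qExpand k 3 (jqModC k) * cc k f3 = (cc k f3 + 27) * (cc k f3 + 3) ^ 3 := by
  have := congrArg (cc k) f3_jr
  rwa [map_mul, map_mul, map_pow, map_add, map_add, map_ofNat, map_ofNat, cc_jr] at this

theorem ne_zero_of_coeff {y : LaurentSeries ℤ} (n : ℤ) (h : y.coeff n = 1) : cc k y ≠ 0 := by
  intro h0
  have : (cc k y).coeff n = 1 := by
    rw [cc, coeffMap_coeff, h, map_one]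
  rw [h0] at this
  simp at this

theorem F2_ne : cc k f2 ≠ 0 := ne_zero_of_coeff k _ f2_coeff_neg_one
theorem F3_ne : cc k f3 ≠ 0 := ne_zero_of_coeff k _ f3_coeff_neg_one

variable {k}

theorem ofNat_mem (E : IntermediateField k (LaurentSeries k)) (n : ℕ) [n.AtLeastTwo] :
    (OfNat.ofNat n : LaurentSeries k) ∈ E := by
  rw [← Nat.cast_ofNat]; exact _root_.natCast_mem E n

theorem full_le_of (N : ℕ) (hN : N.Prime) [NeZero N] (E : IntermediateField k (LaurentSeries k))
    (h1 : jqModC k ∈ E) (h2 : qExpand k N (jqModC k) ∈ E) : modularFunctionFieldFullC k N ≤ E := by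
  rw [modularFunctionFieldFullC, IntermediateField.adjoin_le_iff]
  rintro x ⟨d, hne, hd, rfl⟩
  rcases (Nat.dvd_prime hN).mp hd with rfl | rfl
  · rw [qExpand_one_apply]; exact h1
  · exact h2

theorem full_eq_of (N : ℕ) (hN : N.Prime) [NeZero N] (hk : (N : k) ≠ 0) (x : LaurentSeries k)
    (h1 : jqModC k ∈ IntermediateField.adjoin k {x})
    (h2 : qExpand k N (jqModC k) ∈ IntermediateField.adjoin k {x})
    (P : (modularFunctionFieldFullC k 1)[X]) (hP : P.Monic) (hd : P.natDegree = N + 1)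
    (hx : aeval x P = 0) :
    modularFunctionFieldFullC k N = IntermediateField.adjoin k {x} := by
  set E := IntermediateField.adjoin k {x} with hE
  have hle : modularFunctionFieldFullC k N ≤ E := full_le_of N hN E h1 h2
  refine le_antisymm hle ?_
  have hE1E : modularFunctionFieldFullC k 1 ≤ E := by
    rw [full_one_eq, IntermediateField.adjoin_le_iff]
    rintro y rfl; exact h1
  have hadj : adj (modularFunctionFieldFullC k 1) x = E := by
    apply le_antisymm
    · exact adj_le hE1E (IntermediateField.mem_adjoin_simple_self k x)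
    · rw [hE, IntermediateField.adjoin_le_iff]
      rintro y rfl; exact mem_adj (modularFunctionFieldFullC k 1) _
  have hint : IsIntegral (modularFunctionFieldFullC k 1) x := ⟨P, hP, by rwa [← Polynomial.aeval_def]⟩
  have h3 : (modularFunctionFieldFullC k 1).relrank E ≤ ((N + 1 : ℕ) : Cardinal) := by
    rw [← hadj, relrank_adj (modularFunctionFieldFullC k 1) hint, ← hd]
    exact_mod_cast Polynomial.natDegree_le_of_dvd (minpoly.dvd _ _ hx) hP.ne_zero
  have h4 := IntermediateField.relrank_mul_relrank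
    (full_degeneracyC_le k (one_dvd N) : modularFunctionFieldFullC k 1 ≤ modularFunctionFieldFullC k N) hle
  have h5 : (modularFunctionFieldFullC k 1).relrank (modularFunctionFieldFullC k N) = ((N + 1 : ℕ) : Cardinal) := by
    rw [relrank_full N hk]
    congr 1
    have := dedekindPsi_mul_prime hN (one_ne_zero (α := ℕ))
    rw [one_mul, if_neg (by
      intro h; exact hN.one_lt.ne' (Nat.dvd_one.mp h))] at this
    rw [this, dedekindPsi_one, one_mul]
  rw [h5] at h4
  have hfin : (modularFunctionFieldFullC k 1).relrank E < Cardinal.aleph0 := h3.trans_lt Cardinal.natCast_lt_aleph0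
  have h6 : (modularFunctionFieldFullC k N).relrank E = 1 := by
    have h7 : (modularFunctionFieldFullC k N).relrank E < Cardinal.aleph0 := by
      by_contra hcon
      push Not at hcon
      have h8 : (modularFunctionFieldFullC k N).relrank E ≤
          ((N + 1 : ℕ) : Cardinal) * (modularFunctionFieldFullC k N).relrank E :=
        le_mul_of_one_le_left zero_le (by exact_mod_cast Nat.succ_pos N)
      rw [h4] at h8
      exact absurd (hcon.trans h8) (not_le.mpr hfin)
    obtain ⟨m, hm⟩ := Cardinal.lt_aleph0.mp h7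
    rw [hm] at h4 ⊢
    have h9 : (N + 1) * m ≤ N + 1 := by
      rw [← h4] at h3
      exact_mod_cast h3
    have h10 : m ≤ 1 := by
      by_contra hcon
      push Not at hcon
      nlinarith
    have h11 : m ≠ 0 := by
      rintro rfl
      have h12 : (modularFunctionFieldFullC k N).relrank E ≠ 0 := by
        rw [IntermediateField.relrank_eq_rank_of_le hle]
        exact rank_pos.ne'
      exact h12 (by rw [hm]; simp)
    have : m = 1 := by omega
    rw [this]; simp
  exact IntermediateField.relrank_eq_one_iff.mp h6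

theorem full_two_eq (hk : (2 : k) ≠ 0) :
    modularFunctionFieldFullC k 2 = IntermediateField.adjoin k {cc k f2} := by
  have hf := IntermediateField.mem_adjoin_simple_self k (cc k f2)
  set E := IntermediateField.adjoin k {cc k f2} with hE
  have hj1 : jqModC k ∈ modularFunctionFieldFullC k 1 := jqModC_mem_full k 1
  have h1 : jqModC k ∈ E := by
    have : jqModC k = (cc k f2 + 256) ^ 3 / cc k f2 ^ 2 := by
      rw [← F2_j, mul_div_cancel_right₀ _ (pow_ne_zero 2 (F2_ne k))]
    rw [this]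
    exact div_mem (pow_mem (add_mem hf (ofNat_mem E 256)) 3) (pow_mem hf 2)
  have h2 : qExpand k 2 (jqModC k) ∈ E := by
    have : qExpand k 2 (jqModC k) = (cc k f2 + 16) ^ 3 / cc k f2 := by
      rw [← F2_jr, mul_div_cancel_right₀ _ (F2_ne k)]
    rw [this]
    exact div_mem (pow_mem (add_mem hf (ofNat_mem E 16)) 3) hf
  refine full_eq_of 2 Nat.prime_two (by exact_mod_cast hk) (cc k f2) h1 h2
    ((X + 256) ^ 3 - C ⟨jqModC k, hj1⟩ * X ^ 2) (by monicity!) (by compute_degree!) ?_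
  rw [map_sub, map_pow, map_add, aeval_X, map_ofNat, map_mul, aeval_C, map_pow, aeval_X]
  show _ - jqModC k * _ = 0
  rw [F2_j, sub_self]

theorem full_three_eq (hk : (3 : k) ≠ 0) :
    modularFunctionFieldFullC k 3 = IntermediateField.adjoin k {cc k f3} := by
  have hf := IntermediateField.mem_adjoin_simple_self k (cc k f3)
  set E := IntermediateField.adjoin k {cc k f3} with hE
  have hj1 : jqModC k ∈ modularFunctionFieldFullC k 1 := jqModC_mem_full k 1
  have h1 : jqModC k ∈ E := by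
    have : jqModC k = ((cc k f3 + 27) * (cc k f3 + 243) ^ 3) / cc k f3 ^ 3 := by
      rw [← F3_j, mul_div_cancel_right₀ _ (pow_ne_zero 3 (F3_ne k))]
    rw [this]
    exact div_mem (mul_mem (add_mem hf (ofNat_mem E 27)) (pow_mem (add_mem hf (ofNat_mem E 243)) 3))
      (pow_mem hf 3)
  have h2 : qExpand k 3 (jqModC k) ∈ E := by
    have : qExpand k 3 (jqModC k) = ((cc k f3 + 27) * (cc k f3 + 3) ^ 3) / cc k f3 := by
      rw [← F3_jr, mul_div_cancel_right₀ _ (F3_ne k)]
    rw [this]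
    exact div_mem (mul_mem (add_mem hf (ofNat_mem E 27)) (pow_mem (add_mem hf (ofNat_mem E 3)) 3)) hf
  refine full_eq_of 3 Nat.prime_three (by exact_mod_cast hk) (cc k f3) h1 h2
    ((X + 27) * (X + 243) ^ 3 - C ⟨jqModC k, hj1⟩ * X ^ 3) (by monicity!) (by compute_degree!) ?_
  rw [map_sub, map_mul, map_pow, map_add, map_add, aeval_X, map_ofNat, map_ofNat, map_mul, aeval_C,
    map_pow, aeval_X]
  show _ - jqModC k * _ = 0
  rw [F3_j, sub_self]

end Field

end

end Fermat.Agent.H29
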