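import Mathlib

set_option autoImplicit false
set_option linter.all false

/-! Separability over `k(x)` from a derivation not killing `x`. -/

open Polynomial IntermediateField

namespace Fermat.Agent.H29

section

variable {k F M : Type*} [Field k] [Field F] [Algebra k F] [AddCommGroup M] [Module F M]
  [Module k M] [IsScalarTower k F M] (δ : Derivation k F M) (x : F)

theorem deriv_adjoin (a : k⟮x⟯) : ∃ b : k⟮x⟯, δ (a : F) = (b : F) • δ x := by
  obtain ⟨p, q, h⟩ := (IntermediateField.mem_adjoin_simple_iff k (a : F)).mp a.2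
  by_cases hq : aeval x q = 0
  · refine ⟨0, ?_⟩
    rw [h, hq, div_zero]; simp
  have hxm : x ∈ k⟮x⟯ := IntermediateField.mem_adjoin_simple_self k x
  have hmem : ∀ r : k[X], aeval x r ∈ k⟮x⟯ := fun r => by
    have : aeval x r = ((aeval (⟨x, hxm⟩ : k⟮x⟯) r : k⟮x⟯) : F) := by
      rw [← IntermediateField.algebraMap_apply, ← Polynomial.aeval_algebraMap_apply]
      rfl
    rw [this]; exact (aeval (⟨x, hxm⟩ : k⟮x⟯) r).2
  refine ⟨⟨(aeval x q)⁻¹ * (aeval x (derivative p) - a * aeval x (derivative q)), ?_⟩, ?_⟩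
  · exact mul_mem (inv_mem (hmem q)) (sub_mem (hmem _) (mul_mem a.2 (hmem _)))
  · have h1 : (a : F) * aeval x q = aeval x p := by rw [h]; field_simp
    have h2 := congrArg δ h1
    rw [Derivation.leibniz, Derivation.map_aeval, Derivation.map_aeval] at h2
    have h3 : aeval x q • δ (a : F) =
        (aeval x (derivative p) - a * aeval x (derivative q)) • δ x := by
      rw [sub_smul, mul_smul, ← h2]
      abel
    calc δ (a : F) = (aeval x q)⁻¹ • (aeval x q • δ (a : F)) := by
          rw [smul_smul, inv_mul_cancel₀ hq, one_smul]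
      _ = _ := by rw [h3, smul_smul]

variable (p : ℕ) [hp : Fact p.Prime] [CharP k p] [PerfectRing k p]

theorem exists_pow_of_deriv_eq_zero (hx : δ x ≠ 0) (a : k⟮x⟯) (ha : δ (a : F) = 0) :
    ∃ b : k⟮x⟯, b ^ p = a := by
  haveI : ExpChar k p := .prime hp.out
  haveI : CharP F p := charP_of_injective_algebraMap (algebraMap k F).injective p
  obtain ⟨u, v, h⟩ := (IntermediateField.mem_adjoin_simple_iff k (a : F)).mp a.2
  have hxm : x ∈ k⟮x⟯ := IntermediateField.mem_adjoin_simple_self k x
  have hmem : ∀ r : k[X], aeval x r ∈ k⟮x⟯ := fun r => by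
    have : aeval x r = ((aeval (⟨x, hxm⟩ : k⟮x⟯) r : k⟮x⟯) : F) := by
      rw [← IntermediateField.algebraMap_apply, ← Polynomial.aeval_algebraMap_apply]
      rfl
    rw [this]; exact (aeval (⟨x, hxm⟩ : k⟮x⟯) r).2
  by_cases hv : aeval x v = 0
  · refine ⟨0, ?_⟩
    apply Subtype.ext
    rw [h, hv, div_zero]
    have : (0 : k⟮x⟯) ^ p = 0 := zero_pow hp.out.ne_zero
    rw [this]; rfl
  -- `w = u v^(p-1)`
  set w : k[X] := u * v ^ (p - 1) with hw
  have h1 : (a : F) * (aeval x v) ^ p = aeval x w := by
    rw [hw, map_mul, map_pow, h]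
    have : (aeval x v) ^ p = aeval x v * aeval x v ^ (p - 1) := by
      rw [← pow_succ']; congr 1; have := hp.out.one_lt; omega
    rw [this]; field_simp
  have h2 : δ (aeval x w) = 0 := by
    rw [← h1, Derivation.leibniz, ha, smul_zero, add_zero, Derivation.leibniz_pow,
      ← Nat.cast_smul_eq_nsmul F, CharP.cast_eq_zero F p, zero_smul, smul_zero]
  rw [Derivation.map_aeval] at h2
  have h3 : aeval x (derivative w) = 0 := (smul_eq_zero.mp h2).resolve_right hx
  -- `x` is transcendental over `k`
  have htr : ∀ r : k[X], aeval x r = 0 → r = 0 := by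
    intro r hr
    by_contra hr0
    have hint : IsIntegral k x := by
      rw [← isAlgebraic_iff_isIntegral]
      exact ⟨r, hr0, hr⟩
    have hm : aeval x (minpoly k x) = 0 := minpoly.aeval k x
    have h5 := congrArg δ hm
    rw [Derivation.map_aeval, map_zero] at h5
    have h6 : aeval x (derivative (minpoly k x)) = 0 := (smul_eq_zero.mp h5).resolve_right hx
    haveI : PerfectField k := PerfectRing.toPerfectField k p
    have hsep : (minpoly k x).Separable := PerfectField.separable_of_irreducible (minpoly.irreducible hint)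
    exact (minpoly.dvd k x h6).elim fun c hc => by
      have h7 := hsep.aeval_derivative_ne_zero hm
      exact h7 h6
  have h4 : derivative w = 0 := htr _ h3
  have h5 := expand_contract p h4 hp.out.ne_zero
  obtain ⟨g, hg⟩ : ∃ g : k[X], w = g ^ p := by
    refine ⟨(contract p w).map (frobeniusEquiv k p).symm.toRingHom, ?_⟩
    rw [← Polynomial.map_frobenius_expand, map_expand, Polynomial.map_map]
    have : (frobenius k p).comp (frobeniusEquiv k p).symm.toRingHom = RingHom.id k := by
      ext y
      simp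
    rw [this, Polynomial.map_id, h5]
  refine ⟨⟨(aeval x v)⁻¹ * aeval x g, mul_mem (inv_mem (hmem _)) (hmem _)⟩, ?_⟩
  apply Subtype.ext
  show ((aeval x v)⁻¹ * aeval x g) ^ p = a
  rw [mul_pow, ← map_pow (aeval x) g, ← hg, ← h1, inv_pow]
  have hvp : aeval x v ^ p ≠ 0 := pow_ne_zero _ hv
  rw [mul_comm, mul_assoc, mul_inv_cancel₀ hvp, mul_one]

include hp in
theorem isSeparable_elem (hx : δ x ≠ 0) (y : F) (hy : IsAlgebraic k⟮x⟯ y) :
    IsSeparable k⟮x⟯ y := by
  haveI : ExpChar k p := .prime hp.out
  haveI : CharP k⟮x⟯ p := charP_of_injective_algebraMap (algebraMap k k⟮x⟯).injective p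
  haveI : ExpChar k⟮x⟯ p := .prime hp.out
  have hint : IsIntegral k⟮x⟯ y := hy.isIntegral
  set P := minpoly k⟮x⟯ y with hP
  have hirr : Irreducible P := minpoly.irreducible hint
  show P.Separable
  rw [Polynomial.separable_iff_derivative_ne_zero hirr]
  intro hder
  -- apply the derivation
  have hcoef : ∀ i, ∃ b : k⟮x⟯, δ ((P.coeff i : k⟮x⟯) : F) = (b : F) • δ x := fun i =>
    deriv_adjoin δ x (P.coeff i)
  choose b hb using hcoef
  have h0 : aeval y P = 0 := minpoly.aeval _ y
  have h1 : ∑ i ∈ Finset.range (P.natDegree + 1), ((P.coeff i : k⟮x⟯) : F) * y ^ i = 0 := by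
    rw [← h0, aeval_eq_sum_range]
    refine Finset.sum_congr rfl fun i _ => ?_
    rw [Algebra.smul_def]; rfl
  have h2 := congrArg δ h1
  rw [map_sum, map_zero] at h2
  have h3 : ∑ i ∈ Finset.range (P.natDegree + 1), ((P.coeff i : k⟮x⟯) : F) • δ (y ^ i) = 0 := by
    have h4 : aeval y (derivative P) = 0 := by rw [hder, map_zero]
    have h5 : ∑ i ∈ Finset.range (P.natDegree + 1), ((P.coeff i : k⟮x⟯) : F) • δ (y ^ i) =
        aeval y (derivative P) • δ y := by
      rw [derivative_apply, sum_over_range _ (by intro n; simp), map_sum, Finset.sum_smul]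
      refine Finset.sum_congr rfl fun i _ => ?_
      rw [Derivation.leibniz_pow, ← Nat.cast_smul_eq_nsmul F, smul_smul, smul_smul]
      congr 1
      rw [map_mul, aeval_C, map_pow, aeval_X, map_mul, map_natCast]
      show _ = (P.coeff i : F) * _ * _
      ring
    rw [h5, h4, zero_smul]
  have h6 : (∑ i ∈ Finset.range (P.natDegree + 1), y ^ i * (b i : F)) • δ x = 0 := by
    rw [Finset.sum_smul]
    have h7 : ∀ i ∈ Finset.range (P.natDegree + 1), δ (((P.coeff i : k⟮x⟯) : F) * y ^ i) =
        ((P.coeff i : k⟮x⟯) : F) • δ (y ^ i) + (y ^ i * (b i : F)) • δ x := by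
      intro i _
      rw [Derivation.leibniz, hb, smul_smul]
    rw [Finset.sum_congr rfl h7, Finset.sum_add_distrib, h3, zero_add] at h2
    exact h2
  have h7 := (smul_eq_zero.mp h6).resolve_right hx
  have hmon : P.coeff P.natDegree = 1 := (minpoly.monic hint).coeff_natDegree
  have hbn : b P.natDegree = 0 := by
    have := hb P.natDegree
    rw [hmon] at this
    have h8 : δ (((1 : k⟮x⟯) : F)) = 0 := by
      show δ (1 : F) = 0
      exact Derivation.map_one_eq_zero δ
    rw [h8] at this
    have h9 := (smul_eq_zero.mp this.symm).resolve_right hx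
    exact Subtype.ext h9
  have hb0 : ∀ i < P.natDegree, b i = 0 := by
    intro i hi
    by_contra hne
    let Q : k⟮x⟯[X] := ∑ i ∈ Finset.range P.natDegree, C (b i) * X ^ i
    have hQ : aeval y Q = 0 := by
      simp only [Q, map_sum, map_mul, aeval_C, map_pow, aeval_X]
      rw [Finset.sum_range_succ, hbn] at h7
      have : ((0 : k⟮x⟯) : F) = 0 := rfl
      rw [this, mul_zero, add_zero] at h7
      rw [← h7]
      refine Finset.sum_congr rfl fun i _ => ?_
      rw [mul_comm]; rfl
    have hQc : Q.coeff i = b i := by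
      simp only [Q, finset_sum_coeff, coeff_C_mul, coeff_X_pow]
      simp [hi]
    have hQ0 : Q ≠ 0 := by
      intro h0
      rw [h0, coeff_zero] at hQc
      exact hne hQc.symm
    have hdeg := minpoly.degree_le_of_ne_zero k⟮x⟯ y hQ0 hQ
    have hdeg2 : Q.degree < P.natDegree := by
      refine (degree_sum_le _ _).trans_lt ?_
      rw [Finset.sup_lt_iff (by exact WithBot.bot_lt_coe _)]
      intro j hj
      refine (degree_C_mul_X_pow_le _ _).trans_lt ?_
      exact_mod_cast Finset.mem_range.mp hj
    have hdegP : P.degree = P.natDegree := degree_eq_natDegree hirr.ne_zero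
    rw [← hP, hdegP] at hdeg
    exact absurd hdeg (not_le.mpr hdeg2)
  have hpow : ∀ i, ∃ c : k⟮x⟯, c ^ p = P.coeff i := by
    intro i
    apply exists_pow_of_deriv_eq_zero δ x p hx
    rcases lt_trichotomy i P.natDegree with h | h | h
    · rw [hb, hb0 i h]
      show (0 : F) • _ = _
      rw [zero_smul]
    · rw [hb, h, hbn]
      show (0 : F) • _ = _
      rw [zero_smul]
    · rw [coeff_eq_zero_of_natDegree_lt h]
      exact map_zero δ
  -- `P` is a `p`-th power
  have hexp := expand_contract p hder hp.out.ne_zero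
  have hl : contract p P ∈ lifts (frobenius k⟮x⟯ p) := by
    rw [lifts_iff_coeff_lifts]
    intro n
    rw [coeff_contract hp.out.ne_zero]
    obtain ⟨c, hc⟩ := hpow (n * p)
    exact ⟨c, hc⟩
  obtain ⟨R, hR⟩ := hl
  have hR' : P = (R : k⟮x⟯[X]) ^ p := by
    rw [← Polynomial.map_frobenius_expand, map_expand]
    rw [coe_mapRingHom] at hR
    rw [hR, hexp]
  rw [hR'] at hirr
  exact not_irreducible_pow hp.out.one_lt.ne' hirr

end

end Fermat.Agent.H29
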