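import Mathlib
import Fermat.Agent.Igusa.LaurentExp
import Fermat.Agent.H29.Sep

set_option autoImplicit false
set_option linter.all false

/-! The derivation `q d/dq` on Laurent series, and separability of subfields of `k((q))`. -/

open Polynomial IntermediateField ModularCurve

namespace Fermat.Agent.H29

open Fermat.Agent.Igusa

noncomputable section

attribute [-instance] HahnSeries.instModule

variable (k : Type*) [Field k]

/-- `q d/dq` -/
def thetaFun (F : LaurentSeries k) : LaurentSeries k where
  coeff := fun n => (n : k) * F.coeff n
  isPWO_support' := F.isPWO_support.mono fun n hn => by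
    rw [Function.mem_support] at hn
    rw [HahnSeries.mem_support]
    exact right_ne_zero_of_mul hn

theorem thetaFun_coeff (F : LaurentSeries k) (n : ℤ) :
    (thetaFun k F).coeff n = (n : k) * F.coeff n := rfl

/-- `q d/dq` as a derivation -/
def theta : Derivation k (LaurentSeries k) (LaurentSeries k) :=
  Derivation.mk'
    { toFun := thetaFun k
      map_add' := fun F G => by
        ext n
        rw [HahnSeries.coeff_add, thetaFun_coeff, thetaFun_coeff, thetaFun_coeff,
          HahnSeries.coeff_add, mul_add]
      map_smul' := fun c F => by
        rw [RingHom.id_apply, Algebra.smul_def, Algebra.smul_def, algebraMap_laurentSeries_eq_single]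
        ext n
        rw [thetaFun_coeff, HahnSeries.coeff_single_mul, HahnSeries.coeff_single_mul,
          thetaFun_coeff, sub_zero]
        ring }
    (fun F G => by
      ext n
      show (thetaFun k (F * G)).coeff n = (F * thetaFun k G + G * thetaFun k F).coeff n
      rw [mul_comm G (thetaFun k F), HahnSeries.coeff_add, thetaFun_coeff]
      set s : Finset ℤ := mulSupp F G n ∪ mulSupp F (thetaFun k G) n ∪ mulSupp (thetaFun k F) G n
        with hs
      rw [coeff_mul_eq_sum_of_subset F G n s (by
          rw [hs]; exact (Finset.subset_union_left.trans Finset.subset_union_left)),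
        coeff_mul_eq_sum_of_subset F (thetaFun k G) n s (by
          rw [hs]; exact (Finset.subset_union_right.trans Finset.subset_union_left)),
        coeff_mul_eq_sum_of_subset (thetaFun k F) G n s (by
          rw [hs]; exact Finset.subset_union_right),
        Finset.mul_sum, ← Finset.sum_add_distrib]
      refine Finset.sum_congr rfl fun m _ => ?_
      rw [thetaFun_coeff, thetaFun_coeff]
      push_cast
      ring)

theorem theta_coeff (F : LaurentSeries k) (n : ℤ) :
    (theta k F).coeff n = (n : k) * F.coeff n := rfl

variable {k}

/-- **Separability**: a subfield of `k((q))` algebraic over `k(x)` is separable if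
`q dx/dq ≠ 0`. -/
theorem isSeparable_of_theta (p : ℕ) [hp : Fact p.Prime] [CharP k p] [PerfectRing k p]
    (F : IntermediateField k (LaurentSeries k)) (x : F) (hx : theta k (x : LaurentSeries k) ≠ 0)
    [Algebra.IsAlgebraic k⟮x⟯ F] : Algebra.IsSeparable k⟮x⟯ F := by
  refine ⟨fun y => ?_⟩
  have := isSeparable_elem ((theta k).compAlgebraMap F) x p (by
    show theta k (x : LaurentSeries k) ≠ 0
    exact hx) y (Algebra.IsAlgebraic.isAlgebraic y)
  exact this

theorem theta_ne_zero_of_coeff {x : LaurentSeries k} (n : ℤ) (hn : (n : k) ≠ 0)
    (hx : x.coeff n ≠ 0) : theta k x ≠ 0 := by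
  intro h
  have := theta_coeff k x n
  rw [h] at this
  exact (mul_ne_zero hn hx) this.symm

end

end Fermat.Agent.H29
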