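import Mathlib
import Fermat.Agent.H28.ModRed
import Fermat.Agent.Q.Residue
import Fermat.Agent.H08.RankOne
import Fermat.Agent.H05.ModField
import Fermat.Agent.H29.HauptField
import Fermat.Agent.H29.Theta
import Fermat.Agent.H29.Bridge

set_option autoImplicit false
set_option linter.all false

/-! Gauss bases for the modular function fields. -/

namespace Fermat.Agent.H29

open Polynomial IntermediateField ModularCurve IsLocalRing
open Fermat.Agent.Igusa Fermat.Agent.H28

attribute [-instance] HahnSeries.instModule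

noncomputable section

theorem isAlgClosed_residue {K : Type*} [Field K] [IsAlgClosed K] (A : ValuationSubring K) :
    IsAlgClosed (ResidueField A) := by
  apply IsAlgClosed.of_exists_root
  intro p hp hirr
  have hlift : p ∈ Polynomial.lifts (IsLocalRing.residue A) := by
    rw [Polynomial.lifts_iff_coeff_lifts]
    intro n
    exact IsLocalRing.residue_surjective _
  obtain ⟨q, hq, hdeg, hmon⟩ := Polynomial.lifts_and_degree_eq_and_monic hlift hp
  have hdeg0 : (q.map (algebraMap A K)).degree ≠ 0 := by
    rw [hmon.degree_map, hdeg]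
    exact (Polynomial.degree_pos_of_irreducible hirr).ne'
  obtain ⟨x, hx⟩ := IsAlgClosed.exists_root (q.map (algebraMap A K)) hdeg0
  have hint : IsIntegral A x := ⟨q, hmon, by rwa [Polynomial.IsRoot.def, Polynomial.eval_map] at hx⟩
  obtain ⟨y, hy⟩ := IsIntegrallyClosed.isIntegral_iff.mp hint
  refine ⟨IsLocalRing.residue A y, ?_⟩
  have h1 : q.eval y = 0 := by
    apply IsFractionRing.injective A K
    rw [map_zero, ← Polynomial.eval₂_at_apply, hy]
    rwa [Polynomial.IsRoot.def, Polynomial.eval_map] at hx
  rw [← hq, Polynomial.eval_map, Polynomial.eval₂_at_apply, h1, map_zero]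

theorem charP_residue' {K : Type*} [Field K] {A : ValuationSubring K} {ℓ : ℕ} (hℓ : ℓ.Prime)
    (hA : A.LiesOverPrime ℓ) : CharP (ResidueField A) ℓ := by
  rw [CharP.charP_iff_prime_eq_zero hℓ]
  have h1 : ((ℓ : ℕ) : A) ∈ maximalIdeal A := by
    rw [IsLocalRing.mem_maximalIdeal, mem_nonunits_iff]
    intro hu
    have h2 : ((ℓ : ℕ) : K) ∈ A.nonunits := hA
    rw [ValuationSubring.mem_nonunits_iff_exists_mem_maximalIdeal] at h2
    obtain ⟨h3, h4⟩ := h2
    rw [IsLocalRing.mem_maximalIdeal, mem_nonunits_iff] at h4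
    exact h4 hu
  have h2 : residue A ((ℓ : ℕ) : A) = 0 := (residue_eq_zero_iff _).mpr h1
  rwa [map_natCast] at h2

theorem natCast_residue_ne {K : Type*} [Field K] {A : ValuationSubring K} {ℓ : ℕ} (hℓ : ℓ.Prime)
    (hA : A.LiesOverPrime ℓ) {M : ℕ} (hM : ¬ ℓ ∣ M) : (M : ResidueField A) ≠ 0 := by
  haveI := charP_residue' hℓ hA
  rwa [Ne, CharP.cast_eq_zero_iff (ResidueField A) ℓ]

/-! ### coordinates -/

/-- `y` is a coordinate of level `s` -/
structure Coord (s : ℕ) (y : LaurentSeries ℤ) : Prop where
  adj : ∀ (K : Type) [Field K], (s : K) ≠ 0 →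
    IntermediateField.adjoin K {cc K y} = modularFunctionFieldFullC K s
  theta : ∀ (K : Type) [Field K], theta K (cc K y) ≠ 0

theorem adjoin_eq_adjoin {K Ω : Type*} [Field K] [Field Ω] [Algebra K Ω] {x y : Ω}
    (hx : x ∈ IntermediateField.adjoin K {y}) (hy : y ∈ IntermediateField.adjoin K {x}) :
    IntermediateField.adjoin K {x} = IntermediateField.adjoin K {y} := by
  apply le_antisymm
  · rw [IntermediateField.adjoin_le_iff]; rintro z rfl; exact hx
  · rw [IntermediateField.adjoin_le_iff]; rintro z rfl; exact hy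

theorem theta_of_coeff_neg_one {y : LaurentSeries ℤ} (h : y.coeff (-1) = 1) (K : Type) [Field K] :
    theta K (cc K y) ≠ 0 := by
  apply theta_ne_zero_of_coeff (-1)
  · push_cast; exact neg_ne_zero.mpr one_ne_zero
  · rw [cc, coeffMap_coeff, h, map_one]; exact one_ne_zero

/-- inverse coordinates -/
theorem Coord.inv {s : ℕ} {y z : LaurentSeries ℤ} (hy : Coord s y) (c : ℕ)
    (hz : z * (y + (c : LaurentSeries ℤ)) = 1) : Coord s z := by
  constructor
  · intro K _ hs
    rw [← hy.adj K hs]
    have h1 : cc K z * (cc K y + (c : LaurentSeries K)) = 1 := by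
      have := congrArg (cc K) hz
      rwa [map_mul, map_add, map_natCast, map_one] at this
    have h2 : cc K y + (c : LaurentSeries K) ≠ 0 := right_ne_zero_of_mul_eq_one h1
    have h3 : cc K z = (cc K y + (c : LaurentSeries K))⁻¹ := eq_inv_of_mul_eq_one_left h1
    have h4 : cc K y = (cc K z)⁻¹ - (c : LaurentSeries K) := by rw [h3, inv_inv]; ring
    apply adjoin_eq_adjoin
    · rw [h3]
      exact inv_mem (add_mem (IntermediateField.mem_adjoin_simple_self K _) (_root_.natCast_mem _ _))
    · rw [h4]
      exact sub_mem (inv_mem (IntermediateField.mem_adjoin_simple_self K _))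
        (_root_.natCast_mem _ _)
  · intro K _ h0
    have h1 : cc K z * (cc K y + (c : LaurentSeries K)) = 1 := by
      have := congrArg (cc K) hz
      rwa [map_mul, map_add, map_natCast, map_one] at this
    have h2 := congrArg (H29.theta K) h1
    rw [Derivation.leibniz, h0, smul_zero, add_zero, map_add, Derivation.map_one_eq_zero,
      Derivation.map_natCast, add_zero, smul_eq_mul] at h2
    rcases mul_eq_zero.mp h2 with h3 | h3
    · rw [h3, zero_mul] at h1; exact zero_ne_one h1
    · exact hy.theta K h3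

theorem coord_j : Coord 1 (jqModC ℤ) where
  adj K _ _ := by rw [cc_j, full_one_eq]
  theta K _ := theta_of_coeff_neg_one (coeff_jqModC_neg_one ℤ) K

theorem coord_jinv : Coord 1 jinv := coord_j.inv 0 (by
  rw [Nat.cast_zero, add_zero]; exact jinv_mul)

theorem coord_f2 : Coord 2 f2 where
  adj K _ hs := (full_two_eq (by exact_mod_cast hs)).symm
  theta K _ := theta_of_coeff_neg_one f2_coeff_neg_one K

theorem coord_g2 : Coord 2 g2 := coord_f2.inv 0 (by rw [Nat.cast_zero, add_zero]; exact g2_mul)
theorem coord_u2 : Coord 2 u2 := coord_f2.inv 256 (by exact_mod_cast u2_mul)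

theorem coord_f3 : Coord 3 f3 where
  adj K _ hs := (full_three_eq (by exact_mod_cast hs)).symm
  theta K _ := theta_of_coeff_neg_one f3_coeff_neg_one K

theorem coord_g3 : Coord 3 g3 := coord_f3.inv 0 (by rw [Nat.cast_zero, add_zero]; exact g3_mul)
theorem coord_u3 : Coord 3 u3 := coord_f3.inv 27 (by exact_mod_cast u3_mul)
theorem coord_w3 : Coord 3 w3 := coord_f3.inv 243 (by exact_mod_cast w3_mul)

/-! ### degrees -/

theorem finrank_adjoin_simple {K Ω : Type*} [Field K] [Field Ω] [Algebra K Ω]
    (F : IntermediateField K Ω) (x : F) :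
    Module.finrank K⟮x⟯ F = (K⟮(x : Ω)⟯).relfinrank F := by
  have h1 : (K⟮x⟯).relfinrank ⊤ = Module.finrank K⟮x⟯ F := IntermediateField.relfinrank_top_right _
  rw [← h1, ← IntermediateField.relfinrank_map_map K⟮x⟯ ⊤ F.val]
  congr 1
  · rw [IntermediateField.adjoin_map, Set.image_singleton]; rfl
  · rw [← AlgHom.fieldRange_eq_map, IntermediateField.fieldRange_val]

theorem relfinrank_full (K : Type*) [Field K] {s M : ℕ} [NeZero s] [NeZero M] (hsM : s ∣ M)
    (hM : (M : K) ≠ 0) : (modularFunctionFieldFullC K s).relfinrank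
      (modularFunctionFieldFullC K M) = dedekindPsi M / dedekindPsi s := by
  have hs : (s : K) ≠ 0 := natCast_ne_zero_of_dvd hsM hM
  have h1 := IntermediateField.relfinrank_mul_relfinrank (full_degeneracyC_le K (one_dvd s))
    (full_degeneracyC_le K hsM)
  rw [IntermediateField.relfinrank_eq_toNat_relrank, relrank_full s hs,
    IntermediateField.relfinrank_eq_toNat_relrank (A := modularFunctionFieldFullC K 1)
      (B := modularFunctionFieldFullC K M), relrank_full M hM, Cardinal.toNat_natCast,
    Cardinal.toNat_natCast] at h1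
  rw [← h1, Nat.mul_div_cancel_left _ (dedekindPsi_pos (NeZero.ne s))]

theorem index_pos {s M : ℕ} [NeZero s] [NeZero M] (hsM : s ∣ M) :
    0 < dedekindPsi M / dedekindPsi s := by
  have h1 := IntermediateField.relfinrank_mul_relfinrank (full_degeneracyC_le ℚ (one_dvd s))
    (full_degeneracyC_le ℚ hsM)
  rw [relfinrank_full ℚ hsM (by exact_mod_cast NeZero.ne M),
    IntermediateField.relfinrank_eq_toNat_relrank (A := modularFunctionFieldFullC ℚ 1)
      (B := modularFunctionFieldFullC ℚ M), relrank_full M (by exact_mod_cast NeZero.ne M),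
      Cardinal.toNat_natCast] at h1
  by_contra h
  have h2 : dedekindPsi M / dedekindPsi s = 0 := Nat.eq_zero_of_not_pos h
  rw [h2, mul_zero] at h1
  exact (dedekindPsi_pos (NeZero.ne M)).ne h1

end

end Fermat.Agent.H29
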