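import Mathlib
import Fermat.Agent.H29.ModGauss
import Fermat.Agent.H29.Inst
import Fermat.Agent.H29.Chart

set_option autoImplicit false
set_option linter.all false

/-! Gauss bases for the modular function fields, II. -/

namespace Fermat.Agent.H29

open Polynomial IntermediateField ModularCurve IsLocalRing
open Fermat.Agent.Igusa Fermat.Agent.H28

attribute [-instance] HahnSeries.instModule
attribute [local instance 10000] instLS instIF instIF2

noncomputable section



variable {L : Type} [Field L] {A : ValuationSubring L}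
  {F : IntermediateField L (LaurentSeries L)}
  {Fb : IntermediateField (ResidueField A) (LaurentSeries (ResidueField A))}

theorem coeffMap_cc {R S : Type*} [CommRing R] [CommRing S] (f : R →+* S) (y : LaurentSeries ℤ) :
    coeffMap f (cc R y) = cc S y := by
  rw [cc, coeffMap_coeffMap]
  exact coeffMap_congr (RingHom.ext_int _ _) y

theorem zElt_mem {y : LaurentSeries ℤ} (hL : cc L y ∈ F) (hk : cc (ResidueField A) y ∈ Fb) :
    (⟨cc L y, hL⟩ : F) ∈ (laurentRed A F Fb).Z := by
  rw [mem_laurentRed]
  exact ⟨cc A y, coeffMap_cc A.subtype y, by rw [coeffMap_cc]; exact hk⟩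

/-- integral functions from Laurent series over `ℤ` -/
def zElt {y : LaurentSeries ℤ} (hL : cc L y ∈ F) (hk : cc (ResidueField A) y ∈ Fb) :
    (laurentRed A F Fb).Z := ⟨⟨cc L y, hL⟩, zElt_mem hL hk⟩

theorem coe_zElt {y : LaurentSeries ℤ} (hL : cc L y ∈ F) (hk : cc (ResidueField A) y ∈ Fb) :
    (((zElt hL hk : (laurentRed A F Fb).Z) : F) : LaurentSeries L) = cc L y := rfl

theorem rho_zElt {y : LaurentSeries ℤ} (hL : cc L y ∈ F) (hk : cc (ResidueField A) y ∈ Fb) :
    ((laurentRed A F Fb).ρ (zElt hL hk) : LaurentSeries (ResidueField A)) =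
      cc (ResidueField A) y := by
  rw [laurentRed_ρ (zElt hL hk) (y := cc A y) (coeffMap_cc A.subtype y), coeffMap_cc]

theorem adjoin_rho_range {M : ℕ} (hF : F = modularFunctionFieldFullC L M)
    (hFb : Fb = modularFunctionFieldFullC (ResidueField A) M) :
    IntermediateField.adjoin (ResidueField A) (Set.range (laurentRed A F Fb).ρ) = ⊤ := by
  rw [eq_top_iff]
  rintro x -
  have h1 : Fb ≤ (IntermediateField.adjoin (ResidueField A)
      (Set.range (laurentRed A F Fb).ρ)).map Fb.val := by
    rw [IntermediateField.adjoin_map]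
    conv_lhs => rw [hFb, modularFunctionFieldFullC]
    rw [IntermediateField.adjoin_le_iff]
    rintro y ⟨d, hne, hd, rfl⟩
    apply IntermediateField.subset_adjoin
    have hL : cc L (qExpand ℤ d (jqModC ℤ)) ∈ F := by
      rw [cc_jr, hF]; exact jqModCd_mem_full L M hd
    have hk : cc (ResidueField A) (qExpand ℤ d (jqModC ℤ)) ∈ Fb := by
      rw [cc_jr, hFb]; exact jqModCd_mem_full _ M hd
    refine ⟨(laurentRed A F Fb).ρ (zElt hL hk), ⟨_, rfl⟩, ?_⟩
    show ((laurentRed A F Fb).ρ (zElt hL hk) : LaurentSeries (ResidueField A)) = _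
    rw [rho_zElt, cc_jr]
  obtain ⟨y, hy, hyx⟩ := h1 x.2
  have : y = x := Subtype.ext hyx
  rw [← this]
  exact hy

theorem transcendental_of_theta {k : Type*} [Field k] [IsAlgClosed k]
    {E : IntermediateField k (LaurentSeries k)} (x : E) (hx : H29.theta k (x : LaurentSeries k) ≠ 0) :
    Transcendental k x := by
  intro halg
  have hint : IsIntegral k x := halg.isIntegral
  have hdeg : (minpoly k x).degree = 1 :=
    IsAlgClosed.degree_eq_one_of_irreducible k (minpoly.irreducible hint)
  obtain ⟨c, hc⟩ := minpoly.mem_range_of_degree_eq_one k x hdeg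
  apply hx
  rw [← hc]
  show H29.theta k (algebraMap k (LaurentSeries k) c) = 0
  exact Derivation.map_algebraMap _ _

section Main

variable [CharZero L] [IsAlgClosed L] {ℓ : ℕ} (hℓ : ℓ.Prime) (hA : A.LiesOverPrime ℓ)
  {M : ℕ} [NeZero M] (hM : ¬ ℓ ∣ M) (hF : F = modularFunctionFieldFullC L M)
  (hFb : Fb = modularFunctionFieldFullC (ResidueField A) M)
  {s : ℕ} [NeZero s] (hs : s ∣ M) {y : LaurentSeries ℤ} (hy : Coord s y)

include hy in
theorem Coord.mem_full (K : Type) [Field K] (hs : s ∣ M) (hK : (M : K) ≠ 0) :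
    cc K y ∈ modularFunctionFieldFullC K M := by
  have h1 : cc K y ∈ modularFunctionFieldFullC K s := by
    rw [← hy.adj K (natCast_ne_zero_of_dvd hs hK)]
    exact IntermediateField.mem_adjoin_simple_self K _
  exact full_degeneracyC_le K hs h1

include hF hs hy in
theorem Coord.memL : cc L y ∈ F := by
  rw [hF]; exact hy.mem_full L hs (by exact_mod_cast NeZero.ne M)

include hℓ hA hM hFb hs hy in
theorem Coord.memk : cc (ResidueField A) y ∈ Fb := by
  rw [hFb]; exact hy.mem_full _ hs (natCast_residue_ne hℓ hA hM)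

include hℓ hA hM hF hFb hs hy in
/-- **(E1)** -/
theorem Coord.exists_gauss (t : (laurentRed A F Fb).Z)
    (ht : ((t : F) : LaurentSeries L) = cc L y) :
    ∃ r : Fin (dedekindPsi M / dedekindPsi s) → (laurentRed A F Fb).Z,
      GaussD (laurentRed A F Fb) t r := by
  haveI := isAlgClosed_residue A
  have hρt : ((laurentRed A F Fb).ρ t : LaurentSeries (ResidueField A)) =
      cc (ResidueField A) y := by
    rw [laurentRed_ρ t (y := cc A y) ((coeffMap_cc A.subtype y).trans ht.symm), coeffMap_cc]
  have hMk := natCast_residue_ne hℓ hA hM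
  have hML : (M : L) ≠ 0 := by exact_mod_cast NeZero.ne M
  refine exists_gaussD _ t _ (index_pos hs) ?_ (adjoin_rho_range hF hFb) ?_ ?_
  · apply transcendental_of_theta
    rw [hρt]; exact hy.theta _
  · rw [finrank_adjoin_simple, hρt, hy.adj _ (natCast_ne_zero_of_dvd hs hMk), hFb,
      relfinrank_full _ hs hMk]
  · rw [finrank_adjoin_simple, ht, hy.adj _ (natCast_ne_zero_of_dvd hs hML), hF,
      relfinrank_full _ hs hML]

include hℓ hA hM hF hFb hs hy in
theorem Coord.finrank_res (t : (laurentRed A F Fb).Z)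
    (ht : ((t : F) : LaurentSeries L) = cc L y) :
    Module.finrank (ResidueField A)⟮(laurentRed A F Fb).ρ t⟯ Fb = dedekindPsi M / dedekindPsi s := by
  have hρt : ((laurentRed A F Fb).ρ t : LaurentSeries (ResidueField A)) =
      cc (ResidueField A) y := by
    rw [laurentRed_ρ t (y := cc A y) ((coeffMap_cc A.subtype y).trans ht.symm), coeffMap_cc]
  have hMk := natCast_residue_ne hℓ hA hM
  rw [finrank_adjoin_simple, hρt, hy.adj _ (natCast_ne_zero_of_dvd hs hMk), hFb,
      relfinrank_full _ hs hMk]

include hℓ hA hM hF hFb hs hy in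
theorem Coord.finite_res (t : (laurentRed A F Fb).Z)
    (ht : ((t : F) : LaurentSeries L) = cc L y) :
    FiniteDimensional (ResidueField A)⟮(laurentRed A F Fb).ρ t⟯ Fb := by
  apply Module.finite_of_finrank_pos
  rw [hy.finrank_res hℓ hA hM hF hFb hs t ht]
  exact index_pos hs

include hℓ hA hM hF hFb hs hy in
theorem Coord.separable_res (t : (laurentRed A F Fb).Z)
    (ht : ((t : F) : LaurentSeries L) = cc L y) :
    Algebra.IsSeparable (ResidueField A)⟮(laurentRed A F Fb).ρ t⟯ Fb := by
  have hρt : ((laurentRed A F Fb).ρ t : LaurentSeries (ResidueField A)) =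
      cc (ResidueField A) y := by
    rw [laurentRed_ρ t (y := cc A y) ((coeffMap_cc A.subtype y).trans ht.symm), coeffMap_cc]
  haveI := hy.finite_res hℓ hA hM hF hFb hs t ht
  haveI := isAlgClosed_residue A
  haveI := charP_residue' hℓ hA
  haveI : Fact ℓ.Prime := ⟨hℓ⟩
  haveI : PerfectRing (ResidueField A) ℓ := PerfectField.toPerfectRing ℓ
  haveI : Algebra.IsAlgebraic (ResidueField A)⟮(laurentRed A F Fb).ρ t⟯ Fb :=
    Algebra.IsAlgebraic.of_finite _ _
  exact isSeparable_of_theta ℓ Fb _ (by rw [hρt]; exact hy.theta _)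

end Main

end

end Fermat.Agent.H29
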