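import Mathlib
import Fermat.Agent.H29.ModGauss2

set_option autoImplicit false
set_option linter.all false

/-! Complete integral closedness for charts. -/

namespace Fermat.Agent.H29

open Polynomial IntermediateField ModularCurve IsLocalRing
open Fermat.Agent.Igusa Fermat.Agent.H28

attribute [-instance] HahnSeries.instModule
attribute [local instance 10000] instLS instIF instIF2

noncomputable section

variable {L : Type} [Field L] {A : ValuationSubring L}
  {F : IntermediateField L (LaurentSeries L)}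
  {Fb : IntermediateField (ResidueField A) (LaurentSeries (ResidueField A))}

theorem coe_mem_intL {t : F} (ht : t ∈ (laurentRed A F Fb).Z) : (t : LaurentSeries L) ∈ Q.intL A := by
  rw [mem_laurentRed] at ht
  obtain ⟨y, hy, -⟩ := ht
  exact ⟨y, hy⟩

theorem isIntegral_intL {t : F} (ht : t ∈ (laurentRed A F Fb).Z) {x : F}
    (hx : IntOver A t x) : IsIntegral (Q.intL A) (x : LaurentSeries L) := by
  obtain ⟨P, hP, hPx⟩ := hx
  have hmem : ∀ p : A[X], ((F.val : F →ₐ[L] LaurentSeries L) : F →+* LaurentSeries L)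
      (H28.evA A t p) ∈ Q.intL A := by
    intro p
    have h1 : H28.evA A t p ∈ (laurentRed A F Fb).Z := by
      rw [← coe_evZ (D := laurentRed A F Fb) ⟨t, ht⟩ p]
      exact (evZ (laurentRed A F Fb) ⟨t, ht⟩ p).2
    exact coe_mem_intL h1
  let φ : A[X] →+* Q.intL A :=
    ((((F.val : F →ₐ[L] LaurentSeries L) : F →+* LaurentSeries L)).comp
      (H28.evA A t)).codRestrict (Q.intL A) hmem
  refine ⟨P.map φ, hP.map _, ?_⟩
  rw [eval₂_map]
  have h2 := Polynomial.hom_eval₂ P (H28.evA A t)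
    ((F.val : F →ₐ[L] LaurentSeries L) : F →+* LaurentSeries L) x
  rw [hPx, map_zero] at h2
  exact h2.symm

/-- `mem` -/
theorem mem_Z_of_intOver [CharZero L] [Algebra ℚ L] [Algebra.IsAlgebraic ℚ L] {ℓ : ℕ}
    (hℓ : ℓ.Prime) (hA : A.LiesOverPrime ℓ) {M : ℕ} [NeZero M] (hM : ¬ ℓ ∣ M)
    (hF : F = modularFunctionFieldFullC L M)
    (hFb : Fb = modularFunctionFieldFullC (ResidueField A) M) {t : F}
    (ht : t ∈ (laurentRed A F Fb).Z) (x : F) (hx : IntOver A t x) :
    x ∈ (laurentRed A F Fb).Z := by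
  haveI := H08.mulArchimedean_valueGroup hℓ hA
  have hxF : (x : LaurentSeries L) ∈ modularFunctionFieldFullC L M := by rw [← hF]; exact x.2
  have h1 : (x : LaurentSeries L) ∈ Q.intL A :=
    Q.mem_intL_of_isIntegral (Q.full_le_FL M hxF) (isIntegral_intL ht hx)
  obtain ⟨y, hy⟩ := h1
  rw [mem_laurentRed]
  refine ⟨y, hy, ?_⟩
  have h2 : coeffMap A.subtype y ∈ Q.intL A := ⟨y, rfl⟩
  have h4 : coeffMap A.subtype y ∈ modularFunctionFieldFullC L M := by rw [hy]; exact hxF
  have h3 := Q.red_mem_full hℓ hA (natCast_residue_ne hℓ hA hM) h4 (Q.Red.of_intL ⟨_, h2⟩)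
  rw [Q.redL_coeffMap y h2] at h3
  rw [hFb]
  exact h3

end

end Fermat.Agent.H29
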