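import Mathlib
import Fermat.Agent.H29.Loc
import Fermat.Agent.H29.ModMem
import Fermat.Agent.H27.Branch

set_option autoImplicit false
set_option linter.all false

/-! Lifting for modular coordinates. -/

namespace Fermat.Agent.H29

open Polynomial IntermediateField ModularCurve IsLocalRing
open Fermat.Agent.Igusa Fermat.Agent.H28

attribute [-instance] HahnSeries.instModule
attribute [local instance 10000] instLS instIF instIF2

noncomputable section

theorem bar_eq (M : ℕ) : modularFunctionFieldBar M =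
    modularFunctionFieldFullC (AlgebraicClosure ℚ) M :=
  H05.laurentBaseChange_full (AlgebraicClosure ℚ) M

theorem ratCoord_simple {K F : Type*} [Field K] [Field F] [Algebra K F] (t : F)
    (ht : Transcendental K t) :
    H27.RatCoord K (⟨t, IntermediateField.mem_adjoin_simple_self K t⟩ : K⟮t⟯) := by
  refine ⟨fun h => ht ?_, fun y => ?_⟩
  · exact h.algHom (K⟮t⟯.val)
  · obtain ⟨p, q, hq, h⟩ := exists_div_of_mem_adjoin t y
    have hev : ∀ r : K[X], ((aeval (⟨t, IntermediateField.mem_adjoin_simple_self K t⟩ : K⟮t⟯) r :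
        K⟮t⟯) : F) = aeval t r := by
      intro r
      rw [← IntermediateField.algebraMap_apply, ← Polynomial.aeval_algebraMap_apply]
      rfl
    refine ⟨p, q, ?_, ?_⟩
    · rintro rfl; simp at hq
    · apply Subtype.ext
      show (y : F) * _ = _
      rw [hev, hev, ← h, mul_comm]

variable {M : ℕ} [NeZero M] {A : ValuationSubring (AlgebraicClosure ℚ)} {ℓ : ℕ} (hℓ : ℓ.Prime)
  (hA : A.LiesOverPrime ℓ) (hM : ¬ ℓ ∣ M)

include hℓ hA hM in
theorem mod_mem {t : modularFunctionFieldBar M} (ht : t ∈ (modRed M A).Z)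
    (x : modularFunctionFieldBar M) (hx : IntOver A t x) : x ∈ (modRed M A).Z :=
  mem_Z_of_intOver hℓ hA hM (bar_eq M) rfl ht x hx

theorem jBar_mem_adjoin {s : ℕ} [NeZero s] {y : LaurentSeries ℤ} (hy : Coord s y)
    (t : modularFunctionFieldBar M)
    (ht : (t : LaurentSeries (AlgebraicClosure ℚ)) = cc (AlgebraicClosure ℚ) y) :
    jBar M ∈ (AlgebraicClosure ℚ)⟮t⟯ := by
  have h3 : IntermediateField.lift (AlgebraicClosure ℚ)⟮t⟯ =
      (AlgebraicClosure ℚ)⟮cc (AlgebraicClosure ℚ) y⟯ := by
    rw [← ht]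
    exact IntermediateField.lift_adjoin_simple (AlgebraicClosure ℚ) (modularFunctionFieldBar M) t
  have h4 : jqModC (AlgebraicClosure ℚ) ∈ (AlgebraicClosure ℚ)⟮cc (AlgebraicClosure ℚ) y⟯ := by
    rw [hy.adj (AlgebraicClosure ℚ) (Nat.cast_ne_zero.mpr (NeZero.ne s))]
    exact jqModC_mem_full _ s
  rw [← h3] at h4
  obtain ⟨z, hz, hzj⟩ := h4
  have : z = jBar M := Subtype.ext hzj
  rw [← this]
  exact hz

include hℓ hA hM in
theorem liftProp_of_br {s : ℕ} [NeZero s] (hs : s ∣ M) {y : LaurentSeries ℤ} (hy : Coord s y)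
    (t : (modRed M A).Z)
    (ht : ((t : modularFunctionFieldBar M) : LaurentSeries (AlgebraicClosure ℚ)) =
      cc (AlgebraicClosure ℚ) y)
    (hB : ∀ x J : (AlgebraicClosure ℚ)⟮(t : modularFunctionFieldBar M)⟯,
      (x : modularFunctionFieldBar M) = t → (J : modularFunctionFieldBar M) = jBar M →
      Nonempty (H27.BrData A x J)) : LiftProp (modRed M A) t := by
  obtain ⟨r, hr⟩ := hy.exists_gauss hℓ hA hM (bar_eq M) rfl hs t ht
  haveI := hy.finite_res hℓ hA hM (bar_eq M) rfl hs t ht
  haveI := hy.separable_res hℓ hA hM (bar_eq M) rfl hs t ht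
  have hκ := hy.finrank_res hℓ hA hM (bar_eq M) rfl hs t ht
  have htr : Transcendental (AlgebraicClosure ℚ) (t : modularFunctionFieldBar M) :=
    transcendental_of_theta _ (by rw [ht]; exact hy.theta _)
  have h := ratCoord_simple (t : modularFunctionFieldBar M) htr
  obtain ⟨B⟩ := hB ⟨(t : modularFunctionFieldBar M), IntermediateField.mem_adjoin_simple_self _ _⟩
    ⟨jBar M, jBar_mem_adjoin hy _ ht⟩ rfl rfl
  letI := algZ (modRed M A)
  have hcard : Fintype.card (Fin (dedekindPsi M / dedekindPsi s)) =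
      Module.finrank (AlgebraicClosure ℚ)⟮(t : modularFunctionFieldBar M)⟯
        (modularFunctionFieldBar M) :=
    (Module.finrank_eq_card_basis (GaussB.basis hr rfl h)).symm
  haveI : FiniteDimensional (AlgebraicClosure ℚ)⟮(t : modularFunctionFieldBar M)⟯
    (modularFunctionFieldBar M) := Module.Finite.of_basis (GaussB.basis hr rfl h)
  letI : Algebra (AlgebraicClosure ℚ) ℂ :=
    (IsAlgClosed.lift (R := ℚ) (S := AlgebraicClosure ℚ) (M := ℂ)).toRingHom.toAlgebra
  refine liftProp_of_normality hr (fun x hx => mod_mem hℓ hA hM t.2 x hx) _ rfl h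
    (by rw [hκ, Fintype.card_fin]) B.D B.sq ?_
  refine B.hloc h (M := M) ?_ (AlgHom.id _ _) (fun _ => rfl)
    (H27.GenOK.of_surjective (i := AlgHom.id _ (H18.Fb (AlgebraicClosure ℚ) M))
      Function.surjective_id) hcard
  apply Subtype.ext
  rw [H18.coe_jB]
  rfl

end

end Fermat.Agent.H29
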