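import Mathlib
import Fermat.Agent.H29.Lift
import Fermat.Agent.Descent.FG

set_option autoImplicit false
set_option linter.all false

/-! **Good reduction**: the two charts of the modular curve. -/

namespace Fermat.Agent.H29

open Polynomial IntermediateField ModularCurve IsLocalRing
open Fermat.Agent.Igusa Fermat.Agent.H28

attribute [-instance] HahnSeries.instModule
attribute [local instance 10000] instLS instIF instIF2

noncomputable section

section Gen

variable {L : Type*} [Field L] {A : ValuationSubring L} {F : Type*} [Field F] [Algebra L F]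

theorem intOver_of_monic {t w : F} (P : (intSubring A t)[X]) (hP : P.Monic)
    (h : P.eval₂ (intSubring A t).subtype w = 0) : IntOver A t w := by
  letI := (H28.evA A t).toAlgebra
  have h1 : IsIntegral (integralClosure A[X] F) w := ⟨P, hP, h⟩
  exact isIntegral_trans (R := A[X]) _ h1

theorem intOver_cubic {t w a b c : F} (ha : IntOver A t a) (hb : IntOver A t b)
    (hc : IntOver A t c) (h : w ^ 3 + a * w ^ 2 + b * w + c = 0) : IntOver A t w := by
  refine intOver_of_monic (X ^ 3 + C ⟨a, ha⟩ * X ^ 2 + C ⟨b, hb⟩ * X + C ⟨c, hc⟩)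
    (by monicity!) ?_
  simpa using h

theorem intOver_quartic {t w a b c d : F} (ha : IntOver A t a) (hb : IntOver A t b)
    (hc : IntOver A t c) (hd : IntOver A t d)
    (h : w ^ 4 + a * w ^ 3 + b * w ^ 2 + c * w + d = 0) : IntOver A t w := by
  refine intOver_of_monic (X ^ 4 + C ⟨a, ha⟩ * X ^ 3 + C ⟨b, hb⟩ * X ^ 2 + C ⟨c, hc⟩ * X +
    C ⟨d, hd⟩) (by monicity!) ?_
  simpa using h

theorem intOver_natCast (t : F) (n : ℕ) : IntOver A t (n : F) :=
  natCast_mem (intSubring A t) n

theorem intOver_ofNat (t : F) (n : ℕ) [n.AtLeastTwo] : IntOver A t (OfNat.ofNat n : F) := by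
  rw [← Nat.cast_ofNat]; exact intOver_natCast t n

theorem intOver_one (t : F) : IntOver A t 1 := one_mem (intSubring A t)

theorem intOver_sub {t x y : F} (hx : IntOver A t x) (hy : IntOver A t y) :
    IntOver A t (x - y) := by
  rw [sub_eq_add_neg]; exact H28.IntOver.add hx (H28.IntOver.neg hy)

theorem intOver_pow {t x : F} (hx : IntOver A t x) (n : ℕ) :
    IntOver A t (x ^ n) := by
  have h : x ∈ intSubring A t := hx
  exact pow_mem h n

/-- inverses of integers prime to `ℓ` are in `A` -/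
theorem exists_inv {K : Type*} [Field K] {A : ValuationSubring K} {ℓ : ℕ} (hℓ : ℓ.Prime)
    (hA : A.LiesOverPrime ℓ) {n : ℕ} (hn : ¬ ℓ ∣ n) : ((n : K))⁻¹ ∈ A := by
  have h1 := natCast_residue_ne hℓ hA hn
  have h2 : IsLocalRing.residue A ⟨(n : K), natCast_mem A n⟩ ≠ 0 := by
    have : (⟨(n : K), natCast_mem A n⟩ : A) = (n : A) := rfl
    rw [this, map_natCast]; exact h1
  exact H27.inv_mem_of_residue_ne_zero _ h2

end Gen

variable {M : ℕ} [NeZero M] {A : ValuationSubring (AlgebraicClosure ℚ)} {ℓ : ℕ} (hℓ : ℓ.Prime)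
  (hA : A.LiesOverPrime ℓ) (hM : ¬ ℓ ∣ M)

/-- coordinate as an element of `Z` -/
def cZ (hℓ : ℓ.Prime) (hA : A.LiesOverPrime ℓ) (hM : ¬ ℓ ∣ M) {s : ℕ} [NeZero s] (hs : s ∣ M)
    {y : LaurentSeries ℤ} (hy : Coord s y) : (modRed M A).Z :=
  zElt (hy.memL (bar_eq M) hs) (hy.memk hℓ hA hM rfl hs)

theorem coe_cZ {s : ℕ} [NeZero s] (hs : s ∣ M) {y : LaurentSeries ℤ} (hy : Coord s y) :
    (((cZ hℓ hA hM hs hy : (modRed M A).Z) : modularFunctionFieldBar M) :
      LaurentSeries (AlgebraicClosure ℚ)) = cc (AlgebraicClosure ℚ) y := rfl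

/-- equality in `F` from equality of series over `ℤ` -/
theorem bar_ext {x y : modularFunctionFieldBar M} {a b : LaurentSeries ℤ}
    (hx : (x : LaurentSeries (AlgebraicClosure ℚ)) = cc (AlgebraicClosure ℚ) a)
    (hy : (y : LaurentSeries (AlgebraicClosure ℚ)) = cc (AlgebraicClosure ℚ) b)
    (h : a = b) : x = y := by
  apply Subtype.ext
  rw [hx, hy, h]

theorem coe_jBar_cc : ((jBar M : modularFunctionFieldBar M) :
    LaurentSeries (AlgebraicClosure ℚ)) = cc (AlgebraicClosure ℚ) (jqModC ℤ) := (cc_j _).symm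

theorem coe_jBar_inv_cc : (((jBar M)⁻¹ : modularFunctionFieldBar M) :
    LaurentSeries (AlgebraicClosure ℚ)) = cc (AlgebraicClosure ℚ) jinv := by
  have h1 : cc (AlgebraicClosure ℚ) jinv * jqModC (AlgebraicClosure ℚ) = 1 := by
    have := congrArg (cc (AlgebraicClosure ℚ)) jinv_mul
    rwa [map_mul, map_one, cc_j] at this
  rw [eq_inv_of_mul_eq_one_left h1]
  rfl

end

end Fermat.Agent.H29
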