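import Mathlib
import Fermat.Agent.H29.Charts
import Fermat.Agent.H29.Branch3

set_option autoImplicit false
set_option linter.all false

/-! Lifting property for the standard coordinates. -/

namespace Fermat.Agent.H29

open Polynomial IntermediateField ModularCurve IsLocalRing
open Fermat.Agent.Igusa Fermat.Agent.H28

attribute [-instance] HahnSeries.instModule
attribute [local instance 10000] instLS instIF instIF2

noncomputable section

variable {M : ℕ} [NeZero M] {A : ValuationSubring (AlgebraicClosure ℚ)} {ℓ : ℕ} (hℓ : ℓ.Prime)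
  (hA : A.LiesOverPrime ℓ) (hM : ¬ ℓ ∣ M)

include hℓ hA in
theorem two_ne (h : ℓ ≠ 2) : (2 : ResidueField A) ≠ 0 := by
  have := natCast_residue_ne hℓ hA (M := 2) (by
    intro h'; exact h ((Nat.prime_dvd_prime_iff_eq hℓ Nat.prime_two).mp h'))
  exact_mod_cast this

include hℓ hA in
theorem three_ne (h : ℓ ≠ 3) : (3 : ResidueField A) ≠ 0 := by
  have := natCast_residue_ne hℓ hA (M := 3) (by
    intro h'; exact h ((Nat.prime_dvd_prime_iff_eq hℓ Nat.prime_three).mp h'))
  exact_mod_cast this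

/-- relation transport -/
theorem rel_of_cc {E : IntermediateField (AlgebraicClosure ℚ) (modularFunctionFieldBar M)}
    (a b : E) (h : ((a : modularFunctionFieldBar M) : LaurentSeries (AlgebraicClosure ℚ)) =
      ((b : modularFunctionFieldBar M) : LaurentSeries (AlgebraicClosure ℚ))) : a = b :=
  Subtype.ext (Subtype.ext h)

section
variable {k : Type} [Field k]

theorem U2_j : jqModC k * (cc k u2 * (1 - 256 * cc k u2) ^ 2) = 1 := by
  have h : jqModC ℤ * (u2 * (1 - 256 * u2) ^ 2) = 1 := by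
    rw [← jinv_eq_u2, mul_comm]; exact jinv_mul
  have := congrArg (cc k) h
  rwa [map_mul, map_mul, map_pow, map_sub, map_mul, map_one, map_ofNat, cc_j] at this

theorem U3_j : jqModC k * (cc k u3 * (1 - 27 * cc k u3) ^ 3) = (1 + 216 * cc k u3) ^ 3 := by
  have h : jqModC ℤ * (u3 * (1 - 27 * u3) ^ 3) = (1 + 216 * u3) ^ 3 := by
    rw [← jinv_u3]; linear_combination (1 + 216 * u3) ^ 3 * jinv_mul
  have := congrArg (cc k) h
  rwa [map_mul, map_mul, map_pow, map_sub, map_mul, map_one, map_ofNat, cc_j, map_pow, map_add,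
    map_mul, map_one, map_ofNat] at this

end

include hℓ hA hM in
theorem liftProp_f2 (h2 : 2 ∣ M) (hl : ℓ ≠ 2) :
    LiftProp (modRed M A) (cZ hℓ hA hM h2 coord_f2) := by
  refine liftProp_of_br hℓ hA hM h2 coord_f2 _ (coe_cZ hℓ hA hM h2 coord_f2) ?_
  intro x J hx hJ
  refine ⟨H27.brTwo (two_ne hℓ hA hl) x J ?_⟩
  apply rel_of_cc
  have hx' : ((x : modularFunctionFieldBar M) : LaurentSeries (AlgebraicClosure ℚ)) =
      cc (AlgebraicClosure ℚ) f2 := by rw [hx]; rfl
  have hJ' : ((J : modularFunctionFieldBar M) : LaurentSeries (AlgebraicClosure ℚ)) =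
      jqModC (AlgebraicClosure ℚ) := by rw [hJ]; rfl
  have := F2_j (AlgebraicClosure ℚ)
  rw [← hx', ← hJ'] at this
  exact this

include hℓ hA hM in
theorem liftProp_u2 (h2 : 2 ∣ M) (hl : ℓ ≠ 2) :
    LiftProp (modRed M A) (cZ hℓ hA hM h2 coord_u2) := by
  refine liftProp_of_br hℓ hA hM h2 coord_u2 _ (coe_cZ hℓ hA hM h2 coord_u2) ?_
  intro x J hx hJ
  refine ⟨brTwoU (two_ne hℓ hA hl) x J ?_⟩
  apply rel_of_cc
  have hx' : ((x : modularFunctionFieldBar M) : LaurentSeries (AlgebraicClosure ℚ)) =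
      cc (AlgebraicClosure ℚ) u2 := by rw [hx]; rfl
  have hJ' : ((J : modularFunctionFieldBar M) : LaurentSeries (AlgebraicClosure ℚ)) =
      jqModC (AlgebraicClosure ℚ) := by rw [hJ]; rfl
  have := U2_j (k := AlgebraicClosure ℚ)
  rw [← hx', ← hJ'] at this
  exact this

include hℓ hA hM in
theorem liftProp_f3 (h3 : 3 ∣ M) (hl : ℓ ≠ 3) :
    LiftProp (modRed M A) (cZ hℓ hA hM h3 coord_f3) := by
  refine liftProp_of_br hℓ hA hM h3 coord_f3 _ (coe_cZ hℓ hA hM h3 coord_f3) ?_
  intro x J hx hJ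
  refine ⟨H27.brThree (three_ne hℓ hA hl) x J ?_⟩
  apply rel_of_cc
  have hx' : ((x : modularFunctionFieldBar M) : LaurentSeries (AlgebraicClosure ℚ)) =
      cc (AlgebraicClosure ℚ) f3 := by rw [hx]; rfl
  have hJ' : ((J : modularFunctionFieldBar M) : LaurentSeries (AlgebraicClosure ℚ)) =
      jqModC (AlgebraicClosure ℚ) := by rw [hJ]; rfl
  have := F3_j (AlgebraicClosure ℚ)
  rw [← hx', ← hJ'] at this
  exact this

include hℓ hA hM in
theorem liftProp_u3 (h3 : 3 ∣ M) :
    LiftProp (modRed M A) (cZ hℓ hA hM h3 coord_u3) := by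
  refine liftProp_of_br hℓ hA hM h3 coord_u3 _ (coe_cZ hℓ hA hM h3 coord_u3) ?_
  intro x J hx hJ
  refine ⟨brThreeU x J ?_⟩
  apply rel_of_cc
  have hx' : ((x : modularFunctionFieldBar M) : LaurentSeries (AlgebraicClosure ℚ)) =
      cc (AlgebraicClosure ℚ) u3 := by rw [hx]; rfl
  have hJ' : ((J : modularFunctionFieldBar M) : LaurentSeries (AlgebraicClosure ℚ)) =
      jqModC (AlgebraicClosure ℚ) := by rw [hJ]; rfl
  have := U3_j (k := AlgebraicClosure ℚ)
  rw [← hx', ← hJ'] at this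
  exact this

end

end Fermat.Agent.H29
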