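import Mathlib
import Fermat.Agent.H29.Charts2

set_option autoImplicit false
set_option linter.all false

/-! Lifting property for `j` and `1/j`. -/

namespace Fermat.Agent.H29

open Polynomial IntermediateField ModularCurve IsLocalRing
open Fermat.Agent.Igusa Fermat.Agent.H28

attribute [-instance] HahnSeries.instModule
attribute [local instance 10000] instLS instIF instIF2

noncomputable section

section Gen

variable {L : Type*} [Field L] {A : ValuationSubring L} {F : Type*} [Field F] [Algebra L F]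
  {ℓ : ℕ}

theorem intOver_inv_natCast [CharZero L] (hℓ : ℓ.Prime) (hA : A.LiesOverPrime ℓ) (t : F) {n : ℕ}
    (hn : ¬ ℓ ∣ n) : IntOver A t ((n : F)⁻¹) := by
  have h := intOver_alg (A := A) t ⟨_, exists_inv hℓ hA hn⟩
  have e : algebraMap L F ((n : L)⁻¹) = ((n : F))⁻¹ := by rw [map_inv₀, map_natCast]
  rw [← e]; exact h

theorem intOver_of_mul [CharZero L] (hℓ : ℓ.Prime) (hA : A.LiesOverPrime ℓ) {t x : F} {n : ℕ}
    (hn : ¬ ℓ ∣ n) (hn0 : (n : F) ≠ 0) (h : IntOver A t (n * x)) : IntOver A t x := by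
  have h1 := H28.IntOver.mul (intOver_inv_natCast hℓ hA t hn) h
  rwa [← mul_assoc, inv_mul_cancel₀ hn0, one_mul] at h1

variable {t j f g u w : F}

theorem intOver_f2 (h : j * f ^ 2 = (f + 256) ^ 3) : IntOver A j f := by
  refine intOver_cubic (a := 768 - j) (b := 196608) (c := 16777216)
    (intOver_sub (intOver_ofNat _ _) (intOver_self _)) (intOver_ofNat _ _) (intOver_ofNat _ _) ?_
  linear_combination -h

theorem intOver_g2 [CharZero L] [CharZero F] (hℓ : ℓ.Prime) (hA : A.LiesOverPrime ℓ) (hl : ℓ ≠ 2)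
    (h : (1 + 256 * g) ^ 3 = j * g) : IntOver A j g := by
  have hn : ¬ ℓ ∣ 256 := by
    intro h'
    have : ℓ ∣ 2 ^ 8 := by norm_num; exact h'
    exact hl ((Nat.prime_dvd_prime_iff_eq hℓ Nat.prime_two).mp (hℓ.dvd_of_dvd_pow this))
  have hn0 : ((256 : ℕ) : F) ≠ 0 := by exact_mod_cast (by norm_num : (256 : ℕ) ≠ 0)
  refine intOver_of_mul hℓ hA hn hn0 ?_
  have hc := intOver_inv_natCast hℓ hA j hn
  have hcc : ((256 : ℕ) : F)⁻¹ * ((256 : ℕ) : F) = 1 := inv_mul_cancel₀ hn0
  set c : F := ((256 : ℕ) : F)⁻¹ with hcdef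
  refine intOver_cubic (a := 3) (b := 3 - c * j) (c := 1) (intOver_ofNat _ _)
    (intOver_sub (intOver_ofNat _ _) (H28.IntOver.mul hc (intOver_self _))) (intOver_one _) ?_
  push_cast at hcc ⊢
  linear_combination h - j * g * hcc

theorem intOver_u2 [CharZero L] [CharZero F] (hℓ : ℓ.Prime) (hA : A.LiesOverPrime ℓ) (hl : ℓ ≠ 2)
    (h : t = u * (1 - 256 * u) ^ 2) : IntOver A t u := by
  have hn : ¬ ℓ ∣ 256 := by
    intro h'
    have : ℓ ∣ 2 ^ 8 := by norm_num; exact h'
    exact hl ((Nat.prime_dvd_prime_iff_eq hℓ Nat.prime_two).mp (hℓ.dvd_of_dvd_pow this))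
  have hn0 : ((256 : ℕ) : F) ≠ 0 := by exact_mod_cast (by norm_num : (256 : ℕ) ≠ 0)
  refine intOver_of_mul hℓ hA hn hn0 ?_
  refine intOver_cubic (a := -2) (b := 1) (c := -(256 * t)) (H28.IntOver.neg (intOver_ofNat _ _))
    (intOver_one _) (H28.IntOver.neg (H28.IntOver.mul (intOver_ofNat _ _) (intOver_self _))) ?_
  push_cast
  linear_combination -256 * h

theorem intOver_f3 (h : j * f ^ 3 = (f + 27) * (f + 243) ^ 3) : IntOver A j f := by
  refine intOver_quartic (a := 756 - j) (b := 196830) (c := 19131876) (d := 387420489)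
    (intOver_sub (intOver_ofNat _ _) (intOver_self _)) (intOver_ofNat _ _) (intOver_ofNat _ _)
    (intOver_ofNat _ _) ?_
  linear_combination -h

theorem intOver_g3 [CharZero L] [CharZero F] (hℓ : ℓ.Prime) (hA : A.LiesOverPrime ℓ) (hl : ℓ ≠ 3)
    (h : (1 + 27 * g) * (1 + 243 * g) ^ 3 = j * g) : IntOver A j g := by
  have hn : ¬ ℓ ∣ 243 := by
    intro h'
    have : ℓ ∣ 3 ^ 5 := by norm_num; exact h'
    exact hl ((Nat.prime_dvd_prime_iff_eq hℓ Nat.prime_three).mp (hℓ.dvd_of_dvd_pow this))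
  have hn0 : ((243 : ℕ) : F) ≠ 0 := by exact_mod_cast (by norm_num : (243 : ℕ) ≠ 0)
  refine intOver_of_mul hℓ hA hn hn0 ?_
  have hc := intOver_inv_natCast hℓ hA j hn
  have hcc : ((243 : ℕ) : F)⁻¹ * ((243 : ℕ) : F) = 1 := inv_mul_cancel₀ hn0
  set c : F := ((243 : ℕ) : F)⁻¹ with hcdef
  refine intOver_quartic (a := 12) (b := 30) (c := 28 - 9 * (c * j)) (d := 9) (intOver_ofNat _ _)
    (intOver_ofNat _ _)
    (intOver_sub (intOver_ofNat _ _) (H28.IntOver.mul (intOver_ofNat _ _)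
      (H28.IntOver.mul hc (intOver_self _)))) (intOver_ofNat _ _) ?_
  push_cast at hcc ⊢
  linear_combination 9 * h - 9 * j * g * hcc

theorem intOver_u3 [CharZero L] [CharZero F] (hℓ : ℓ.Prime) (hA : A.LiesOverPrime ℓ) (hl : ℓ ≠ 3)
    (h : t * (1 + 216 * u) ^ 3 = u * (1 - 27 * u) ^ 3) : IntOver A t u := by
  have hn : ¬ ℓ ∣ 27 := by
    intro h'
    have : ℓ ∣ 3 ^ 3 := by norm_num; exact h'
    exact hl ((Nat.prime_dvd_prime_iff_eq hℓ Nat.prime_three).mp (hℓ.dvd_of_dvd_pow this))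
  have hn0 : ((27 : ℕ) : F) ≠ 0 := by exact_mod_cast (by norm_num : (27 : ℕ) ≠ 0)
  refine intOver_of_mul hℓ hA hn hn0 ?_
  have ht : IntOver A t t := intOver_self _
  refine intOver_quartic (a := 13824 * t - 3) (b := 5184 * t + 3) (c := 648 * t - 1)
    (d := 27 * t)
    (intOver_sub (H28.IntOver.mul (intOver_ofNat _ _) ht) (intOver_ofNat _ _))
    (H28.IntOver.add (H28.IntOver.mul (intOver_ofNat _ _) ht) (intOver_ofNat _ _))
    (intOver_sub (H28.IntOver.mul (intOver_ofNat _ _) ht) (intOver_one _))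
    (H28.IntOver.mul (intOver_ofNat _ _) ht) ?_
  push_cast
  linear_combination 27 * h

theorem intOver_w3 [CharZero L] [CharZero F] (hℓ : ℓ.Prime) (hA : A.LiesOverPrime ℓ) (hl : ℓ ≠ 3)
    (h : t * (1 - 216 * w) = w * (1 - 243 * w) ^ 3) : IntOver A t w := by
  have hn : ¬ ℓ ∣ 243 := by
    intro h'
    have : ℓ ∣ 3 ^ 5 := by norm_num; exact h'
    exact hl ((Nat.prime_dvd_prime_iff_eq hℓ Nat.prime_three).mp (hℓ.dvd_of_dvd_pow this))
  have hn0 : ((243 : ℕ) : F) ≠ 0 := by exact_mod_cast (by norm_num : (243 : ℕ) ≠ 0)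
  refine intOver_of_mul hℓ hA hn hn0 ?_
  have ht : IntOver A t t := intOver_self _
  refine intOver_quartic (a := -3) (b := 3) (c := -(216 * t) - 1) (d := 243 * t)
    (H28.IntOver.neg (intOver_ofNat _ _)) (intOver_ofNat _ _)
    (intOver_sub (H28.IntOver.neg (H28.IntOver.mul (intOver_ofNat _ _) ht)) (intOver_one _))
    (H28.IntOver.mul (intOver_ofNat _ _) ht) ?_
  push_cast
  linear_combination 243 * h

end Gen

variable {M : ℕ} [NeZero M] {A : ValuationSubring (AlgebraicClosure ℚ)} {ℓ : ℕ} (hℓ : ℓ.Prime)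
  (hA : A.LiesOverPrime ℓ) (hM : ¬ ℓ ∣ M)

theorem charZero_F : CharZero (modularFunctionFieldBar M) := inferInstance

/-- identities in `F` -/
theorem rel_F (a b : modularFunctionFieldBar M) (h : (a : LaurentSeries (AlgebraicClosure ℚ)) =
      (b : LaurentSeries (AlgebraicClosure ℚ))) : a = b := Subtype.ext h

section
variable {k : Type} [Field k]

theorem G2_j : (1 + 256 * cc k g2) ^ 3 = jqModC k * cc k g2 := by
  have := congrArg (cc k) jg_2
  rwa [map_mul, map_pow, map_add, map_mul, map_one, map_ofNat, cc_j] at this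

theorem FG2 : cc k f2 * cc k g2 = 1 := by
  have := congrArg (cc k) g2_mul
  rwa [map_mul, map_one, mul_comm] at this

theorem G3_j : (1 + 27 * cc k g3) * (1 + 243 * cc k g3) ^ 3 = jqModC k * cc k g3 := by
  have := congrArg (cc k) jg_3
  rwa [map_mul, map_pow, map_add, map_add, map_mul, map_mul, map_mul, map_one, map_ofNat, map_ofNat,
    cc_j] at this

theorem FG3 : cc k f3 * cc k g3 = 1 := by
  have := congrArg (cc k) g3_mul
  rwa [map_mul, map_one, mul_comm] at this

theorem U2_jinv : cc k jinv = cc k u2 * (1 - 256 * cc k u2) ^ 2 := by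
  have := congrArg (cc k) jinv_eq_u2
  rwa [map_mul, map_pow, map_sub, map_mul, map_one, map_ofNat] at this

theorem U3_jinv : cc k jinv * (1 + 216 * cc k u3) ^ 3 = cc k u3 * (1 - 27 * cc k u3) ^ 3 := by
  have := congrArg (cc k) jinv_u3
  rwa [map_mul, map_mul, map_pow, map_pow, map_add, map_sub, map_mul, map_mul, map_one, map_ofNat,
    map_ofNat] at this

theorem W3_jinv : cc k jinv * (1 - 216 * cc k w3) = cc k w3 * (1 - 243 * cc k w3) ^ 3 := by
  have := congrArg (cc k) jinv_w3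
  rwa [map_mul, map_mul, map_pow, map_sub, map_sub, map_mul, map_mul, map_one, map_ofNat,
    map_ofNat] at this

theorem UW3 : (1 + 216 * cc k u3) * (1 - 216 * cc k w3) = 1 := by
  have := congrArg (cc k) s3_mul
  rwa [map_mul, map_sub, map_add, map_mul, map_mul, map_one, map_ofNat] at this

end

end

end Fermat.Agent.H29
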