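import Mathlib
import Fermat.Agent.H29.Charts3
import Fermat.Agent.Descent.FG

set_option autoImplicit false
set_option linter.all false

/-! **Good reduction**: the two charts. -/

namespace Fermat.Agent.H29

open Polynomial IntermediateField ModularCurve IsLocalRing
open Fermat.Agent.Igusa Fermat.Agent.H28

attribute [-instance] HahnSeries.instModule
attribute [local instance 10000] instLS instIF instIF2

noncomputable section

variable {M : ℕ} [NeZero M] {A : ValuationSubring (AlgebraicClosure ℚ)} {ℓ : ℕ} (hℓ : ℓ.Prime)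
  (hA : A.LiesOverPrime ℓ) (hM : ¬ ℓ ∣ M)

include hℓ hA hM in
theorem liftProp_j_two (h2 : 2 ∣ M) (hl : ℓ ≠ 2) : LiftProp (modRed M A) (jZ M A) := by
  have ef : ((cZ hℓ hA hM h2 coord_f2 : (modRed M A).Z) : LaurentSeries (AlgebraicClosure ℚ)) =
    cc (AlgebraicClosure ℚ) f2 := rfl
  have eg : ((cZ hℓ hA hM h2 coord_g2 : (modRed M A).Z) : LaurentSeries (AlgebraicClosure ℚ)) =
    cc (AlgebraicClosure ℚ) g2 := rfl
  have ej : ((jZ M A : (modRed M A).Z) : LaurentSeries (AlgebraicClosure ℚ)) =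
    jqModC (AlgebraicClosure ℚ) := rfl
  have hf : jBar M * ((cZ hℓ hA hM h2 coord_f2 : (modRed M A).Z) : modularFunctionFieldBar M) ^ 2 =
      (((cZ hℓ hA hM h2 coord_f2 : (modRed M A).Z) : modularFunctionFieldBar M) + 256) ^ 3 :=
    rel_F _ _ (F2_j (AlgebraicClosure ℚ))
  have hg : (1 + 256 * ((cZ hℓ hA hM h2 coord_g2 : (modRed M A).Z) :
      modularFunctionFieldBar M)) ^ 3 =
      jBar M * ((cZ hℓ hA hM h2 coord_g2 : (modRed M A).Z) : modularFunctionFieldBar M) :=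
    rel_F _ _ (G2_j (k := AlgebraicClosure ℚ))
  refine LiftProp.loc (s := cZ hℓ hA hM h2 coord_f2) (s' := cZ hℓ hA hM h2 coord_g2)
    (liftProp_f2 hℓ hA hM h2 hl) ?_ ?_ ?_ (intOver_self _) 2 ?_
    (fun x hx => mod_mem hℓ hA hM (cZ hℓ hA hM h2 coord_f2).2 x hx)
  · rw [coe_jZ]; exact intOver_f2 hf
  · rw [coe_jZ]; exact intOver_g2 hℓ hA hl hg
  · apply Subtype.ext
    exact rel_F _ _ (FG2 (k := AlgebraicClosure ℚ))
  · have h1 : ((((cZ hℓ hA hM h2 coord_f2) ^ 2 * jZ M A : (modRed M A).Z)) :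
        modularFunctionFieldBar M) =
        (((cZ hℓ hA hM h2 coord_f2 : (modRed M A).Z) : modularFunctionFieldBar M) + 256) ^ 3 := by
      rw [← hf, mul_comm]; rfl
    rw [h1]
    exact intOver_pow (H28.IntOver.add (intOver_self _) (intOver_ofNat _ _)) 3


include hℓ hA hM in
theorem liftProp_j_three (h3 : 3 ∣ M) (hl : ℓ ≠ 3) : LiftProp (modRed M A) (jZ M A) := by
  have hf : jBar M * ((cZ hℓ hA hM h3 coord_f3 : (modRed M A).Z) : modularFunctionFieldBar M) ^ 3 =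
      (((cZ hℓ hA hM h3 coord_f3 : (modRed M A).Z) : modularFunctionFieldBar M) + 27) *
      (((cZ hℓ hA hM h3 coord_f3 : (modRed M A).Z) : modularFunctionFieldBar M) + 243) ^ 3 :=
    rel_F _ _ (F3_j (AlgebraicClosure ℚ))
  have hg : (1 + 27 * ((cZ hℓ hA hM h3 coord_g3 : (modRed M A).Z) :
      modularFunctionFieldBar M)) * (1 + 243 * ((cZ hℓ hA hM h3 coord_g3 : (modRed M A).Z) :
      modularFunctionFieldBar M)) ^ 3 =
      jBar M * ((cZ hℓ hA hM h3 coord_g3 : (modRed M A).Z) : modularFunctionFieldBar M) :=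
    rel_F _ _ (G3_j (k := AlgebraicClosure ℚ))
  refine LiftProp.loc (s := cZ hℓ hA hM h3 coord_f3) (s' := cZ hℓ hA hM h3 coord_g3)
    (liftProp_f3 hℓ hA hM h3 hl) ?_ ?_ ?_ (intOver_self _) 3 ?_
    (fun x hx => mod_mem hℓ hA hM (cZ hℓ hA hM h3 coord_f3).2 x hx)
  · rw [coe_jZ]; exact intOver_f3 hf
  · rw [coe_jZ]; exact intOver_g3 hℓ hA hl hg
  · apply Subtype.ext
    exact rel_F _ _ (FG3 (k := AlgebraicClosure ℚ))
  · have h1 : ((((cZ hℓ hA hM h3 coord_f3) ^ 3 * jZ M A : (modRed M A).Z)) :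
        modularFunctionFieldBar M) =
        (((cZ hℓ hA hM h3 coord_f3 : (modRed M A).Z) : modularFunctionFieldBar M) + 27) *
        (((cZ hℓ hA hM h3 coord_f3 : (modRed M A).Z) : modularFunctionFieldBar M) + 243) ^ 3 := by
      rw [← hf, mul_comm]; rfl
    rw [h1]
    exact H28.IntOver.mul (H28.IntOver.add (intOver_self _) (intOver_ofNat _ _))
      (intOver_pow (H28.IntOver.add (intOver_self _) (intOver_ofNat _ _)) 3)

include hℓ hA hM in
theorem liftProp_jinv_two (h2 : 2 ∣ M) (hl : ℓ ≠ 2) : LiftProp (modRed M A) (jinvZ M A) := by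
  have hu : (jBar M)⁻¹ = ((cZ hℓ hA hM h2 coord_u2 : (modRed M A).Z) : modularFunctionFieldBar M) *
      (1 - 256 * ((cZ hℓ hA hM h2 coord_u2 : (modRed M A).Z) : modularFunctionFieldBar M)) ^ 2 :=
    rel_F _ _ ((coe_jBar_inv_cc (M := M)).trans (U2_jinv (k := AlgebraicClosure ℚ)))
  refine LiftProp.loc (s := 1) (s' := 1)
    (liftProp_u2 hℓ hA hM h2 hl) ?_ ?_ (one_mul 1) ?_ 0 ?_
    (fun x hx => mod_mem hℓ hA hM (cZ hℓ hA hM h2 coord_u2).2 x hx)
  · rw [coe_jinvZ]; exact intOver_u2 hℓ hA hl hu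
  · exact intOver_one _
  · exact intOver_one _
  · have h1 : ((((1 : (modRed M A).Z)) ^ 0 * jinvZ M A : (modRed M A).Z) :
        modularFunctionFieldBar M) = (jBar M)⁻¹ := by
      rw [pow_zero, one_mul, coe_jinvZ]
    rw [h1, hu]
    exact H28.IntOver.mul (intOver_self _) (intOver_pow (intOver_sub (intOver_one _)
      (H28.IntOver.mul (intOver_ofNat _ _) (intOver_self _))) 2)

include hℓ hA hM in
theorem liftProp_jinv_three (h3 : 3 ∣ M) (hl : ℓ ≠ 3) : LiftProp (modRed M A) (jinvZ M A) := by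
  have hu : (jBar M)⁻¹ * (1 + 216 * ((cZ hℓ hA hM h3 coord_u3 : (modRed M A).Z) :
      modularFunctionFieldBar M)) ^ 3 =
      ((cZ hℓ hA hM h3 coord_u3 : (modRed M A).Z) : modularFunctionFieldBar M) *
      (1 - 27 * ((cZ hℓ hA hM h3 coord_u3 : (modRed M A).Z) : modularFunctionFieldBar M)) ^ 3 := by
    apply rel_F
    have h := U3_jinv (k := AlgebraicClosure ℚ)
    rw [← coe_jBar_inv_cc (M := M)] at h
    exact h
  have hw : (jBar M)⁻¹ * (1 - 216 * ((cZ hℓ hA hM h3 coord_w3 : (modRed M A).Z) :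
      modularFunctionFieldBar M)) =
      ((cZ hℓ hA hM h3 coord_w3 : (modRed M A).Z) : modularFunctionFieldBar M) *
      (1 - 243 * ((cZ hℓ hA hM h3 coord_w3 : (modRed M A).Z) : modularFunctionFieldBar M)) ^ 3 := by
    apply rel_F
    have h := W3_jinv (k := AlgebraicClosure ℚ)
    rw [← coe_jBar_inv_cc (M := M)] at h
    exact h
  refine LiftProp.loc (s := 1 + 216 * cZ hℓ hA hM h3 coord_u3)
    (s' := 1 - 216 * cZ hℓ hA hM h3 coord_w3)
    (liftProp_u3 hℓ hA hM h3) ?_ ?_ ?_ ?_ 3 ?_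
    (fun x hx => mod_mem hℓ hA hM (cZ hℓ hA hM h3 coord_u3).2 x hx)
  · rw [coe_jinvZ]; exact intOver_u3 hℓ hA hl hu
  · rw [coe_jinvZ]
    exact intOver_sub (intOver_one _) (H28.IntOver.mul (intOver_ofNat _ _)
      (intOver_w3 hℓ hA hl hw))
  · apply Subtype.ext
    exact rel_F _ _ (UW3 (k := AlgebraicClosure ℚ))
  · exact H28.IntOver.add (intOver_one _) (H28.IntOver.mul (intOver_ofNat _ _) (intOver_self _))
  · have h1 : ((((1 + 216 * cZ hℓ hA hM h3 coord_u3) ^ 3 * jinvZ M A : (modRed M A).Z)) :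
        modularFunctionFieldBar M) =
        ((cZ hℓ hA hM h3 coord_u3 : (modRed M A).Z) : modularFunctionFieldBar M) *
        (1 - 27 * ((cZ hℓ hA hM h3 coord_u3 : (modRed M A).Z) :
          modularFunctionFieldBar M)) ^ 3 := by
      rw [← hu, mul_comm]; rfl
    rw [h1]
    exact H28.IntOver.mul (intOver_self _) (intOver_pow (intOver_sub (intOver_one _)
      (H28.IntOver.mul (intOver_ofNat _ _) (intOver_self _))) 3)

include hℓ hA in
theorem liftProp_j (hyp : ¬ ℓ ∣ M ∧ ((2 ∣ M ∧ ℓ ≠ 2) ∨ (3 ∣ M ∧ ℓ ≠ 3))) :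
    LiftProp (modRed M A) (jZ M A) := by
  obtain ⟨hM, ⟨h, hl⟩ | ⟨h, hl⟩⟩ := hyp
  · exact liftProp_j_two hℓ hA hM h hl
  · exact liftProp_j_three hℓ hA hM h hl

include hℓ hA in
theorem liftProp_jinv (hyp : ¬ ℓ ∣ M ∧ ((2 ∣ M ∧ ℓ ≠ 2) ∨ (3 ∣ M ∧ ℓ ≠ 3))) :
    LiftProp (modRed M A) (jinvZ M A) := by
  obtain ⟨hM, ⟨h, hl⟩ | ⟨h, hl⟩⟩ := hyp
  · exact liftProp_jinv_two hℓ hA hM h hl
  · exact liftProp_jinv_three hℓ hA hM h hl

include hℓ hA in
/-- **(GR)** for the chart `j`. -/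
theorem isChart_j (hyp : ¬ ℓ ∣ M ∧ ((2 ∣ M ∧ ℓ ≠ 2) ∨ (3 ∣ M ∧ ℓ ≠ 3))) :
    (modRed M A).IsChart (jZ M A) where
  mem := fun x hx => mod_mem hℓ hA hyp.1 (jZ M A).2 x hx
  red_int := red_int (fun x hx => mod_mem hℓ hA hyp.1 (jZ M A).2 x hx)
  red_surj := fun y hy => by
    obtain ⟨z, hz, hzy⟩ := liftProp_j hℓ hA hyp y hy
    exact ⟨z, hz, hzy⟩
  prim := by
    obtain ⟨r, hr⟩ := coord_j.exists_gauss hℓ hA hyp.1 (bar_eq M) rfl (one_dvd M) (jZ M A)
      (by rw [cc_j]; rfl)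
    exact prim hr _
  fg := by
    haveI : Fact ℓ.Prime := ⟨hℓ⟩
    exact H26.fg_jBar A hA hyp.1

include hℓ hA in
/-- **(GR)** for the chart `1/j`. -/
theorem isChart_jinv (hyp : ¬ ℓ ∣ M ∧ ((2 ∣ M ∧ ℓ ≠ 2) ∨ (3 ∣ M ∧ ℓ ≠ 3))) :
    (modRed M A).IsChart (jinvZ M A) where
  mem := fun x hx => mod_mem hℓ hA hyp.1 (jinvZ M A).2 x hx
  red_int := red_int (fun x hx => mod_mem hℓ hA hyp.1 (jinvZ M A).2 x hx)
  red_surj := fun y hy => by
    obtain ⟨z, hz, hzy⟩ := liftProp_jinv hℓ hA hyp y hy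
    exact ⟨z, hz, hzy⟩
  prim := by
    obtain ⟨r, hr⟩ := coord_jinv.exists_gauss hℓ hA hyp.1 (bar_eq M) rfl (one_dvd M) (jinvZ M A)
      (coe_jBar_inv_cc (M := M))
    exact prim hr _
  fg := by
    haveI : Fact ℓ.Prime := ⟨hℓ⟩
    exact H26.fg_jBar_inv A hA hyp.1

end

end Fermat.Agent.H29
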