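import Mathlib

/-!
# Purity: normality of the special fibre (abstract form)

`B` is a domain in which non-zero elements are products of primes, `R` a finite free `B`-algebra,
`lam` a prime of `B` and `ρ : R → κF` the reduction.  If `R` is generically étale and étale at
all primes of `B` different from `lam` then it is étale everywhere, so that `ρ(R)` is integrally
closed.
-/

set_option autoImplicit false

namespace Fermat.Agent.H29

open Module

/-- In a reduced finite commutative algebra over a field of characteristic zero the trace form is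
nondegenerate. -/
theorem eq_zero_of_trace_mul_eq_zero {κ C : Type*} [Field κ] [CharZero κ] [CommRing C]
    [Algebra κ C] [FiniteDimensional κ C] [IsReduced C] (z : C)
    (h : ∀ c, Algebra.trace κ C (z * c) = 0) : z = 0 := by
  set W : Submodule κ C := LinearMap.range (LinearMap.mulLeft κ z) with hW
  have hstab : ∀ x ∈ W, LinearMap.mulLeft κ z x ∈ W := fun x _ => ⟨x, rfl⟩
  have hinj : Function.Injective ((LinearMap.mulLeft κ z).restrict hstab) := by
    rw [injective_iff_map_eq_zero]
    rintro ⟨x, hx⟩ h0
    obtain ⟨y, rfl⟩ := hx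
    have h1 : z * (z * y) = 0 := by
      have := congrArg Subtype.val h0
      simpa using this
    have h2 : (z * y) ^ 2 = 0 := by
      calc (z * y) ^ 2 = (z * (z * y)) * y := by ring
        _ = 0 := by rw [h1, zero_mul]
    have h3 : z * y = 0 := pow_eq_zero_iff two_ne_zero |>.mp h2
    apply Subtype.ext
    simpa using h3
  have hsurj := LinearMap.surjective_of_injective hinj
  have hzW : z ∈ W := ⟨1, by simp⟩
  obtain ⟨⟨y, hy⟩, hyz⟩ := hsurj ⟨z, hzW⟩
  have hyz' : z * y = z := by
    have := congrArg Subtype.val hyz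
    simpa using this
  obtain ⟨c, rfl⟩ := hy
  simp only [LinearMap.mulLeft_apply] at hyz'
  have hid : IsIdempotentElem (LinearMap.mulLeft κ (z * c)) := by
    show (LinearMap.mulLeft κ (z * c)) * (LinearMap.mulLeft κ (z * c)) = _
    ext x
    simp only [Module.End.mul_apply, LinearMap.mulLeft_apply]
    calc z * c * (z * c * x) = (z * (z * c)) * (c * x) := by ring
      _ = z * c * x := by rw [hyz']; ring
  have htr : LinearMap.trace κ C (LinearMap.mulLeft κ (z * c)) = 0 := h c
  have h0 := (LinearMap.IsIdempotentElem.trace_eq_zero_iff hid).mp htr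
  have h1 : z * c = 0 := by
    have := LinearMap.congr_fun h0 1
    simpa using this
  rw [← hyz', h1, mul_zero]

section Prime

variable {B R : Type*} [CommRing B] [CommRing R] [Algebra B R]

/-- étaleness at a prime `g` of residue characteristic zero from reducedness modulo `g`. -/
theorem dvd_of_dvd_trace [Module.Free B R] [Module.Finite B R] (g : B) (hg : Prime g)
    (hchar : ∀ n : ℕ, n ≠ 0 → ¬ g ∣ (n : B))
    (hred : ∀ z : R, algebraMap B R g ∣ z * z → algebraMap B R g ∣ z)
    (z : R) (h : ∀ r, g ∣ Algebra.trace B R (z * r)) : algebraMap B R g ∣ z := by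
  classical
  set I : Ideal B := Ideal.span {g} with hI
  have hprime : I.IsPrime := (Ideal.span_singleton_prime hg.ne_zero).mpr hg
  let D := B ⧸ I
  have : IsDomain D := Ideal.Quotient.isDomain I
  let κ := FractionRing D
  have : CharZero κ := by
    refine charZero_of_inj_zero ?_
    intro n hn
    by_contra hne
    apply hchar n hne
    have h1 : algebraMap D κ (n : D) = 0 := by simpa using hn
    have h2 : (n : D) = 0 := by
      apply IsFractionRing.injective D κ
      rw [h1, map_zero]
    have h3 : (Ideal.Quotient.mk I (n : B)) = 0 := by simpa using h2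
    rw [Ideal.Quotient.eq_zero_iff_mem, hI, Ideal.mem_span_singleton] at h3
    exact h3
  have hker : ∀ x : B, algebraMap B κ x = 0 ↔ g ∣ x := by
    intro x
    rw [IsScalarTower.algebraMap_apply B D κ, ← map_zero (algebraMap D κ),
      (IsFractionRing.injective D κ).eq_iff]
    show Ideal.Quotient.mk I x = 0 ↔ _
    rw [Ideal.Quotient.eq_zero_iff_mem, hI, Ideal.mem_span_singleton]
  let C := TensorProduct B κ R
  let b := Module.Free.chooseBasis B R
  let bC : Basis _ κ C := Algebra.TensorProduct.basis κ b
  -- `1 ⊗ r = 0` iff `g ∣ r`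
  have htens : ∀ r : R, ((1 : κ) ⊗ₜ[B] r : C) = 0 ↔ algebraMap B R g ∣ r := by
    intro r
    constructor
    · intro h0
      have h1 : ∀ i, g ∣ b.repr r i := by
        intro i
        rw [← hker]
        have h2 : bC.repr ((1 : κ) ⊗ₜ[B] r : C) i = 0 := by rw [h0]; simp
        rw [Algebra.TensorProduct.basis_repr_tmul] at h2
        simpa using h2
      choose f hf using h1
      refine ⟨∑ i, f i • b i, ?_⟩
      rw [← b.sum_repr r, Finset.mul_sum]
      refine Finset.sum_congr rfl fun i _ => ?_
      rw [hf i, ← smul_smul, Algebra.smul_def g]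
    · rintro ⟨w, rfl⟩
      rw [← Algebra.smul_def, ← TensorProduct.smul_tmul, Algebra.smul_def, mul_one,
        (hker g).mpr dvd_rfl, TensorProduct.zero_tmul]
  -- every element of `C` is a fraction
  have hfrac : ∀ c : C, ∃ s : B, ¬ g ∣ s ∧ ∃ r : R, algebraMap B κ s • c = (1 : κ) ⊗ₜ[B] r := by
    intro c
    have hs : ∃ s : nonZeroDivisors D, ∀ i ∈ (Finset.univ : Finset (Module.Free.ChooseBasisIndex B R)),
        IsLocalization.IsInteger D ((s : D) • (bC.repr c i)) :=
      IsLocalization.exist_integer_multiples (nonZeroDivisors D) Finset.univ _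
    obtain ⟨⟨s, hs0⟩, hs⟩ := hs
    obtain ⟨s, rfl⟩ := Ideal.Quotient.mk_surjective s
    have hsg : ¬ g ∣ s := by
      intro hgs
      have : (Ideal.Quotient.mk I s) = 0 := by
        rw [Ideal.Quotient.eq_zero_iff_mem, hI, Ideal.mem_span_singleton]; exact hgs
      exact nonZeroDivisors.ne_zero hs0 this
    have hs' : ∀ i, ∃ t : B, algebraMap B κ t = algebraMap B κ s * bC.repr c i := by
      intro i
      obtain ⟨t, ht⟩ := hs i (Finset.mem_univ i)
      obtain ⟨t, rfl⟩ := Ideal.Quotient.mk_surjective t
      refine ⟨t, ?_⟩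
      rw [IsScalarTower.algebraMap_apply B D κ, IsScalarTower.algebraMap_apply B D κ]
      rw [Algebra.smul_def] at ht
      exact ht
    choose t ht using hs'
    refine ⟨s, hsg, ∑ i, t i • b i, ?_⟩
    rw [TensorProduct.tmul_sum]
    conv_lhs => rw [← bC.sum_repr c, Finset.smul_sum]
    refine Finset.sum_congr rfl fun i _ => ?_
    have hb : bC i = (1 : κ) ⊗ₜ[B] b i := Algebra.TensorProduct.basis_apply b i
    rw [smul_smul, ← ht i, hb, TensorProduct.smul_tmul', ← TensorProduct.smul_tmul,
      Algebra.smul_def (t i) (1 : κ), smul_eq_mul]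
  have : IsReduced C := by
    refine ⟨fun c hc => ?_⟩
    have key : ∀ c : C, c * c = 0 → c = 0 := by
      intro c hc
      obtain ⟨s, hs, r, hr⟩ := hfrac c
      have h1 : ((1 : κ) ⊗ₜ[B] (r * r) : C) = 0 := by
        have : ((1 : κ) ⊗ₜ[B] (r * r) : C) = ((1 : κ) ⊗ₜ[B] r) * ((1 : κ) ⊗ₜ[B] r) := by
          rw [Algebra.TensorProduct.tmul_mul_tmul, one_mul]
        rw [this, ← hr, smul_mul_smul_comm, hc, smul_zero]
      have h2 := (htens _).mp h1
      have h3 := (htens _).mpr (hred r h2)
      rw [← hr] at h3
      exact (smul_eq_zero.mp h3).resolve_left (fun h => hs ((hker s).mp h))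
    obtain ⟨n, hn⟩ := hc
    induction n using Nat.strong_induction_on with
    | _ n ih =>
      rcases Nat.lt_or_ge n 2 with h2 | h2
      · interval_cases n
        · have h10 : (1 : C) = 0 := by simpa using hn
          calc c = c * 1 := (mul_one c).symm
            _ = 0 := by rw [h10, mul_zero]
        · simpa using hn
      · have h4 : c ^ (n - 1) = 0 := by
          apply key
          rw [← pow_add]
          have : n - 1 + (n - 1) = n + (n - 2) := by omega
          rw [this, pow_add, hn, zero_mul]
        exact ih (n - 1) (by omega) h4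
  have htrace : ∀ r : R, Algebra.trace κ C ((1 : κ) ⊗ₜ[B] r) = algebraMap B κ (Algebra.trace B R r) := by
    intro r
    have : LinearMap.mulLeft κ ((1 : κ) ⊗ₜ[B] r : C) = (LinearMap.mulLeft B r).baseChange κ := by
      ext x
      simp
    rw [Algebra.trace_apply, Algebra.trace_apply]
    have h5 : (Algebra.lmul κ C) ((1 : κ) ⊗ₜ[B] r) = (LinearMap.mulLeft B r).baseChange κ := this
    rw [h5, LinearMap.trace_baseChange]
    rfl
  rw [← htens]
  apply eq_zero_of_trace_mul_eq_zero (κ := κ)
  intro c
  obtain ⟨s, hs, r, hr⟩ := hfrac c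
  have h1 : algebraMap B κ s • Algebra.trace κ C (((1 : κ) ⊗ₜ[B] z) * c) = 0 := by
    rw [← map_smul, ← mul_smul_comm, hr, Algebra.TensorProduct.tmul_mul_tmul, one_mul, htrace,
      hker]
    exact h r
  rw [smul_eq_zero] at h1
  exact h1.resolve_left (fun h => hs ((hker s).mp h))

variable (R) in
/-- étaleness at all primes implies: an element whose trace functional is divisible by `c` is
divisible by `c`. -/
theorem dvd_of_dvd_trace_all [IsDomain B] [UniqueFactorizationMonoid B]
    (hP : ∀ g : B, Prime g → ∀ z : R, (∀ r, g ∣ Algebra.trace B R (z * r)) →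
      algebraMap B R g ∣ z) (c : B) (hc : c ≠ 0) (z : R)
    (h : ∀ r, c ∣ Algebra.trace B R (z * r)) : algebraMap B R c ∣ z := by
  induction c using UniqueFactorizationMonoid.induction_on_prime generalizing z with
  | h₁ => exact absurd rfl hc
  | h₂ u hu => exact (hu.map (algebraMap B R)).dvd
  | h₃ c g hc0 hg ih =>
    obtain ⟨w, rfl⟩ := hP g hg z fun r => (dvd_mul_right g c).trans (h r)
    rw [map_mul]
    refine mul_dvd_mul_left _ (ih hc0 w fun r => ?_)
    have h1 := h r
    rw [mul_assoc, ← Algebra.smul_def, map_smul, smul_eq_mul] at h1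
    exact (mul_dvd_mul_iff_left hg.ne_zero).mp h1

end Prime

section Main

variable {B R : Type*} [CommRing B] [CommRing R]
  [Algebra B R] {ι : Type*} [Fintype ι] [DecidableEq ι]
  {κE κF : Type*} [Field κE] [Field κF] [Algebra κE κF]
  [Algebra B κE] [Algebra B κF] [IsScalarTower B κE κF]

/-- reduction is compatible with traces -/
theorem trace_reduction (b : Basis ι B R) (ρ : R →ₐ[B] κF) (e : Basis ι κE κF)
    (he : ∀ i, e i = ρ (b i)) (z : R) :
    Algebra.trace κE κF (ρ z) = algebraMap B κE (Algebra.trace B R z) := by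
  rw [Algebra.trace_eq_matrix_trace b, Algebra.trace_eq_matrix_trace e, Matrix.trace, Matrix.trace,
    map_sum]
  refine Finset.sum_congr rfl fun i _ => ?_
  simp only [Matrix.diag_apply, Algebra.leftMulMatrix_eq_repr_mul]
  have h : ρ (z * b i) = ∑ j, algebraMap B κE (b.repr (z * b i) j) • e j := by
    conv_lhs => rw [← b.sum_repr (z * b i), map_sum]
    refine Finset.sum_congr rfl fun j _ => ?_
    rw [map_smul, he j, algebraMap_smul]
  rw [he i, ← map_mul, h, e.repr_sum_self]

/-- **Purity**: the special fibre is integrally closed. -/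
theorem exists_reduction_of_isIntegral [IsDomain B] [UniqueFactorizationMonoid B]
    [FiniteDimensional κE κF] [Algebra.IsSeparable κE κF]
    (b : Basis ι B R) (lam : B)
    (hφ0 : algebraMap B κE lam = 0)
    (ρ : R →ₐ[B] κF) (hρ : ∀ z : R, ρ z = 0 → algebraMap B R lam ∣ z)
    (e : Basis ι κE κF) (he : ∀ i, e i = ρ (b i))
    (hchar : ∀ g : B, Prime g → ¬ Associated g lam → ∀ n : ℕ, n ≠ 0 → ¬ g ∣ (n : B))
    (hred : ∀ g : B, Prime g → ¬ Associated g lam → ∀ z : R, algebraMap B R g ∣ z * z →
      algebraMap B R g ∣ z)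
    (hV : ∀ x : κE, IsIntegral B x → ∃ v : B, algebraMap B κE v = x)
    (y : κF) (hy : IsIntegral B y) : ∃ r : R, ρ r = y := by
  have : Module.Finite B R := Module.Finite.of_basis b
  have : Module.Free B R := Module.Free.of_basis b
  -- all primes are good
  have hP : ∀ g : B, Prime g → ∀ z : R, (∀ r, g ∣ Algebra.trace B R (z * r)) →
      algebraMap B R g ∣ z := by
    intro g hg z hz
    by_cases hgl : Associated g lam
    · have h1 : ρ z = 0 := by
        refine (traceForm_nondegenerate κE κF).1 _ fun w => ?_
        rw [Algebra.traceForm_apply]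
        rw [← e.sum_repr w, Finset.mul_sum, map_sum]
        refine Finset.sum_eq_zero fun i _ => ?_
        rw [mul_smul_comm, map_smul, he i, ← map_mul, trace_reduction b ρ e he]
        have h2 : algebraMap B κE (Algebra.trace B R (z * b i)) = 0 := by
          obtain ⟨t, ht⟩ := hgl.symm.dvd.trans (hz (b i))
          rw [ht, map_mul, hφ0, zero_mul]
        rw [h2, smul_zero]
      obtain ⟨u, hu⟩ := hρ z h1
      obtain ⟨t, ht⟩ := hgl.dvd
      rw [hu, ht, map_mul, mul_assoc]
      exact dvd_mul_right _ _
    · exact dvd_of_dvd_trace g hg (hchar g hg hgl) (hred g hg hgl) z hz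
  -- the discriminant is nonzero
  set T : Matrix ι ι B := Algebra.traceMatrix B b with hT
  have hT0 : T.det ≠ 0 := by
    intro h0
    have h1 : (Algebra.traceMatrix κE e).det = 0 := by
      have : Algebra.traceMatrix κE e = (algebraMap B κE).mapMatrix T := by
        ext i j
        simp only [Algebra.traceMatrix_apply, Algebra.traceForm_apply, RingHom.mapMatrix_apply,
          Matrix.map_apply, hT]
        rw [he i, he j, ← map_mul, trace_reduction b ρ e he]
      rw [this, ← RingHom.map_det, h0, map_zero]
    have h2 := det_traceForm_ne_zero e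
    rw [← Algebra.traceMatrix_of_basis] at h2
    exact h2 h1
  -- the dual basis
  have hdual : ∀ i, ∃ d : R, ∀ j, Algebra.trace B R (d * b j) = if i = j then 1 else 0 := by
    intro i
    set d' : R := ∑ j, T.adjugate i j • b j with hd'
    have h1 : ∀ k, Algebra.trace B R (d' * b k) = T.det * if i = k then 1 else 0 := by
      intro k
      rw [hd', Finset.sum_mul, map_sum]
      have h2 : ∀ j, Algebra.trace B R (T.adjugate i j • b j * b k) = T.adjugate i j * T j k := by
        intro j
        rw [smul_mul_assoc, map_smul, smul_eq_mul]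
        rfl
      simp_rw [h2]
      have h3 := congrFun (congrFun (Matrix.adjugate_mul T) i) k
      rw [Matrix.mul_apply] at h3
      rw [h3, Matrix.smul_apply, Matrix.one_apply, smul_eq_mul]
    obtain ⟨d, hd⟩ := dvd_of_dvd_trace_all R hP T.det hT0 d' (fun r => by
      rw [← b.sum_repr r, Finset.mul_sum, map_sum]
      refine Finset.dvd_sum fun j _ => ?_
      rw [mul_smul_comm, map_smul, h1 j, smul_eq_mul]
      exact (dvd_mul_right _ _).mul_left _)
    refine ⟨d, fun j => ?_⟩
    have h4 := h1 j
    rw [hd, mul_assoc, ← Algebra.smul_def, map_smul, smul_eq_mul] at h4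
    exact mul_left_cancel₀ hT0 h4
  choose d hd using hdual
  have hdr : ∀ i j, Algebra.trace κE κF (e j * ρ (d i)) = if i = j then 1 else 0 := by
    intro i j
    rw [he j, mul_comm, ← map_mul, trace_reduction b ρ e he, hd i j]
    split_ifs <;> simp
  -- coordinates of `y`
  have hcoord : ∀ i, e.repr y i = Algebra.trace κE κF (y * ρ (d i)) := by
    intro i
    conv_rhs => rw [← e.sum_repr y, Finset.sum_mul, map_sum]
    simp_rw [smul_mul_assoc, map_smul, hdr i, smul_eq_mul, mul_ite, mul_one, mul_zero]
    simp
  have hint : ∀ i, ∃ v : B, algebraMap B κE v = e.repr y i := by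
    intro i
    apply hV
    rw [hcoord i]
    apply Algebra.isIntegral_trace
    refine hy.mul ?_
    exact (Algebra.IsIntegral.isIntegral (R := B) (d i)).map ρ
  choose v hv using hint
  refine ⟨∑ i, v i • b i, ?_⟩
  rw [map_sum]
  conv_rhs => rw [← e.sum_repr y]
  refine Finset.sum_congr rfl fun i _ => ?_
  rw [map_smul, ← hv i, he i, algebraMap_smul]

end Main

end Fermat.Agent.H29
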