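import Mathlib
import Fermat.Agent.H29.Purity

set_option autoImplicit false

namespace Fermat.Agent.H29

open Module

/-- quotient of fractions of a PIR -/
theorem isPrincipalIdealRing_of_frac {V0 V : Type*} [CommRing V0] [CommRing V]
    [IsPrincipalIdealRing V0] (f : V0 →+* V)
    (h : ∀ v : V, ∃ w : V, IsUnit w ∧ ∃ a : V0, w * v = f a) : IsPrincipalIdealRing V := by
  refine ⟨fun J => ?_⟩
  obtain ⟨a, ha⟩ := (IsPrincipalIdealRing.principal (J.comap f)).principal
  refine ⟨f a, ?_⟩
  apply le_antisymm
  · intro v hv
    obtain ⟨w, hw, b, hb⟩ := h v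
    have h1 : b ∈ J.comap f := by
      show f b ∈ J
      rw [← hb]; exact J.mul_mem_left _ hv
    rw [ha, Submodule.mem_span_singleton] at h1
    obtain ⟨c, rfl⟩ := h1
    rw [Submodule.mem_span_singleton]
    obtain ⟨w', hw'⟩ := hw.exists_left_inv
    refine ⟨w' * f c, ?_⟩
    rw [smul_eq_mul, mul_assoc, ← map_mul, ← smul_eq_mul c a, ← hb, ← mul_assoc, hw', one_mul]
  · rw [Submodule.span_singleton_le_iff_mem]
    have : a ∈ J.comap f := by
      rw [ha]; exact Submodule.mem_span_singleton_self a
    exact this

section Glob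

variable {P R : Type*} [CommRing P] [IsDomain P] [UniqueFactorizationMonoid P]
  [CommRing R] [Algebra P R]
  (T : Submonoid P) (B RB : Type*) [CommRing B] [Algebra P B] [CommRing RB] [Algebra R RB]
  [Algebra B RB] [Algebra P RB]
  [IsScalarTower P B RB] [IsScalarTower P R RB] [IsLocalization T B]
  [IsLocalization (Algebra.algebraMapSubmonoid R T) RB]

include T in
/-- primes of a localisation of a UFD -/
theorem exists_prime_associated (h0 : (0 : P) ∉ T) (g : B) (hg : Prime g) :
    ∃ p : P, Prime p ∧ Associated (algebraMap P B p) g := by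
  have hinj : Function.Injective (algebraMap P B) :=
    IsLocalization.injective B (le_nonZeroDivisors_of_noZeroDivisors h0)
  have : IsDomain B := IsLocalization.isDomain_of_le_nonZeroDivisors B
    (le_nonZeroDivisors_of_noZeroDivisors h0)
  obtain ⟨⟨a, u⟩, hau⟩ := IsLocalization.surj T g
  have hu : IsUnit (algebraMap P B u) := IsLocalization.map_units B u
  have hga : Associated (algebraMap P B a) g := by
    simp only at hau
    rw [← hau]
    exact associated_mul_unit_left _ _ hu
  have key : ∀ a : P, a ≠ 0 → g ∣ algebraMap P B a →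
      ∃ p : P, Prime p ∧ g ∣ algebraMap P B p := by
    intro a ha0
    induction a using UniqueFactorizationMonoid.induction_on_prime with
    | h₁ => exact absurd rfl ha0
    | h₂ u hu => intro h; exact absurd (isUnit_of_dvd_unit h (hu.map _)) hg.not_isUnit
    | h₃ c p hc0 hp ih =>
      intro h
      rw [map_mul] at h
      rcases hg.dvd_or_dvd h with h | h
      · exact ⟨p, hp, h⟩
      · exact ih hc0 h
  have ha0 : a ≠ 0 := by
    rintro rfl
    rw [map_zero] at hga
    exact hg.ne_zero ((associated_zero_iff_eq_zero g).mp hga.symm)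
  obtain ⟨p, hp, hgp⟩ := key a ha0 hga.symm.dvd
  refine ⟨p, hp, ?_⟩
  have hnu : ¬ IsUnit (algebraMap P B p) := fun h => hg.not_isUnit (isUnit_of_dvd_unit hgp h)
  have hpp : Prime (algebraMap P B p) := by
    refine (IsLocalization.toLocalizationMap T B).map_prime hp ?_ hnu
    intro h
    apply hp.ne_zero
    apply hinj
    rw [map_zero]; exact h
  exact (hg.dvd_prime_iff_associated hpp).mp hgp |>.symm

variable {E F κE κF : Type*} [Field E] [Field F] [Field κE] [Field κF]
  [Algebra P E] [IsFractionRing P E] [Algebra E F] [Algebra P F] [IsScalarTower P E F]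
  [Algebra R F] [IsScalarTower P R F]
  [Algebra P κE] [Algebra κE κF] [Algebra P κF] [IsScalarTower P κE κF]

include T B RB in
theorem purity_aux [IsDomain R] [Module.Finite P R] [FaithfulSMul R F]
    [FiniteDimensional E F]
    [FiniteDimensional κE κF] [Algebra.IsSeparable κE κF]
    (lam : P) (hlam : Prime lam) (hker : ∀ x : P, algebraMap P κE x = 0 ↔ lam ∣ x)
    (hκE : ∀ x : κE, ∃ a b : P, algebraMap P κE b ≠ 0 ∧
      x = algebraMap P κE a / algebraMap P κE b)
    (hPID : IsPrincipalIdealRing (algebraMap P κE).range)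
    (ρ : R →ₐ[P] κF) (hρ : ∀ z, ρ z = 0 → algebraMap P R lam ∣ z)
    (hdim : Module.finrank E F = Module.finrank κE κF)
    (hfrac : ∀ x : F, ∃ p : P, p ≠ 0 ∧ ∃ r : R, algebraMap P F p * x = algebraMap R F r)
    (hT : ∀ u ∈ T, ¬ lam ∣ u) (hTsat : ∀ u ∈ T, ∀ x, u + lam * x ∈ T)
    (hchar : ∀ g : P, Prime g → ¬ Associated g lam → (∀ u ∈ T, ¬ g ∣ u) →
      ∀ n : ℕ, n ≠ 0 → ¬ g ∣ (n : P))
    (hred : ∀ g : P, Prime g → ¬ Associated g lam → (∀ u ∈ T, ¬ g ∣ u) →
      ∀ z : R, algebraMap P R g ∣ z * z → algebraMap P R g ∣ z)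
    (y : κF) (hy : IsIntegral P y) : ∃ u ∈ T, ∃ r : R, ρ r = algebraMap P κF u * y := by
  classical
  have h0T : (0 : P) ∉ T := fun h => hT 0 h (dvd_zero lam)
  have hT0 : T ≤ nonZeroDivisors P := le_nonZeroDivisors_of_noZeroDivisors h0T
  have hinjPB : Function.Injective (algebraMap P B) := IsLocalization.injective B hT0
  have hinjRF : Function.Injective (algebraMap R F) := FaithfulSMul.algebraMap_injective R F
  have hinjPE : Function.Injective (algebraMap P E) := IsFractionRing.injective P E
  have hinjPF : Function.Injective (algebraMap P F) := by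
    rw [IsScalarTower.algebraMap_eq P E F]
    exact (algebraMap E F).injective.comp hinjPE
  have hdomB : IsDomain B := IsLocalization.isDomain_of_le_nonZeroDivisors B hT0
  have hufd : UniqueFactorizationMonoid B := UniqueFactorizationMonoid.of_isLocalization T B
  have hfinRB : Module.Finite B RB := Module.Finite.of_isLocalization P R T
  -- structures on `κE`, `κF`, `E`, `F`
  have huκE : ∀ u : T, IsUnit (algebraMap P κE u) := by
    intro u
    rw [isUnit_iff_ne_zero, Ne, hker]
    exact hT u u.2
  have huE : ∀ u : T, IsUnit (algebraMap P E u) := by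
    intro u
    rw [isUnit_iff_ne_zero, Ne, map_eq_zero_iff _ hinjPE]
    rintro h
    exact h0T (h ▸ u.2)
  let : Algebra B κE := (IsLocalization.lift (M := T) (g := algebraMap P κE) huκE).toAlgebra
  let : Algebra B κF := ((algebraMap κE κF).comp (algebraMap B κE)).toAlgebra
  have : IsScalarTower B κE κF := IsScalarTower.of_algebraMap_eq (fun _ => rfl)
  have hBκE : ∀ x : P, algebraMap B κE (algebraMap P B x) = algebraMap P κE x := fun x =>
    IsLocalization.lift_eq huκE x
  have hBκF : ∀ x : P, algebraMap B κF (algebraMap P B x) = algebraMap P κF x := fun x => by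
    rw [IsScalarTower.algebraMap_apply B κE κF, hBκE, ← IsScalarTower.algebraMap_apply P κE κF]
  let : Algebra B E := (IsLocalization.lift (M := T) (g := algebraMap P E) huE).toAlgebra
  let : Algebra B F := ((algebraMap E F).comp (algebraMap B E)).toAlgebra
  have : IsScalarTower B E F := IsScalarTower.of_algebraMap_eq (fun _ => rfl)
  have hBE : ∀ x : P, algebraMap B E (algebraMap P B x) = algebraMap P E x := fun x =>
    IsLocalization.lift_eq huE x
  have hBF : ∀ x : P, algebraMap B F (algebraMap P B x) = algebraMap P F x := fun x => by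
    rw [IsScalarTower.algebraMap_apply B E F, hBE, ← IsScalarTower.algebraMap_apply P E F]
  have hinjBE : Function.Injective (algebraMap B E) := by
    rw [injective_iff_map_eq_zero]
    intro b hb
    obtain ⟨⟨a, u⟩, hau⟩ := IsLocalization.surj T b
    have h1 : algebraMap P E a = 0 := by
      rw [← hBE, ← hau, map_mul, hb, zero_mul]
    have h2 : a = 0 := hinjPE (by rw [h1, map_zero])
    simp only [h2, map_zero] at hau
    exact (IsLocalization.map_units B u).mul_left_eq_zero.mp hau
  -- fractions in `RB`
  have hsurj : ∀ z : RB, ∃ u ∈ T, ∃ r : R, algebraMap P RB u * z = algebraMap R RB r := by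
    intro z
    obtain ⟨⟨r, ⟨_, u, hu, rfl⟩⟩, h⟩ :=
      IsLocalization.surj (Algebra.algebraMapSubmonoid R T) z
    refine ⟨u, hu, r, ?_⟩
    rw [mul_comm, IsScalarTower.algebraMap_apply P R RB]
    exact h
  have huRB : ∀ u ∈ T, IsUnit (algebraMap P RB u) := by
    intro u hu
    rw [IsScalarTower.algebraMap_apply P B RB]
    exact (IsLocalization.map_units B (⟨u, hu⟩ : T)).map _
  -- reduction and embedding of `RB`
  have huρ : ∀ u : Algebra.algebraMapSubmonoid R T, IsUnit (ρ u) := by
    rintro ⟨_, u, hu, rfl⟩
    show IsUnit (ρ (algebraMap P R u))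
    rw [AlgHom.commutes, isUnit_iff_ne_zero, IsScalarTower.algebraMap_apply P κE κF, Ne,
      map_eq_zero_iff _ (algebraMap κE κF).injective, hker]
    exact hT u hu
  have huF : ∀ u : Algebra.algebraMapSubmonoid R T, IsUnit (algebraMap R F u) := by
    rintro ⟨_, u, hu, rfl⟩
    show IsUnit (algebraMap R F (algebraMap P R u))
    rw [← IsScalarTower.algebraMap_apply P R F, isUnit_iff_ne_zero, Ne,
      map_eq_zero_iff _ hinjPF]
    rintro rfl
    exact h0T hu
  let ρB0 : RB →+* κF := IsLocalization.lift (M := Algebra.algebraMapSubmonoid R T)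
    (g := (ρ : R →+* κF)) huρ
  have hρB0 : ∀ r : R, ρB0 (algebraMap R RB r) = ρ r := fun r => IsLocalization.lift_eq huρ r
  have hρB0B : ∀ b : B, ρB0 (algebraMap B RB b) = algebraMap B κF b := by
    intro b
    have : (ρB0.comp (algebraMap B RB)) = algebraMap B κF := by
      apply IsLocalization.ringHom_ext T
      ext x
      simp only [RingHom.comp_apply]
      rw [← IsScalarTower.algebraMap_apply P B RB, IsScalarTower.algebraMap_apply P R RB, hρB0,
        AlgHom.commutes, hBκF]
    exact RingHom.congr_fun this b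
  let ρB : RB →ₐ[B] κF := { ρB0 with commutes' := hρB0B }
  have hρB : ∀ r : R, ρB (algebraMap R RB r) = ρ r := hρB0
  let φ0 : RB →+* F := IsLocalization.lift (M := Algebra.algebraMapSubmonoid R T)
    (g := (algebraMap R F)) huF
  have hφ0 : ∀ r : R, φ0 (algebraMap R RB r) = algebraMap R F r := fun r =>
    IsLocalization.lift_eq huF r
  have hφ0B : ∀ b : B, φ0 (algebraMap B RB b) = algebraMap B F b := by
    intro b
    have : (φ0.comp (algebraMap B RB)) = algebraMap B F := by
      apply IsLocalization.ringHom_ext T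
      ext x
      simp only [RingHom.comp_apply]
      rw [← IsScalarTower.algebraMap_apply P B RB, IsScalarTower.algebraMap_apply P R RB, hφ0,
        ← IsScalarTower.algebraMap_apply P R F, hBF]
    exact RingHom.congr_fun this b
  let φF : RB →ₐ[B] F := { φ0 with commutes' := hφ0B }
  have hφF : ∀ r : R, φF (algebraMap R RB r) = algebraMap R F r := hφ0
  have hφinj : Function.Injective φF := by
    rw [injective_iff_map_eq_zero]
    intro z hz
    obtain ⟨u, hu, r, hr⟩ := hsurj z
    have h1 : algebraMap R F r = 0 := by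
      rw [← hφF, ← hr, map_mul, hz, mul_zero]
    have h2 : r = 0 := hinjRF (by rw [h1, map_zero])
    rw [h2, map_zero] at hr
    exact (huRB u hu).mul_right_eq_zero.mp hr
  -- kernel of the reduction
  have hρBker : ∀ z : RB, ρB z = 0 → algebraMap B RB (algebraMap P B lam) ∣ z := by
    intro z hz
    obtain ⟨u, hu, r, hr⟩ := hsurj z
    have h1 : ρ r = 0 := by rw [← hρB, ← hr, map_mul, hz, mul_zero]
    obtain ⟨w, hw⟩ := hρ r h1
    have h2 : algebraMap P RB lam ∣ algebraMap P RB u * z := by
      rw [hr, hw, map_mul, ← IsScalarTower.algebraMap_apply]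
      exact dvd_mul_right _ _
    rw [← IsScalarTower.algebraMap_apply P B RB]
    exact (huRB u hu).dvd_mul_left.mp h2
  -- the PID `V`
  let V : Subring κE := (algebraMap B κE).range
  have hV0 : ∀ x : P, algebraMap P κE x ∈ V := fun x => ⟨algebraMap P B x, hBκE x⟩
  let fV : (algebraMap P κE).range →+* V := Subring.inclusion (by
    rintro _ ⟨x, rfl⟩; exact hV0 x)
  have hVPID : IsPrincipalIdealRing V := by
    apply isPrincipalIdealRing_of_frac fV
    rintro ⟨_, b, rfl⟩
    obtain ⟨⟨a, u⟩, hau⟩ := IsLocalization.surj T b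
    refine ⟨⟨algebraMap P κE u, hV0 u⟩, ?_, ⟨algebraMap P κE a, a, rfl⟩, ?_⟩
    · have := (IsLocalization.map_units B u).map ((algebraMap B κE).rangeRestrict)
      convert this using 1
      apply Subtype.ext
      exact (hBκE u).symm
    · apply Subtype.ext
      show algebraMap P κE u * algebraMap B κE b = algebraMap P κE a
      rw [← hBκE, ← hBκE, ← map_mul, mul_comm]
      exact congrArg _ hau
  have hVfrac : IsFractionRing V κE := by
    refine IsFractionRing.of_field V κE fun z => ?_
    obtain ⟨a, b, hb, rfl⟩ := hκE z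
    exact ⟨⟨_, hV0 a⟩, ⟨_, hV0 b⟩, rfl⟩
  -- the image of the reduction as a `V`-module
  let N : Submodule V κF :=
    { carrier := Set.range ρB
      add_mem' := by
        rintro _ _ ⟨a, rfl⟩ ⟨b, rfl⟩; exact ⟨a + b, map_add _ _ _⟩
      zero_mem' := ⟨0, map_zero _⟩
      smul_mem' := by
        rintro ⟨_, b, rfl⟩ _ ⟨a, rfl⟩
        refine ⟨b • a, ?_⟩
        rw [map_smul]
        show b • ρB a = algebraMap B κE b • ρB a
        rw [algebraMap_smul] }
  have hNfin : Module.Finite V N := by
    obtain ⟨S, hS⟩ := hfinRB.fg_top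
    rw [Module.Finite.iff_fg]
    refine ⟨S.image ρB, ?_⟩
    apply le_antisymm
    · rw [Submodule.span_le]
      intro x hx
      rw [Finset.coe_image] at hx
      obtain ⟨s, -, rfl⟩ := hx
      exact ⟨s, rfl⟩
    · rintro _ ⟨z, rfl⟩
      have hz : z ∈ Submodule.span B (S : Set RB) := by rw [hS]; trivial
      induction hz using Submodule.span_induction with
      | mem x hx =>
        apply Submodule.subset_span
        rw [Finset.coe_image]
        exact ⟨x, hx, rfl⟩
      | zero => rw [map_zero]; exact Submodule.zero_mem _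
      | add x y _ _ hx hy => rw [map_add]; exact Submodule.add_mem _ hx hy
      | smul b x _ hx =>
        rw [map_smul]
        have : b • ρB x = (⟨algebraMap B κE b, b, rfl⟩ : V) • ρB x := by
          show b • ρB x = algebraMap B κE b • ρB x
          rw [algebraMap_smul]
        rw [this]
        exact Submodule.smul_mem _ _ hx
  obtain ⟨m, eN⟩ := Module.basisOfFiniteTypeTorsionFree' (R := V) (M := N)
  have hlift : ∀ i, ∃ z : RB, ρB z = (eN i : κF) := fun i => (eN i).2
  choose ℓ hℓ using hlift
  -- `κE`-independence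
  have hindN : LinearIndependent κE (fun i => (eN i : κF)) := by
    rw [← LinearIndependent.iff_fractionRing (R := V)]
    exact eN.linearIndependent.map' N.subtype (Submodule.ker_subtype N)
  have hmle : m ≤ Module.finrank κE κF := by
    have := hindN.fintype_card_le_finrank
    simpa using this
  -- Nakayama
  have hjac : Ideal.span {algebraMap P B lam} ≤ Ideal.jacobson ⊥ := by
    rw [Ideal.span_singleton_le_iff_mem, Ideal.mem_jacobson_bot]
    intro x
    obtain ⟨⟨a, u⟩, hau⟩ := IsLocalization.surj T x
    have h1 : algebraMap P B u * (algebraMap P B lam * x + 1) =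
        algebraMap P B (u + lam * a) := by
      rw [map_add, map_mul, ← hau]; ring
    have h2 : IsUnit (algebraMap P B u * (algebraMap P B lam * x + 1)) := by
      rw [h1]
      exact IsLocalization.map_units B (⟨_, hTsat u u.2 a⟩ : T)
    exact isUnit_of_mul_isUnit_right h2
  have hspan : (⊤ : Submodule B RB) ≤ Submodule.span B (Set.range ℓ) := by
    refine Submodule.le_of_le_smul_of_le_jacobson_bot hfinRB.fg_top hjac ?_
    intro z _
    have h1 : ρB z = ∑ i, (eN.repr ⟨ρB z, z, rfl⟩ i : V) • (eN i : κF) := by
      have := congrArg Subtype.val (eN.sum_repr ⟨ρB z, z, rfl⟩)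
      simp only [AddSubmonoidClass.coe_finsetSum, Submodule.coe_smul] at this
      exact this.symm
    have h2 : ∀ i, ∃ b : B, algebraMap B κE b = (eN.repr ⟨ρB z, z, rfl⟩ i : V) := fun i =>
      (eN.repr ⟨ρB z, z, rfl⟩ i).2
    choose b hb using h2
    have h3 : ρB (z - ∑ i, b i • ℓ i) = 0 := by
      rw [map_sub, map_sum, h1, sub_eq_zero]
      refine Finset.sum_congr rfl fun i _ => ?_
      rw [map_smul, hℓ i]
      show (eN.repr ⟨ρB z, z, rfl⟩ i : κE) • (eN i : κF) = _
      rw [← hb i, algebraMap_smul]
    obtain ⟨w, hw⟩ := hρBker _ h3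
    rw [Submodule.mem_sup]
    refine ⟨∑ i, b i • ℓ i, ?_, algebraMap P B lam • w, ?_, ?_⟩
    · exact Submodule.sum_mem _ fun i _ => Submodule.smul_mem _ _
        (Submodule.subset_span ⟨i, rfl⟩)
    · exact Submodule.smul_mem_smul (Ideal.mem_span_singleton_self _) trivial
    · rw [Algebra.smul_def, ← hw]; ring
  -- generation of `F`
  have hspanF : (⊤ : Submodule E F) ≤ Submodule.span E (Set.range (fun i => φF (ℓ i))) := by
    intro x _
    obtain ⟨p, hp, r, hr⟩ := hfrac x
    have h1 : φF (algebraMap R RB r) ∈ Submodule.span E (Set.range (fun i => φF (ℓ i))) := by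
      have h2 : ∀ z : RB, z ∈ Submodule.span B (Set.range ℓ) := fun z => hspan trivial
      have h3 := h2 (algebraMap R RB r)
      generalize algebraMap R RB r = z at h3
      induction h3 using Submodule.span_induction with
      | mem x hx =>
        obtain ⟨i, rfl⟩ := hx
        exact Submodule.subset_span ⟨i, rfl⟩
      | zero => rw [map_zero]; exact Submodule.zero_mem _
      | add x y _ _ hx hy => rw [map_add]; exact Submodule.add_mem _ hx hy
      | smul b x _ hx =>
        rw [map_smul, ← algebraMap_smul E b]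
        exact Submodule.smul_mem _ _ hx
    rw [hφF, ← hr] at h1
    have h3 : x = (algebraMap P E p)⁻¹ • (algebraMap P F p * x) := by
      rw [IsScalarTower.algebraMap_apply P E F, ← Algebra.smul_def, smul_smul, inv_mul_cancel₀,
        one_smul]
      rw [Ne, map_eq_zero_iff _ hinjPE]
      exact hp
    rw [h3]
    exact Submodule.smul_mem _ _ h1
  have hmge : Module.finrank E F ≤ m := by
    have h1 := finrank_range_le_card (R := E) (fun i => φF (ℓ i))
    have h2 : Set.finrank E (Set.range (fun i => φF (ℓ i))) = Module.finrank E F := by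
      rw [Set.finrank, top_le_iff.mp hspanF, finrank_top]
    rw [h2] at h1
    simpa using h1
  have hm : m = Module.finrank κE κF := le_antisymm hmle (hdim ▸ hmge)
  have hindF : LinearIndependent E (fun i => φF (ℓ i)) := by
    apply linearIndependent_of_top_le_span_of_card_eq_finrank hspanF
    rw [Fintype.card_fin, hm, hdim]
  have hindB : LinearIndependent B ℓ := by
    have h1 : LinearIndependent B (fun i => φF (ℓ i)) :=
      hindF.restrict_scalars (fun a b h => by
        apply hinjBE
        have : algebraMap B E a = algebraMap B E b := by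
          rw [Algebra.algebraMap_eq_smul_one, Algebra.algebraMap_eq_smul_one]; exact h
        exact this)
    exact LinearIndependent.of_comp φF.toLinearMap h1
  let bB : Basis (Fin m) B RB := Basis.mk hindB hspan
  have hbB : ∀ i, bB i = ℓ i := fun i => Basis.mk_apply hindB hspan i
  let e : Basis (Fin m) κE κF := basisOfLinearIndependentOfCardEqFinrank' _ hindN
    (by rw [Fintype.card_fin, hm])
  have he : ∀ i, e i = ρB (bB i) := by
    intro i
    rw [hbB, hℓ i]
    simp [e]
  -- transfer of divisibility from `B` to `P`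
  have hprime : ∀ g : B, Prime g → ¬ Associated g (algebraMap P B lam) →
      ∃ p : P, Prime p ∧ ¬ Associated p lam ∧ (∀ u ∈ T, ¬ p ∣ u) ∧
        Associated (algebraMap P B p) g := by
    intro g hg hgl
    obtain ⟨p, hp, hpg⟩ := exists_prime_associated T B h0T g hg
    refine ⟨p, hp, ?_, ?_, hpg⟩
    · intro h
      exact hgl (hpg.symm.trans (h.map (algebraMap P B)))
    · intro u hu hpu
      have h1 : IsUnit (algebraMap P B p) :=
        isUnit_of_dvd_unit (map_dvd (algebraMap P B) hpu) (IsLocalization.map_units B (⟨u, hu⟩ : T))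
      exact hg.not_isUnit (hpg.isUnit_iff.mp h1)
  obtain ⟨z, hz⟩ := exists_reduction_of_isIntegral bB (algebraMap P B lam)
    ((hBκE lam).trans ((hker lam).mpr dvd_rfl)) ρB hρBker e he
    (by
      intro g hg hgl n hn hgn
      obtain ⟨p, hp, hpl, hpT, hpg⟩ := hprime g hg hgl
      have h1 : algebraMap P B p ∣ algebraMap P B (n : P) := by
        rw [map_natCast]; exact hpg.dvd.trans hgn
      obtain ⟨w, hw⟩ := h1
      obtain ⟨⟨a, u⟩, hau⟩ := IsLocalization.surj T w
      have h2 : (n : P) * u = p * a := by
        apply hinjPB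
        rw [map_mul, map_mul, hw, mul_assoc, hau]
      rcases hp.dvd_or_dvd (Dvd.intro _ h2.symm) with h | h
      · exact hchar p hp hpl hpT n hn h
      · exact hpT u u.2 h)
    (by
      intro g hg hgl z hz
      obtain ⟨p, hp, hpl, hpT, hpg⟩ := hprime g hg hgl
      obtain ⟨u, hu, r, hr⟩ := hsurj z
      have hpg' := hpg.map (algebraMap B RB)
      have h1 : algebraMap P RB p ∣ algebraMap R RB (r * r) := by
        rw [map_mul, ← hr, IsScalarTower.algebraMap_apply P B RB]
        exact (hpg'.dvd.trans hz).trans ⟨algebraMap P RB u * algebraMap P RB u, by ring⟩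
      obtain ⟨w, hw⟩ := h1
      obtain ⟨u', hu', r', hr'⟩ := hsurj w
      have h2 : algebraMap R RB (algebraMap P R u' * (r * r)) =
          algebraMap R RB (algebraMap P R p * r') := by
        rw [map_mul, hw, map_mul, ← hr', ← IsScalarTower.algebraMap_apply,
          ← IsScalarTower.algebraMap_apply]
        ring
      obtain ⟨⟨_, u'', hu'', rfl⟩, h3⟩ :=
        (IsLocalization.eq_iff_exists (Algebra.algebraMapSubmonoid R T) RB).mp h2
      simp only at h3
      have h4 : algebraMap P R p ∣ (algebraMap P R u'' * algebraMap P R u' * r) *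
          (algebraMap P R u'' * algebraMap P R u' * r) := by
        have : (algebraMap P R u'' * algebraMap P R u' * r) *
          (algebraMap P R u'' * algebraMap P R u' * r) =
            algebraMap P R u'' * algebraMap P R u' *
              (algebraMap P R u'' * (algebraMap P R u' * (r * r))) := by ring
        rw [this, h3]
        exact ⟨algebraMap P R u'' * algebraMap P R u' * (algebraMap P R u'' * r'), by ring⟩
      have h5 := hred p hp hpl hpT _ h4
      have h6 : algebraMap P RB p ∣ algebraMap P RB u'' * algebraMap P RB u' * algebraMap R RB r := by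
        have := map_dvd (algebraMap R RB) h5
        simpa only [map_mul, ← IsScalarTower.algebraMap_apply] using this
      have h7 : algebraMap P RB p ∣ algebraMap R RB r :=
        ((huRB u'' hu'').mul (huRB u' hu')).dvd_mul_left.mp h6
      rw [← hr] at h7
      have h8 := (huRB u hu).dvd_mul_left.mp h7
      rw [IsScalarTower.algebraMap_apply P B RB] at h8
      exact hpg'.symm.dvd.trans h8)
    (by
      intro x hx
      have h1 : IsIntegral V x := by
        obtain ⟨f, hf, hfx⟩ := hx
        refine ⟨f.map (algebraMap B κE).rangeRestrict, hf.map _, ?_⟩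
        rw [Polynomial.eval₂_map]
        exact hfx
      obtain ⟨⟨_, b, rfl⟩, hv⟩ := IsIntegrallyClosed.isIntegral_iff.mp h1
      exact ⟨b, hv⟩)
    y (by
      obtain ⟨f, hf, hfx⟩ := hy
      refine ⟨f.map (algebraMap P B), hf.map _, ?_⟩
      rw [Polynomial.eval₂_map]
      convert hfx using 2
      ext x
      exact hBκF x)
  obtain ⟨u, hu, r, hr⟩ := hsurj z
  refine ⟨u, hu, r, ?_⟩
  rw [← hρB, ← hr, map_mul, hz, IsScalarTower.algebraMap_apply P B RB, AlgHom.commutes, hBκF]

end Glob

section Final

variable {P R : Type*} [CommRing P] [IsDomain P] [UniqueFactorizationMonoid P]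
  [CommRing R] [Algebra P R]
variable {E F κE κF : Type*} [Field E] [Field F] [Field κE] [Field κF]
  [Algebra P E] [IsFractionRing P E] [Algebra E F] [Algebra P F] [IsScalarTower P E F]
  [Algebra R F] [IsScalarTower P R F]
  [Algebra P κE] [Algebra κE κF] [Algebra P κF] [IsScalarTower P κE κF]

/-- **Purity, global form.**  `P` is a UFD, `lam` a prime of `P` with `P / lam` a PID, `R` a finite
`P`-algebra contained in the field `F`, `ρ : R → κF` the reduction modulo `lam` (kernel `lam R`),
with `[F : Frac P] = [κF : Frac (P / lam)]` and `κF` separable.  `T` is a multiplicative set.  If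
`R / g` is reduced for all primes `g` of `P` not associated to `lam` and not dividing elements
of `T`, then for every element `y` of `κF` integral over `P` some multiple `u y`, `u ∈ T`, is
in the image of the reduction. -/
theorem purity [IsDomain R] [Module.Finite P R] [FaithfulSMul R F]
    [FiniteDimensional E F] [FiniteDimensional κE κF] [Algebra.IsSeparable κE κF]
    (T : Submonoid P) (lam : P) (hlam : Prime lam)
    (hker : ∀ x : P, algebraMap P κE x = 0 ↔ lam ∣ x)
    (hκE : ∀ x : κE, ∃ a b : P, algebraMap P κE b ≠ 0 ∧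
      x = algebraMap P κE a / algebraMap P κE b)
    (hPID : IsPrincipalIdealRing (algebraMap P κE).range)
    (ρ : R →ₐ[P] κF) (hρ : ∀ z, ρ z = 0 → algebraMap P R lam ∣ z)
    (hdim : Module.finrank E F = Module.finrank κE κF)
    (hfrac : ∀ x : F, ∃ p : P, p ≠ 0 ∧ ∃ r : R, algebraMap P F p * x = algebraMap R F r)
    (hT : ∀ u ∈ T, ¬ lam ∣ u) (hTsat : ∀ u ∈ T, ∀ x, u + lam * x ∈ T)
    (hchar : ∀ g : P, Prime g → ¬ Associated g lam → (∀ u ∈ T, ¬ g ∣ u) →
      ∀ n : ℕ, n ≠ 0 → ¬ g ∣ (n : P))
    (hred : ∀ g : P, Prime g → ¬ Associated g lam → (∀ u ∈ T, ¬ g ∣ u) →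
      ∀ z : R, algebraMap P R g ∣ z * z → algebraMap P R g ∣ z)
    (y : κF) (hy : IsIntegral P y) : ∃ u ∈ T, ∃ r : R, ρ r = algebraMap P κF u * y :=
  purity_aux T (Localization T) (Localization (Algebra.algebraMapSubmonoid R T)) lam hlam hker hκE
    hPID ρ hρ hdim hfrac hT hTsat hchar hred y hy

end Final

end Fermat.Agent.H29
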